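/-
The Shimura class: the homomorphism `Γ₀(p) → (ZMod p)ˣ`, `γ ↦ d ^ 12`.
It kills all parabolic and elliptic elements and has order `eisensteinNumerator p`.
-/
import Fermat.Agent.ParHom.Defs
import Fermat.Prelude.Def_ModularCurve_ModularUnit
import Mathlib.NumberTheory.ModularForms.CongruenceSubgroups
import Mathlib.RingTheory.ZMod.UnitsCyclic

set_option autoImplicit false

namespace Fermat.Agent.Eisenstein

open CongruenceSubgroup Fermat.Agent
open scoped MatrixGroups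

variable {p : ℕ}

theorem a_mul_d_eq_one (γ : Gamma0 p) :
    ((((γ : SL(2, ℤ)) 0 0 : ℤ) : ZMod p)) * (((γ : SL(2, ℤ)) 1 1 : ℤ) : ZMod p) = 1 := by
  have hc : (((γ : SL(2, ℤ)) 1 0 : ℤ) : ZMod p) = 0 := Gamma0_mem.mp γ.2
  have h := Matrix.SpecialLinearGroup.det_coe (γ : SL(2, ℤ))
  rw [Matrix.det_fin_two] at h
  have h' := congrArg (fun x : ℤ => (x : ZMod p)) h
  push_cast at h'
  rw [hc, mul_zero, sub_zero] at h'
  exact h'

/-- The bottom right entry of an element of `Γ₀(p)`, as a unit mod `p`. -/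
def dUnit (p : ℕ) : Gamma0 p →* (ZMod p)ˣ where
  toFun γ :=
    ⟨(((γ : SL(2, ℤ)) 1 1 : ℤ) : ZMod p), (((γ : SL(2, ℤ)) 0 0 : ℤ) : ZMod p),
      by rw [mul_comm]; exact a_mul_d_eq_one γ, a_mul_d_eq_one γ⟩
  map_one' := Units.ext (by simp)
  map_mul' γ δ := Units.ext (by
    have hc : (((γ : SL(2, ℤ)) 1 0 : ℤ) : ZMod p) = 0 := Gamma0_mem.mp γ.2
    simp [Matrix.mul_apply, Fin.sum_univ_two, hc])

@[simp] theorem dUnit_val (γ : Gamma0 p) :
    ((dUnit p γ : (ZMod p)ˣ) : ZMod p) = (((γ : SL(2, ℤ)) 1 1 : ℤ) : ZMod p) := rfl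

/-- The Shimura class `γ ↦ d ^ 12`. -/
def shimuraHom (p : ℕ) : Additive (Gamma0 p) →+ Additive (ZMod p)ˣ :=
  MonoidHom.toAdditive ((powMonoidHom 12).comp (dUnit p))

theorem shimuraHom_apply (γ : Gamma0 p) :
    shimuraHom p (Additive.ofMul γ) = Additive.ofMul (dUnit p γ ^ 12) := rfl

/-- `d ^ 12 = 1` for parabolic and elliptic elements. -/
theorem pow_twelve_eq_one {R : Type*} [CommRing R] {d : R} {t : ℤ} (ht : t ^ 2 ≤ 4)
    (h : d ^ 2 - (t : R) * d + 1 = 0) (h2 : t ^ 2 = 4 → d = 1 ∨ d = -1) : d ^ 12 = 1 := by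
  have hl : -2 ≤ t := by nlinarith
  have hr : t ≤ 2 := by nlinarith
  interval_cases t
  · rcases h2 (by norm_num) with rfl | rfl <;> ring
  · push_cast at h
    linear_combination (d ^ 10 - d ^ 9 + d ^ 7 - d ^ 6 + d ^ 4 - d ^ 3 + d - 1) * h
  · push_cast at h
    linear_combination (d ^ 10 - d ^ 8 + d ^ 6 - d ^ 4 + d ^ 2 - 1) * h
  · push_cast at h
    linear_combination (d ^ 10 + d ^ 9 - d ^ 7 - d ^ 6 + d ^ 4 + d ^ 3 - d - 1) * h
  · rcases h2 (by norm_num) with rfl | rfl <;> ring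

theorem isParEllHom_shimuraHom [Fact p.Prime] :
    ParHom.IsParEllHom (Gamma0 p) (shimuraHom p) := by
  intro γ hγ
  rw [shimuraHom_apply, ← ofMul_one]
  congr 1
  apply Units.ext
  rw [Units.val_pow_eq_pow_val, Units.val_one, dUnit_val]
  set t : ℤ := ParHom.tr (γ : SL(2, ℤ))
  set d : ZMod p := (((γ : SL(2, ℤ)) 1 1 : ℤ) : ZMod p)
  have hq : d ^ 2 - (t : ZMod p) * d + 1 = 0 := by
    have ha := a_mul_d_eq_one γ
    simp only [t, ParHom.tr, Matrix.trace_fin_two]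
    push_cast
    linear_combination -ha
  refine pow_twelve_eq_one hγ hq fun h4 => ?_
  have ht : t = 2 ∨ t = -2 := sq_eq_sq_iff_eq_or_eq_neg.mp (by norm_num [h4])
  rcases ht with ht | ht <;> rw [ht] at hq <;> push_cast at hq
  · left
    have : (d - 1) ^ 2 = 0 := by linear_combination hq
    exact sub_eq_zero.mp (sq_eq_zero_iff.mp this)
  · right
    have : (d + 1) ^ 2 = 0 := by linear_combination hq
    exact eq_neg_of_add_eq_zero_left (sq_eq_zero_iff.mp this)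

theorem exists_dUnit_eq [Fact p.Prime] (u : (ZMod p)ˣ) : ∃ γ : Gamma0 p, dUnit p γ = u := by
  obtain ⟨d, hd⟩ := ZMod.intCast_surjective (u : ZMod p)
  have hcop : IsCoprime d (p : ℤ) := by
    rw [isCoprime_comm, (Nat.prime_iff_prime_int.1 (Fact.out : p.Prime)).coprime_iff_not_dvd,
      ← ZMod.intCast_zmod_eq_zero_iff_dvd, hd]
    exact u.ne_zero
  obtain ⟨a, b, hab⟩ := hcop
  let γ : SL(2, ℤ) := ⟨!![a, -b; (p : ℤ), d], by rw [Matrix.det_fin_two_of]; linear_combination hab⟩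
  have hγ : γ ∈ Gamma0 p := Gamma0_mem.mpr (by simp [γ])
  exact ⟨⟨γ, hγ⟩, Units.ext (by simp [γ, hd])⟩

/-- The Shimura class has order `eisensteinNumerator p`. -/
theorem eisensteinNumerator_dvd_of_zsmul [Fact p.Prime] {k : ℤ}
    (h : k • shimuraHom p = 0) : (ModularCurve.eisensteinNumerator p : ℤ) ∣ k := by
  obtain ⟨g, hg⟩ := IsCyclic.exists_ofOrder_eq_natCard (α := (ZMod p)ˣ)
  rw [Nat.card_eq_fintype_card, ZMod.card_units] at hg
  obtain ⟨γ, hγ⟩ := exists_dUnit_eq g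
  have h' : (g ^ 12) ^ k = 1 := by
    have := DFunLike.congr_fun h (Additive.ofMul γ)
    rw [show (k • shimuraHom p) (Additive.ofMul γ) = k • shimuraHom p (Additive.ofMul γ) from rfl,
      shimuraHom_apply, hγ, ← ofMul_zpow, AddMonoidHom.zero_apply,
      ← ofMul_one] at this
    exact Additive.ofMul.injective this
  rw [← orderOf_dvd_iff_zpow_eq_one, orderOf_pow, hg] at h'
  exact h'

end Fermat.Agent.Eisenstein
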