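/-
The Shimura class is an Eisenstein eigenvector of the Hecke operators on homomorphisms.
-/
import Fermat.Agent.Eisenstein.LowerShimura
import Fermat.Agent.HeckeCohom.Operators
import Fermat.Prelude.Def_HeckeGalois_EichlerShimura

set_option autoImplicit false

noncomputable section

namespace Fermat.Agent.Eisenstein

open CongruenceSubgroup Fermat.Agent.HeckeCohom ModularCurve
open scoped MatrixGroups

variable {p : ℕ}

/-- The entries `(a, b, d)` of the representative `(a b; 0 d)`. -/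
def repEntry (ℓ : ℕ) (i : HeckeIdx p ℓ) : ℤ × ℤ × ℤ :=
  i.1.elim ((ℓ : ℤ), 0, 1) (fun j => (1, (j.val : ℤ), (ℓ : ℤ)))

theorem rep_step {ℓ : ℕ} (hℓ : ℓ ≠ 0) {γ c : Gamma0 p} {i j : HeckeIdx p ℓ}
    (e : heckeBeta p ℓ i * gamma0GL p γ = gamma0GL p c * heckeBeta p ℓ j) :
    (repEntry ℓ i).1 * (γ : SL(2, ℤ)) 0 0 + (repEntry ℓ i).2.1 * (γ : SL(2, ℤ)) 1 0
        = (c : SL(2, ℤ)) 0 0 * (repEntry ℓ j).1 ∧
      (repEntry ℓ i).2.2 * (γ : SL(2, ℤ)) 1 1
        = (c : SL(2, ℤ)) 1 0 * (repEntry ℓ j).2.1 + (c : SL(2, ℤ)) 1 1 * (repEntry ℓ j).2.2 := by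
  have e' := congrArg (fun M : GL (Fin 2) ℝ => (M : Matrix (Fin 2) (Fin 2) ℝ)) e
  have e00 := congrFun (congrFun e' 0) 0
  have e11 := congrFun (congrFun e' 1) 1
  obtain ⟨i, hi⟩ := i
  obtain ⟨j, hj⟩ := j
  rcases i with _ | x <;> rcases j with _ | y <;>
    simp [repEntry, heckeBeta, Matrix.mul_apply, Fin.sum_univ_two, hℓ, -ZMod.natCast_val]
      at e00 e11 ⊢ <;>
    exact ⟨by exact_mod_cast e00, by exact_mod_cast e11⟩

theorem heckeHom_shimuraHom [Fact p.Prime] (ℓ : Nat.Primes) :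
    heckeHom p ℤ (Additive (ZMod p)ˣ) ℓ (shimuraHom p) = eisensteinSystem p ℓ • shimuraHom p := by
  haveI : Fact (ℓ : ℕ).Prime := ⟨ℓ.2⟩
  haveI : NeZero (ℓ : ℕ) := ⟨ℓ.2.ne_zero⟩
  have hsys := isCosetSystem p ℓ
  refine AddMonoidHom.ext fun γ => ?_
  obtain ⟨γ, rfl⟩ : ∃ g : Gamma0 p, Additive.ofMul g = γ := ⟨Additive.toMul γ, rfl⟩
  rw [heckeHom_eq_sum ℓ _ γ (fun i => hsys.cocycle γ i) (fun i => hsys.perm γ i)
    (fun i => hsys.spec γ i)]
  have step := fun i => rep_step ℓ.2.ne_zero (hsys.spec γ i)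
  simp only [shimuraHom_apply]
  rw [← ofMul_prod, Finset.prod_pow]
  have hz : ((eisensteinSystem p ℓ) • shimuraHom p) (Additive.ofMul γ)
      = Additive.ofMul ((dUnit p γ ^ 12) ^ eisensteinSystem p ℓ) := rfl
  rw [hz]
  congr 1
  by_cases h : (ℓ : ℕ) ∣ p
  · have hlp : (ℓ : ℕ) = p := (Nat.prime_dvd_prime_iff_eq ℓ.2 Fact.out).mp h
    rw [eisensteinSystem_of_dvd h, zpow_one]
    congr 1
    have key : ∀ i, dUnit p (hsys.cocycle γ i) = dUnit p γ := by
      intro i
      obtain ⟨x, hx⟩ : ∃ x, i.1 = some x :=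
        Option.ne_none_iff_exists'.mp fun hi => i.2 hi h
      obtain ⟨y, hy⟩ : ∃ y, (hsys.perm γ i).1 = some y :=
        Option.ne_none_iff_exists'.mp fun hi => (hsys.perm γ i).2 hi h
      have hs := congrArg (Int.cast : ℤ → ZMod p) (step i).1
      simp [repEntry, hx, hy, Gamma0_mem.mp γ.2] at hs
      apply Units.ext
      rw [dUnit_val, dUnit_val]
      have h1 := a_mul_d_eq_one γ
      have h2 := a_mul_d_eq_one (hsys.cocycle γ i)
      rw [← hs] at h2
      linear_combination (-((((hsys.cocycle γ i : Gamma0 p) : SL(2, ℤ)) 1 1 : ℤ) : ZMod p)) * h1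
        + ((((γ : SL(2, ℤ)) 1 1 : ℤ) : ZMod p)) * h2
    rw [Finset.prod_congr rfl fun i _ => key i, Finset.prod_const, Finset.card_univ]
    have hcard : Fintype.card (HeckeIdx p ℓ) = p := by
      have := sum_heckeBeta (M := ℕ) p ℓ (fun _ => 1)
      simpa [h, hlp] using this
    rw [hcard]
    exact Units.ext (by rw [Units.val_pow_eq_pow_val, ZMod.pow_card])
  · have hne : ((ℓ : ℕ) : ZMod p) ≠ 0 := by
      rw [Ne, ZMod.natCast_eq_zero_iff, Nat.dvd_prime ℓ.2]
      rintro (h1 | h1)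
      · exact (Fact.out : p.Prime).ne_one h1
      · exact h (h1 ▸ dvd_rfl)
    let D : HeckeIdx p ℓ → (ZMod p)ˣ := fun i => i.1.elim 1 (fun _ => Units.mk0 _ hne)
    have hD : ∀ i, ((D i : (ZMod p)ˣ) : ZMod p) = ((repEntry ℓ i).2.2 : ZMod p) := by
      rintro ⟨_ | x, hx⟩ <;> simp [D, repEntry]
    have key : ∀ i, D i * dUnit p γ = dUnit p (hsys.cocycle γ i) * D (hsys.perm γ i) := by
      intro i
      have hs := congrArg (Int.cast : ℤ → ZMod p) (step i).2
      push_cast at hs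
      rw [Gamma0_mem.mp (hsys.cocycle γ i).2, zero_mul, zero_add] at hs
      apply Units.ext
      rw [Units.val_mul, Units.val_mul, hD, hD, dUnit_val, dUnit_val]
      exact hs
    have hprod : (∏ i, D i) * dUnit p γ ^ Fintype.card (HeckeIdx p ℓ)
        = (∏ i, dUnit p (hsys.cocycle γ i)) * ∏ i, D i := by
      have := Finset.prod_congr (rfl : (Finset.univ : Finset (HeckeIdx p ℓ)) = _)
        fun i _ => key i
      rw [Finset.prod_mul_distrib, Finset.prod_mul_distrib, Finset.prod_const,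
        Finset.card_univ] at this
      rw [this, show ∏ i, D (hsys.perm γ i) = ∏ i, D i from
        Equiv.prod_comp (hsys.permEquiv γ) D]
    have hcard : Fintype.card (HeckeIdx p ℓ) = ℓ + 1 := by
      have := sum_heckeBeta (M := ℕ) p ℓ (fun _ => 1)
      simpa [h] using this
    rw [mul_comm, mul_left_inj, hcard] at hprod
    rw [← hprod, eisensteinSystem_of_not_dvd h, ← pow_mul, ← zpow_natCast, ← zpow_natCast,
      ← zpow_mul]
    congr 1
    push_cast
    ring

end Fermat.Agent.Eisenstein
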