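/-
The lower bound for the index of the Eisenstein ideal, and the assembly of the index formula
from the lower and upper bounds.
-/
import Fermat.Agent.Eisenstein.LowerEigen
import Fermat.Agent.ParHom.Free
import Fermat.Agent.Periods.Injective
import Fermat.Prelude.Def_CuspForm_HeckeEvalForms
import Fermat.Prelude.Def_CuspForm_HeckeLocal

set_option autoImplicit false

noncomputable section

namespace Fermat.Agent.Eisenstein

open CongruenceSubgroup Fermat.Agent.HeckeCohom ModularCurve ModularCurve.Period CuspForm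
open scoped MatrixGroups

/-- The Hecke operators intertwine with the periods. -/
def PeriodsIntertwine (N : ℕ) [NeZero N] : Prop :=
  ∀ (ℓ : Nat.Primes) (f : CuspForm (Gamma0 N) 2),
    periodMap N (((heckeFormsGen N 2 ℓ : heckeAlgebra N 2 ∅) :
      Module.End ℂ (CuspForm (Gamma0 N) 2)) f) = heckeHom N ℂ ℂ ℓ (periodMap N f)

variable {N : ℕ} [NeZero N]

theorem periodHomPair_heckeFormsGen (hT : PeriodsIntertwine N) (ℓ : Nat.Primes)
    (f g : CuspForm (Gamma0 N) 2) :
    periodHomPair N
        (((heckeFormsGen N 2 ℓ : heckeAlgebra N 2 ∅) : Module.End ℂ (CuspForm (Gamma0 N) 2)) f,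
         ((heckeFormsGen N 2 ℓ : heckeAlgebra N 2 ∅) : Module.End ℂ (CuspForm (Gamma0 N) 2)) g)
      = heckeHom N ℂ ℂ ℓ (periodHomPair N (f, g)) := by
  rw [Periods.periodHomPair_apply, Periods.periodHomPair_apply, hT, hT, map_add, map_add, map_sub,
    charInvolution_heckeHom, charInvolution_heckeHom]

theorem isParEllHom_heckeHom_int (ℓ : Nat.Primes) {e : Additive (Gamma0 N) →+ ℤ}
    (he : ParHom.IsParEllHom (Gamma0 N) e) :
    ParHom.IsParEllHom (Gamma0 N) (heckeHom N ℤ ℤ ℓ e) :=
  ParHom.isParabolicHom_iff.mp (heckeHom_mem_parabolicHoms (R := ℤ) ℓ he.isParabolicHom)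

/-- A Hecke polynomial killing all cusp forms kills every Eisenstein eigenclass which lifts to
an integral parabolic class. -/
theorem eisenstein_smul_eq_zero (hT : PeriodsIntertwine N)
    (hsurj : parabolicHoms ℂ (Gamma0 N) ℂ ≤ LinearMap.range (periodHomPair N))
    {A : Type} [AddCommGroup A] {u : Additive (Gamma0 N) →+ A}
    (hu : ∀ ℓ : Nat.Primes, heckeHom N ℤ A ℓ u = eisensteinSystem N ℓ • u)
    (π : ℤ →+ A) {e : Additive (Gamma0 N) →+ ℤ} (he : ParHom.IsParEllHom (Gamma0 N) e)
    (heu : π.comp e = u) {t : HeckeAlg} (ht : heckeEvalForms N 2 t = 0) :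
    MvPolynomial.aeval (eisensteinSystem N) t • u = 0 := by
  suffices key : ∀ t : HeckeAlg, ∀ e : Additive (Gamma0 N) →+ ℤ, ∀ k : ℤ,
      ParHom.IsParEllHom (Gamma0 N) e → π.comp e = k • u →
      ∃ e' : Additive (Gamma0 N) →+ ℤ, ParHom.IsParEllHom (Gamma0 N) e' ∧
        π.comp e' = (k * MvPolynomial.aeval (eisensteinSystem N) t) • u ∧
        ∀ f g, (Int.castAddHom ℂ).comp e = periodHomPair N (f, g) →
          (Int.castAddHom ℂ).comp e' = periodHomPair N
            ((heckeEvalForms N 2 t : Module.End ℂ (CuspForm (Gamma0 N) 2)) f,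
             (heckeEvalForms N 2 t : Module.End ℂ (CuspForm (Gamma0 N) 2)) g) by
    obtain ⟨e', -, he', hfg⟩ := key t e 1 he (by rw [heu, one_smul])
    obtain ⟨⟨f, g⟩, hfg'⟩ := hsurj (x := (Int.castAddHom ℂ).comp e)
      (fun γ hγ => by simp [he.isParabolicHom γ hγ])
    have h0 : (Int.castAddHom ℂ).comp e' = 0 := by
      rw [hfg f g hfg'.symm, ht]
      simp [← Prod.zero_eq_mk]
    have hz : e' = 0 := AddMonoidHom.ext fun γ => by
      have := DFunLike.congr_fun h0 γ
      simpa using this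
    rw [one_mul, hz, AddMonoidHom.comp_zero] at he'
    exact he'.symm
  intro t
  induction t using MvPolynomial.induction_on with
  | C a =>
    intro e k he hek
    refine ⟨a • e, fun γ hγ => by simp [he γ hγ], ?_, fun f g hfg => ?_⟩
    · rw [MvPolynomial.aeval_C, mul_comm, mul_smul, ← hek]
      exact AddMonoidHom.ext fun γ => map_zsmul π a (e γ)
    · rw [heckeEvalForms_C]
      refine Eq.trans ?_ (congrArg _ (?_ : (a • f, a • g) = _))
      · rw [show ((a • f, a • g) : CuspForm (Gamma0 N) 2 × CuspForm (Gamma0 N) 2) = a • (f, g)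
          from rfl, map_zsmul, ← hfg]
        refine AddMonoidHom.ext fun γ => ?_
        simp
      · simp [Algebra.algebraMap_eq_smul_one]
  | add x y hx hy =>
    intro e k he hek
    obtain ⟨ex, hxpe, hxu, hxfg⟩ := hx e k he hek
    obtain ⟨ey, hype, hyu, hyfg⟩ := hy e k he hek
    refine ⟨ex + ey, fun γ hγ => by simp [hxpe γ hγ, hype γ hγ], ?_, fun f g hfg => ?_⟩
    · rw [map_add, mul_add, add_smul, ← hxu, ← hyu]
      refine AddMonoidHom.ext fun γ => ?_
      simp
    · rw [AddMonoidHom.comp_add, hxfg f g hfg, hyfg f g hfg, ← map_add]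
      simp
  | mul_X x ℓ hx =>
    intro e k he hek
    obtain ⟨e', he', heu', hfg'⟩ := hx (heckeHom N ℤ ℤ ℓ e) (k * eisensteinSystem N ℓ)
      (isParEllHom_heckeHom_int ℓ he)
      (by rw [comp_heckeHom (S := ℤ), hek, map_zsmul, hu, mul_smul])
    refine ⟨e', he', ?_, fun f g hfg => ?_⟩
    · rw [heu', map_mul, MvPolynomial.aeval_X, mul_assoc, mul_comm (MvPolynomial.aeval _ x)]
    · rw [map_mul, show heckeEvalForms N 2 (MvPolynomial.X ℓ) = heckeFormsGen N 2 ℓ from
        heckeEvalForms_heckeGen N 2 ℓ]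
      exact hfg' _ _ (by
        rw [comp_heckeHom (S := ℂ), hfg, periodHomPair_heckeFormsGen hT])

variable {p : ℕ} [Fact p.Prime]

/-- Lower bound: a Hecke polynomial killing all cusp forms has Eisenstein value divisible by the
numerator of `(p - 1) / 12`. -/
theorem eisensteinNumerator_dvd_aeval (hT : PeriodsIntertwine p)
    (hsurj : parabolicHoms ℂ (Gamma0 p) ℂ ≤ LinearMap.range (periodHomPair p))
    {t : HeckeAlg} (ht : heckeEvalForms p 2 t = 0) :
    (eisensteinNumerator p : ℤ) ∣ MvPolynomial.aeval (eisensteinSystem p) t := by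
  obtain ⟨g, hg⟩ := IsCyclic.exists_generator (α := (ZMod p)ˣ)
  let π : ℤ →+ Additive (ZMod p)ˣ := zmultiplesHom _ (Additive.ofMul g)
  have hπ : Function.Surjective π := fun x => by
    obtain ⟨k, hk⟩ := hg x.toMul
    exact ⟨k, by simp [π, ← ofMul_zpow, show g ^ k = x.toMul from hk]⟩
  have hneg : (-1 : SL(2, ℤ)) ∈ Gamma0 p := by simp [Gamma0_mem]
  obtain ⟨e, he, heu⟩ :=
    ParHom.exists_lift_of_surjective hneg π hπ (isParEllHom_shimuraHom (p := p))
  exact eisensteinNumerator_dvd_of_zsmul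
    (eisenstein_smul_eq_zero hT hsurj heckeHom_shimuraHom π he heu ht)

/-- The index formula from the two bounds. -/
theorem natCard_quotient_eisensteinIdeal (hint : HasIntegralStructure p 2)
    (hT : PeriodsIntertwine p)
    (hsurj : parabolicHoms ℂ (Gamma0 p) ℂ ≤ LinearMap.range (periodHomPair p))
    (hupper : ((eisensteinNumerator p : ℕ) : ↥(heckeLatticeAlgebra p ∅)) ∈
      Ideal.map ((latticeRestrictHom p ∅).toRingHom.comp (heckeEvalForms p 2))
        (eisensteinIdeal p)) :
    Nat.card (↥(heckeLatticeAlgebra p ∅) ⧸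
        Ideal.map ((latticeRestrictHom p ∅).toRingHom.comp (heckeEvalForms p 2))
          (eisensteinIdeal p)) = eisensteinNumerator p := by
  set φ := (latticeRestrictHom p ∅).toRingHom.comp (heckeEvalForms p 2)
  set I := Ideal.map φ (eisensteinIdeal p)
  have hsur : Function.Surjective φ := by
    refine (latticeRestrictHom_surjective p ∅).comp ?_
    have htop : heckeAlgebra p 2 ∅ ≤
        ((heckeAlgebra p 2 ∅).val.comp (MvPolynomial.aeval (heckeFormsGen p 2))).range := by
      refine Algebra.adjoin_le ?_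
      rintro T (⟨ℓ, hℓ, hℓN, -, rfl⟩ | ⟨q, hqN, hq, -, rfl⟩)
      · exact ⟨heckeGen ⟨ℓ, hℓ⟩,
          congrArg Subtype.val (heckeEvalForms_heckeGen_of_not_dvd (ℓ := ⟨ℓ, hℓ⟩) hℓN)⟩
      · exact ⟨heckeGen ⟨q, hq⟩,
          congrArg Subtype.val (heckeEvalForms_heckeGen_of_dvd (q := ⟨q, hq⟩) hqN)⟩
    intro x
    obtain ⟨t, ht⟩ := htop x.2
    exact ⟨t, Subtype.ext ht⟩
  let ψ : ℤ →+* ↥(heckeLatticeAlgebra p ∅) ⧸ I := Int.castRingHom _
  have hred : ∀ t : HeckeAlg, Ideal.Quotient.mk I (φ t)
      = ψ (MvPolynomial.aeval (eisensteinSystem p) t) := by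
    intro t
    have hmem : t - MvPolynomial.C (MvPolynomial.aeval (eisensteinSystem p) t)
        ∈ eisensteinIdeal p := by
      rw [eisensteinIdeal, mem_eigenIdeal_iff, map_sub, MvPolynomial.aeval_C]
      simp
    have h := Ideal.Quotient.eq_zero_iff_mem.mpr (Ideal.mem_map_of_mem φ hmem)
    rw [map_sub, map_sub, sub_eq_zero] at h
    rw [h, ← RingHom.comp_apply φ, ← RingHom.comp_apply (Ideal.Quotient.mk I)]
    exact RingHom.congr_fun (Subsingleton.elim _ ψ) _
  have hψ : Function.Surjective ψ := fun x => by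
    obtain ⟨y, rfl⟩ := Ideal.Quotient.mk_surjective x
    obtain ⟨t, rfl⟩ := hsur y
    exact ⟨_, (hred t).symm⟩
  have hker : RingHom.ker ψ = Ideal.span {(eisensteinNumerator p : ℤ)} := by
    refine le_antisymm (fun k hk => ?_) ?_
    · rw [RingHom.mem_ker] at hk
      have hk' : Ideal.Quotient.mk I (φ (MvPolynomial.C k)) = 0 := by
        rw [hred, MvPolynomial.aeval_C]
        simpa using hk
      obtain ⟨i, hi, hik⟩ := (Ideal.mem_map_iff_of_surjective φ hsur).mp
        (Ideal.Quotient.eq_zero_iff_mem.mp hk')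
      have hzero : heckeEvalForms p 2 (MvPolynomial.C k - i) = 0 := by
        refine (latticeRestrictHom_bijective p ∅ hint).1 ?_
        rw [map_zero]
        show φ (MvPolynomial.C k - i) = 0
        rw [map_sub, hik, sub_self]
      have hdvd := eisensteinNumerator_dvd_aeval hT hsurj hzero
      rw [eisensteinIdeal, mem_eigenIdeal_iff] at hi
      rw [map_sub, hi, sub_zero, MvPolynomial.aeval_C] at hdvd
      exact Ideal.mem_span_singleton.mpr (by simpa using hdvd)
    · rw [Ideal.span_singleton_le_iff_mem, RingHom.mem_ker]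
      show Int.castRingHom _ (eisensteinNumerator p : ℤ) = 0
      rw [map_natCast, ← map_natCast (Ideal.Quotient.mk I)]
      exact Ideal.Quotient.eq_zero_iff_mem.mpr hupper
  rw [← Nat.card_congr (RingHom.quotientKerEquivOfSurjective hψ).toEquiv, hker]
  have := Nat.card_congr (Int.quotientSpanNatEquivZMod (eisensteinNumerator p)).toEquiv
  rw [this, Nat.card_zmod]

end Fermat.Agent.Eisenstein
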