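/-
The index formula for the Eisenstein ideal, given the integral structure and the upper bound.
-/
import Fermat.Agent.Eisenstein.LowerMain
import Fermat.Agent.Periods.EichlerShimura
import Fermat.Agent.HeckeCohom.Periods

set_option autoImplicit false

noncomputable section

namespace Fermat.Agent.Eisenstein

open CongruenceSubgroup ModularCurve CuspForm

theorem periodsIntertwine (N : ℕ) [NeZero N] : PeriodsIntertwine N :=
  fun ℓ f => HeckeCohom.periodMap_formOp ℓ f

/-- A Hecke polynomial killing all cusp forms has Eisenstein value divisible by the numerator of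
`(p - 1) / 12`. -/
theorem eisensteinNumerator_dvd_of_heckeEvalForms_eq_zero (p : ℕ) [Fact p.Prime] {t : HeckeAlg}
    (ht : heckeEvalForms p 2 t = 0) :
    (eisensteinNumerator p : ℤ) ∣ MvPolynomial.aeval (eisensteinSystem p) t :=
  eisensteinNumerator_dvd_aeval (periodsIntertwine p) (Periods.range_periodHomPair p).ge ht

theorem natCard_quotient_of_upper (p : ℕ) [Fact p.Prime] (hint : HasIntegralStructure p 2)
    (hupper : ((eisensteinNumerator p : ℕ) : ↥(heckeLatticeAlgebra p ∅)) ∈
      Ideal.map ((latticeRestrictHom p ∅).toRingHom.comp (heckeEvalForms p 2))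
        (eisensteinIdeal p)) :
    Nat.card (↥(heckeLatticeAlgebra p ∅) ⧸
        Ideal.map ((latticeRestrictHom p ∅).toRingHom.comp (heckeEvalForms p 2))
          (eisensteinIdeal p)) = eisensteinNumerator p :=
  natCard_quotient_eisensteinIdeal hint (periodsIntertwine p) (Periods.range_periodHomPair p).ge
    hupper

end Fermat.Agent.Eisenstein
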