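/-
Functions on the upper half plane with a q-expansion whose coefficients lie in a given subring.
-/
import Mathlib.NumberTheory.ModularForms.QExpansion
import Fermat.Prelude.Thm_UpperHalfPlane_qExpansion_coeff_nat_mul

set_option autoImplicit false

noncomputable section

namespace Fermat.Agent.Eisenstein.UpperB

open UpperHalfPlane hiding I
open Function Complex Filter
open scoped Manifold

/-- Periodic with period `h`, holomorphic and bounded at infinity. -/
structure IsNice (h : ℝ) (f : ℍ → ℂ) : Prop where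
  per : Periodic (f ∘ ofComplex) (h : ℂ)
  hol : MDiff f
  bdd : IsBoundedAtImInfty f

variable {h : ℝ} {f g : ℍ → ℂ}

theorem IsNice.analyticAt (hf : IsNice h f) (hh : 0 < h) :
    AnalyticAt ℂ (cuspFunction h f) 0 :=
  analyticAt_cuspFunction_zero hh hf.per hf.hol hf.bdd

theorem IsNice.const (c : ℂ) : IsNice h (fun _ => c) :=
  ⟨fun _ => rfl, mdifferentiable_const, Filter.const_boundedAtFilter _ c⟩

theorem IsNice.add (hf : IsNice h f) (hg : IsNice h g) : IsNice h (f + g) :=
  ⟨fun w => by simpa using congrArg₂ (· + ·) (hf.per w) (hg.per w), hf.hol.add hg.hol,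
    hf.bdd.add hg.bdd⟩

theorem IsNice.sub (hf : IsNice h f) (hg : IsNice h g) : IsNice h (f - g) :=
  ⟨fun w => by simpa using congrArg₂ (· - ·) (hf.per w) (hg.per w), hf.hol.sub hg.hol,
    by rw [sub_eq_add_neg]; exact hf.bdd.add hg.bdd.neg⟩

theorem IsNice.mul (hf : IsNice h f) (hg : IsNice h g) : IsNice h (f * g) :=
  ⟨fun w => by simpa using congrArg₂ (· * ·) (hf.per w) (hg.per w), hf.hol.mul hg.hol,
    hf.bdd.mul hg.bdd⟩

theorem IsNice.smul (hf : IsNice h f) (c : ℂ) : IsNice h (c • f) :=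
  ⟨fun w => by simpa using congrArg (fun x => c * x) (hf.per w), hf.hol.const_smul c,
    hf.bdd.smul c⟩

theorem qExpansion_coeff_of_hasSum {c : ℕ → ℂ} (hf : IsNice h f) (hh : 0 < h)
    (hc : ∀ τ : ℍ, HasSum (fun m : ℕ => c m • Periodic.qParam h τ ^ m) (f τ)) (m : ℕ) :
    (qExpansion h f).coeff m = c m :=
  by
  have h1 := (UpperHalfPlane.hasFPowerSeriesOnBall_cuspFunction hh (hf.analyticAt hh)
    hc).hasFPowerSeriesAt
  have h2 : HasFPowerSeriesAt (cuspFunction h f)
      (FormalMultilinearSeries.ofScalars ℂ fun n => (qExpansion h f).coeff n) 0 := by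
    simpa [qExpansion_coeff, div_eq_mul_inv, mul_comm] using (hf.analyticAt hh).hasFPowerSeriesAt
  simpa using (congr_arg (FormalMultilinearSeries.coeff · m)
    (h1.eq_formalMultilinearSeries h2)).symm

/-- The q-expansion in `exp (2 π i z / h)` has coefficients in `S`. -/
structure HasExp (h : ℝ) (S : Subring ℂ) (f : ℍ → ℂ) : Prop where
  nice : IsNice h f
  coeff_mem : ∀ n, (qExpansion h f).coeff n ∈ S

variable {S : Subring ℂ}

theorem qExpansion_const (c : ℂ) :
    qExpansion h (fun _ : ℍ => c) = PowerSeries.C c := by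
  have h1 := UpperHalfPlane.qExpansion_one h
  rw [show (fun _ : ℍ => c) = c • (1 : ℍ → ℂ) from funext fun _ => by simp,
    UpperHalfPlane.qExpansion_smul ?_ c, h1, PowerSeries.smul_eq_C_mul, mul_one]
  rw [show cuspFunction h (1 : ℍ → ℂ) = fun _ => (1 : ℂ) by
    rw [cuspFunction]; exact funext fun q => by
      by_cases hq : q = 0
      · subst hq; simp [Periodic.cuspFunction, Function.update_self]
        exact (Filter.Tendsto.limUnder_eq tendsto_const_nhds)
      · simp [Periodic.cuspFunction_eq_of_nonzero _ _ hq]]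
  exact analyticAt_const

theorem HasExp.const (hh : 0 < h) {c : ℂ} (hc : c ∈ S) : HasExp h S (fun _ => c) := by
  refine ⟨.const c, fun n => ?_⟩
  rw [qExpansion_const, PowerSeries.coeff_C]
  split_ifs
  · exact hc
  · exact zero_mem _

theorem HasExp.add (hh : 0 < h) (hf : HasExp h S f) (hg : HasExp h S g) : HasExp h S (f + g) := by
  refine ⟨hf.nice.add hg.nice, fun n => ?_⟩
  rw [UpperHalfPlane.qExpansion_add (hf.nice.analyticAt hh) (hg.nice.analyticAt hh), map_add]
  exact add_mem (hf.coeff_mem n) (hg.coeff_mem n)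

theorem HasExp.sub (hh : 0 < h) (hf : HasExp h S f) (hg : HasExp h S g) : HasExp h S (f - g) := by
  refine ⟨hf.nice.sub hg.nice, fun n => ?_⟩
  rw [UpperHalfPlane.qExpansion_sub (hf.nice.analyticAt hh) (hg.nice.analyticAt hh), map_sub]
  exact sub_mem (hf.coeff_mem n) (hg.coeff_mem n)

theorem HasExp.mul (hh : 0 < h) (hf : HasExp h S f) (hg : HasExp h S g) : HasExp h S (f * g) := by
  refine ⟨hf.nice.mul hg.nice, fun n => ?_⟩
  rw [UpperHalfPlane.qExpansion_mul (hf.nice.analyticAt hh) (hg.nice.analyticAt hh),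
    PowerSeries.coeff_mul]
  exact Subring.sum_mem _ fun x _ => mul_mem (hf.coeff_mem _) (hg.coeff_mem _)

theorem HasExp.smul (hh : 0 < h) (hf : HasExp h S f) {c : ℂ} (hc : c ∈ S) :
    HasExp h S (c • f) := by
  refine ⟨hf.nice.smul c, fun n => ?_⟩
  rw [UpperHalfPlane.qExpansion_smul (hf.nice.analyticAt hh), PowerSeries.coeff_smul, smul_eq_mul]
  exact mul_mem hc (hf.coeff_mem n)

theorem HasExp.prod (hh : 0 < h) {ι : Type*} (s : Finset ι) {F : ι → ℍ → ℂ}
    (hF : ∀ i ∈ s, HasExp h S (F i)) : HasExp h S (∏ i ∈ s, F i) := by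
  classical
  induction s using Finset.induction with
  | empty =>
    rw [Finset.prod_empty]
    exact HasExp.const hh (one_mem S)
  | insert a s ha ih =>
    rw [Finset.prod_insert ha]
    exact (hF a (Finset.mem_insert_self a s)).mul hh
      (ih fun i hi => hF i (Finset.mem_insert_of_mem hi))

/-- `f - c` scaled by `r` has coefficients in `S` when those of `f` allow it. -/
theorem HasExp.smul_sub_const (hh : 0 < h) (hf : IsNice h f) {r c : ℂ}
    (h0 : r * ((qExpansion h f).coeff 0 - c) ∈ S)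
    (hn : ∀ n, n ≠ 0 → r * (qExpansion h f).coeff n ∈ S) :
    HasExp h S (r • (f - fun _ => c)) := by
  refine ⟨(hf.sub (.const c)).smul r, fun n => ?_⟩
  rw [UpperHalfPlane.qExpansion_smul ((hf.sub (.const c)).analyticAt hh),
    UpperHalfPlane.qExpansion_sub (hf.analyticAt hh) ((IsNice.const c).analyticAt hh),
    PowerSeries.coeff_smul, map_sub, qExpansion_const, PowerSeries.coeff_C, smul_eq_mul]
  split_ifs with h'
  · subst h'; exact h0
  · rw [sub_zero]; exact hn n h'

theorem mdifferentiable_comp_smul (hf : MDiff f) {g : GL (Fin 2) ℝ} (hg : 0 < g.det.val) :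
    MDiff (fun z : ℍ => f (g • z)) :=
  hf.comp (UpperHalfPlane.mdifferentiable_smul hg)

/-- Composition with an upper triangular matrix of positive determinant which multiplies the
parameter `q` by a constant. -/
theorem IsNice.comp_smul {h' : ℝ} (hf : IsNice h f) {g : GL (Fin 2) ℝ} (hg : 0 < g.det.val)
    (hg10 : g 1 0 = 0) (hper : Periodic ((fun z : ℍ => f (g • z)) ∘ ofComplex) (h' : ℂ)) :
    IsNice h' (fun z : ℍ => f (g • z)) :=
  ⟨hper, mdifferentiable_comp_smul hf.hol hg, hf.bdd.comp_tendsto (tendsto_smul_atImInfty hg10)⟩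

theorem qExpansion_coeff_comp {h' : ℝ} (hh : 0 < h) (hh' : 0 < h') (hf : IsNice h f)
    {φ : ℍ → ℍ} (hφ : IsNice h' (fun z => f (φ z))) {r : ℂ}
    (hq : ∀ z : ℍ, Periodic.qParam h (φ z) = r * Periodic.qParam h' z) (n : ℕ) :
    (qExpansion h' (fun z => f (φ z))).coeff n = r ^ n * (qExpansion h f).coeff n := by
  refine qExpansion_coeff_of_hasSum hφ hh' (c := fun n => r ^ n * (qExpansion h f).coeff n)
    (fun τ => ?_) n
  refine (UpperHalfPlane.hasSum_qExpansion hh hf.per hf.hol hf.bdd (φ τ)).congr_fun fun m => ?_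
  rw [hq, mul_pow, smul_eq_mul, smul_eq_mul]
  ring

theorem HasExp.comp {h' : ℝ} (hh : 0 < h) (hh' : 0 < h') (hf : HasExp h S f) {φ : ℍ → ℍ}
    (hφ : IsNice h' (fun z => f (φ z))) {r : ℂ} (hr : r ∈ S)
    (hq : ∀ z : ℍ, Periodic.qParam h (φ z) = r * Periodic.qParam h' z) :
    HasExp h' S (fun z => f (φ z)) := by
  refine ⟨hφ, fun n => ?_⟩
  rw [qExpansion_coeff_comp hh hh' hf.nice hφ hq n]
  exact mul_mem (pow_mem hr n) (hf.coeff_mem n)

theorem IsNice.natMul (hf : IsNice 1 f) (M : ℕ) : IsNice (M : ℝ) f :=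
  ⟨by simpa using hf.per.nat_mul M, hf.hol, hf.bdd⟩

/-- A period one function viewed with period `M`. -/
theorem HasExp.natMul (hf : HasExp 1 S f) {M : ℕ} (hM : 0 < M) : HasExp (M : ℝ) S f := by
  refine ⟨hf.nice.natMul M, fun n => ?_⟩
  have := UpperHalfPlane.qExpansion_coeff_nat_mul one_pos hf.nice.per hf.nice.hol hf.nice.bdd hM n
  rw [mul_one] at this
  rw [this]
  split_ifs
  · exact hf.coeff_mem _
  · exact zero_mem _

/-- A period one function whose expansion in period `M` has coefficients in `S`. -/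
theorem HasExp.of_natMul (hf : IsNice 1 f) {M : ℕ} (hM : 0 < M) (hM' : HasExp (M : ℝ) S f) :
    HasExp 1 S f := by
  refine ⟨hf, fun n => ?_⟩
  have := UpperHalfPlane.qExpansion_coeff_nat_mul one_pos hf.per hf.hol hf.bdd hM (M * n)
  rw [mul_one, if_pos (dvd_mul_right M n), Nat.mul_div_cancel_left n hM] at this
  rw [← this]
  exact hM'.coeff_mem _

end Fermat.Agent.Eisenstein.UpperB
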