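/-
The weight two Eisenstein series `N E₂(Nz) - E₂(z)` of level `N`.
-/
import Fermat.Agent.Eisenstein.UpperBExp
import Fermat.Prelude.Def_ModularForm_HeckeOperator
import Mathlib.NumberTheory.ModularForms.EisensteinSeries.E2.Summable
import Mathlib.NumberTheory.ModularForms.EisensteinSeries.E2.Transform
import Mathlib.NumberTheory.ModularForms.EisensteinSeries.E2.MDifferentiable
import Mathlib.NumberTheory.ModularForms.BoundedAtCusp
import Mathlib.NumberTheory.ModularForms.CongruenceSubgroups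

set_option autoImplicit false
set_option maxHeartbeats 400000

noncomputable section

namespace Fermat.Agent.Eisenstein.UpperB

open UpperHalfPlane hiding I
open Function Complex Filter ModularForm EisensteinSeries CongruenceSubgroup
open Matrix.SpecialLinearGroup
open scoped MatrixGroups ModularForm Manifold Real

variable {N : ℕ}

theorem slash_eq_mapGL (k : ℤ) (f : ℍ → ℂ) (γ : SL(2, ℤ)) :
    f ∣[k] γ = f ∣[k] (Matrix.SpecialLinearGroup.mapGL ℝ γ : GL (Fin 2) ℝ) := by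
  rw [ModularForm.SL_slash]
  rfl

theorem isBoundedAtImInfty_D2 (γ : SL(2, ℤ)) : IsBoundedAtImInfty (D2 γ) := by
  by_cases hc : γ 1 0 = 0
  · have : D2 γ = fun _ => (0 : ℂ) := funext fun z => by simp [D2, hc]
    rw [this]
    exact const_boundedAtFilter atImInfty _
  rw [isBoundedAtImInfty_iff]
  refine ⟨2 * π, 1, fun z hz => ?_⟩
  have hc1 : (1 : ℝ) ≤ |((γ 1 0 : ℤ) : ℝ)| := by
    exact_mod_cast Int.one_le_abs hc
  have hden : |((γ 1 0 : ℤ) : ℝ)| * z.im ≤ ‖denom γ z‖ := by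
    refine le_trans (le_of_eq ?_) (Complex.abs_im_le_norm _)
    simp [denom, abs_mul, abs_of_pos z.im_pos]
  rw [D2, norm_div, div_le_iff₀ (lt_of_lt_of_le (by positivity) hden)]
  calc ‖(2 * π * I * (γ 1 0 : ℂ))‖ = 2 * π * |((γ 1 0 : ℤ) : ℝ)| := by
        simp [abs_of_pos Real.pi_pos]
    _ ≤ 2 * π * (|((γ 1 0 : ℤ) : ℝ)| * z.im) := by
        gcongr
        nlinarith
    _ ≤ 2 * π * ‖denom γ z‖ := by gcongr

theorem isBoundedAtImInfty_E2_slash (γ : SL(2, ℤ)) : IsBoundedAtImInfty (E2 ∣[(2 : ℤ)] γ) := by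
  rw [E2_slash_action, sub_eq_add_neg]
  exact isBoundedAtImInfty_E2.add ((isBoundedAtImInfty_D2 γ).smul _).neg

theorem exists_smul_eq_upper (g : GL (Fin 2) ℝ) (M : Matrix (Fin 2) (Fin 2) ℤ)
    (hM : (g : Matrix (Fin 2) (Fin 2) ℝ) = M.map (Int.castRingHom ℝ)) :
    ∃ (σ : SL(2, ℤ)) (u : GL (Fin 2) ℝ), u 1 0 = 0 ∧
      g = (Matrix.SpecialLinearGroup.mapGL ℝ σ) * u := by
  have hdet : M.det ≠ 0 := by
    intro h0
    have h1 : (g : Matrix (Fin 2) (Fin 2) ℝ).det ≠ 0 :=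
      Matrix.GeneralLinearGroup.det_ne_zero g
    rw [hM, ← RingHom.mapMatrix_apply, ← RingHom.map_det, h0] at h1
    simp at h1
  obtain ⟨σ, hσ⟩ : ∃ σ : SL(2, ℤ),
      ((σ⁻¹ : SL(2, ℤ)) : Matrix (Fin 2) (Fin 2) ℤ) 1 0 * M 0 0
      + ((σ⁻¹ : SL(2, ℤ)) : Matrix (Fin 2) (Fin 2) ℤ) 1 1 * M 1 0 = 0 := by
    set d := Int.gcd (M 0 0) (M 1 0) with hd
    have hd0 : d ≠ 0 := by
      intro h0
      obtain ⟨h00, h10⟩ := Int.gcd_eq_zero_iff.mp (hd ▸ h0)
      exact hdet (by rw [Matrix.det_fin_two, h00, h10]; ring)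
    obtain ⟨a, ha⟩ : (d : ℤ) ∣ M 0 0 := Int.gcd_dvd_left _ _
    obtain ⟨c, hc⟩ : (d : ℤ) ∣ M 1 0 := Int.gcd_dvd_right _ _
    have hcop : IsCoprime a c := by
      rw [Int.isCoprime_iff_gcd_eq_one]
      have : Int.gcd ((d : ℤ) * a) ((d : ℤ) * c) = d := by rw [← ha, ← hc]
      rw [Int.gcd_mul_left, Int.natAbs_natCast] at this
      exact Nat.eq_of_mul_eq_mul_left (Nat.pos_of_ne_zero hd0) (by rw [this, mul_one])
    obtain ⟨x, y, hxy⟩ := hcop
    let τ : SL(2, ℤ) := ⟨!![x, y; -c, a], by rw [Matrix.det_fin_two_of]; linear_combination hxy⟩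
    refine ⟨τ⁻¹, ?_⟩
    rw [inv_inv, ha, hc]
    simp [τ]
    ring
  refine ⟨σ, (Matrix.SpecialLinearGroup.mapGL ℝ σ)⁻¹ * g, ?_, by simp⟩
  rw [← map_inv, Units.val_mul, hM, Matrix.mul_apply, Fin.sum_univ_two]
  simp [-map_inv, -Matrix.SpecialLinearGroup.coe_inv, Matrix.SpecialLinearGroup.mapGL_coe_matrix]
  exact_mod_cast hσ

theorem isBoundedAtImInfty_slash_upper {f : ℍ → ℂ} (hf : IsBoundedAtImInfty f) {k : ℤ}
    {u : GL (Fin 2) ℝ} (hu : u 1 0 = 0) (hpos : 0 < u.det.val) :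
    IsBoundedAtImInfty (f ∣[k] u) := by
  have h1 : BoundedAtFilter atImInfty (fun z : ℍ => f (u • z)) :=
    hf.comp_tendsto (tendsto_smul_atImInfty hu)
  have : (f ∣[k] u) = fun z : ℍ =>
      (((|u.det.val| : ℝ) : ℂ) ^ (k - 1) * ((u 1 1 : ℝ) : ℂ) ^ (-k)) * f (u • z) := by
    funext z
    rw [ModularForm.slash_apply, UpperHalfPlane.σ, if_pos hpos]
    simp [denom, hu]
    ring
  rw [this]
  exact h1.const_mul_left _

theorem diag_mul_gamma_entry (hN : N ≠ 0) (γ : SL(2, ℤ)) :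
    ((heckeDiagMatrix N * Matrix.SpecialLinearGroup.mapGL ℝ γ : GL (Fin 2) ℝ) :
        Matrix (Fin 2) (Fin 2) ℝ)
      = (!![(N : ℤ) * γ 0 0, (N : ℤ) * γ 0 1; γ 1 0, γ 1 1]).map (Int.castRingHom ℝ) := by
  ext i j
  fin_cases i <;> fin_cases j <;>
    simp [Matrix.mul_apply, Fin.sum_univ_two, val_heckeDiagMatrix hN]

/-- `N E₂(Nz) - E₂(z)`. -/
def eisTwoFun (N : ℕ) : ℍ → ℂ := E2 ∣[(2 : ℤ)] heckeDiagMatrix N - E2

theorem eisTwoFun_apply (hN : N ≠ 0) (z : ℍ) :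
    eisTwoFun N z = (N : ℂ) * E2 (heckeDiagMatrix N • z) - E2 z := by
  rw [eisTwoFun, Pi.sub_apply, slash_heckeDiagMatrix_apply 2 hN]
  norm_num

theorem eisTwoFun_slash (hN : N ≠ 0) {γ : SL(2, ℤ)} (hγ : γ ∈ Gamma0 N) :
    eisTwoFun N ∣[(2 : ℤ)] γ = eisTwoFun N := by
  obtain ⟨c, hc⟩ : (N : ℤ) ∣ γ 1 0 :=
    (ZMod.intCast_zmod_eq_zero_iff_dvd _ _).mp (Gamma0_mem.mp hγ)
  let γ' : SL(2, ℤ) := ⟨!![γ 0 0, (N : ℤ) * γ 0 1; c, γ 1 1], by
    have h := γ.det_coe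
    rw [Matrix.det_fin_two] at h
    rw [Matrix.det_fin_two_of]
    linear_combination h + γ 0 1 * hc⟩
  have hcomm : heckeDiagMatrix N * Matrix.SpecialLinearGroup.mapGL ℝ γ
      = Matrix.SpecialLinearGroup.mapGL ℝ γ' * heckeDiagMatrix N := by
    apply Units.ext
    rw [diag_mul_gamma_entry hN]
    ext i j
    fin_cases i <;> fin_cases j <;>
      simp [γ', Matrix.mul_apply, Fin.sum_univ_two, val_heckeDiagMatrix hN, hc, mul_comm]
  have hD : D2 γ' ∣[(2 : ℤ)] heckeDiagMatrix N = D2 γ := by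
    funext z
    rw [slash_heckeDiagMatrix_apply 2 hN, D2, D2]
    simp [denom, coe_heckeDiagMatrix_smul hN, γ', hc]
    ring
  have key : (E2 ∣[(2 : ℤ)] heckeDiagMatrix N) ∣[(2 : ℤ)] γ
      = E2 ∣[(2 : ℤ)] heckeDiagMatrix N - (1 / (2 * riemannZeta 2)) • D2 γ := by
    calc (E2 ∣[(2 : ℤ)] heckeDiagMatrix N) ∣[(2 : ℤ)] γ
        = E2 ∣[(2 : ℤ)] (heckeDiagMatrix N * Matrix.SpecialLinearGroup.mapGL ℝ γ) :=
          by rw [slash_eq_mapGL 2 _ γ, SlashAction.slash_mul]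
      _ = E2 ∣[(2 : ℤ)] (Matrix.SpecialLinearGroup.mapGL ℝ γ' * heckeDiagMatrix N) := by rw [hcomm]
      _ = (E2 ∣[(2 : ℤ)] γ') ∣[(2 : ℤ)] heckeDiagMatrix N := by
          rw [SlashAction.slash_mul, ← slash_eq_mapGL]
      _ = (E2 - (1 / (2 * riemannZeta 2)) • D2 γ') ∣[(2 : ℤ)] heckeDiagMatrix N := by
          rw [E2_slash_action]
      _ = E2 ∣[(2 : ℤ)] heckeDiagMatrix N
            - (1 / (2 * riemannZeta 2)) • D2 γ := by
          rw [sub_eq_add_neg, SlashAction.add_slash, SlashAction.neg_slash, ModularForm.smul_slash,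
            hD, σ_heckeDiagMatrix]
          rfl
  show (E2 ∣[(2 : ℤ)] heckeDiagMatrix N - E2) ∣[(2 : ℤ)] γ
    = E2 ∣[(2 : ℤ)] heckeDiagMatrix N - E2
  rw [sub_eq_add_neg, SlashAction.add_slash, SlashAction.neg_slash, key, E2_slash_action]
  abel

theorem mdifferentiable_eisTwoFun (N : ℕ) : MDiff (eisTwoFun N) :=
  (E2_mdifferentiable.slash 2 _).sub E2_mdifferentiable

theorem isBoundedAtImInfty_eisTwoFun_slash (hN : N ≠ 0) (γ : SL(2, ℤ)) :
    IsBoundedAtImInfty (eisTwoFun N ∣[(2 : ℤ)] γ) := by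
  show IsBoundedAtImInfty ((E2 ∣[(2 : ℤ)] heckeDiagMatrix N - E2) ∣[(2 : ℤ)] γ)
  rw [sub_eq_add_neg, SlashAction.add_slash, SlashAction.neg_slash]
  refine BoundedAtFilter.add ?_ (isBoundedAtImInfty_E2_slash γ).neg
  obtain ⟨σ', u, hu, hσu⟩ := exists_smul_eq_upper _ _ (diag_mul_gamma_entry hN γ)
  have hpos : 0 < u.det.val := by
    have h1 := congrArg (fun g : GL (Fin 2) ℝ => g.det.val) hσu
    simp only [map_mul, Units.val_mul] at h1
    have h2 : ∀ τ : SL(2, ℤ), (Matrix.SpecialLinearGroup.mapGL ℝ τ).det.val = 1 := fun τ => by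
      simp
    rw [h2, h2, mul_one, one_mul] at h1
    rw [← h1]
    exact det_heckeDiagMatrix_pos N
  have e : (E2 ∣[(2 : ℤ)] heckeDiagMatrix N) ∣[(2 : ℤ)] γ = (E2 ∣[(2 : ℤ)] σ') ∣[(2 : ℤ)] u := by
    rw [slash_eq_mapGL 2 _ γ, ← SlashAction.slash_mul, hσu, SlashAction.slash_mul,
      ← slash_eq_mapGL]
  rw [e]
  exact isBoundedAtImInfty_slash_upper (isBoundedAtImInfty_E2_slash σ') hu hpos

/-- `N E₂(Nz) - E₂(z)` as a modular form of level `N`. -/
def eisTwo (N : ℕ) [NeZero N] : ModularForm (Gamma0 N) 2 where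
  toFun := eisTwoFun N
  slash_action_eq' := by
    rintro _ ⟨γ, hγ, rfl⟩
    exact eisTwoFun_slash (NeZero.ne N) hγ
  holo' := mdifferentiable_eisTwoFun N
  bdd_at_cusps' {c} hc := by
    rw [Subgroup.IsArithmetic.isCusp_iff_isCusp_SL2Z] at hc
    exact (OnePoint.isBoundedAt_iff_forall_SL2Z hc).mpr fun γ _ =>
      isBoundedAtImInfty_eisTwoFun_slash (NeZero.ne N) γ

@[simp] theorem coe_eisTwo (N : ℕ) [NeZero N] : ⇑(eisTwo N) = eisTwoFun N := rfl

theorem isNice_modularForm [NeZero N] {k : ℤ} (f : ModularForm (Gamma0 N) k) :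
    IsNice 1 (f : ℍ → ℂ) := by
  have h1 : (1 : ℝ) ∈ (Gamma0 N : Subgroup (GL (Fin 2) ℝ)).strictPeriods := by simp
  refine ⟨by simpa using SlashInvariantFormClass.periodic_comp_ofComplex f h1,
    ModularFormClass.holo f, ?_⟩
  exact ModularFormClass.bdd_at_infty f

theorem qExpansion_eisTwo_coeff (N : ℕ) [NeZero N] (n : ℕ) :
    (qExpansion 1 (eisTwoFun N)).coeff n
      = (N : ℂ) * (if N ∣ n then (if n / N = 0 then 1 else -24 * (ArithmeticFunction.sigma 1 (n / N) : ℂ))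
          else 0) - (if n = 0 then 1 else -24 * (ArithmeticFunction.sigma 1 n : ℂ)) := by
  refine qExpansion_coeff_of_hasSum (isNice_modularForm (eisTwo N)) one_pos
    (c := fun n => (N : ℂ) * (if N ∣ n then (if n / N = 0 then 1 else
      -24 * (ArithmeticFunction.sigma 1 (n / N) : ℂ)) else 0)
      - (if n = 0 then 1 else -24 * (ArithmeticFunction.sigma 1 n : ℂ))) (fun τ => ?_) n
  have hN : N ≠ 0 := NeZero.ne N
  show HasSum _ (eisTwoFun N τ)
  rw [eisTwoFun_apply hN]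
  simp only [smul_eq_mul, sub_mul]
  refine HasSum.sub ?_ (by simpa [Periodic.qParam] using hasSum_qExpansion_E2 (z := τ))
  simp only [mul_assoc]
  refine HasSum.mul_left _ ?_
  refine (Function.Injective.hasSum_iff (mul_right_injective₀ hN) ?_).mp ?_
  · intro x hx
    rw [if_neg, zero_mul]
    rintro ⟨y, rfl⟩
    exact hx ⟨y, rfl⟩
  · refine (hasSum_qExpansion_E2 (z := heckeDiagMatrix N • τ)).congr_fun fun m => ?_
    simp only [Function.comp_apply, smul_eq_mul, if_pos (dvd_mul_right N m),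
      Nat.mul_div_cancel_left m (Nat.pos_of_ne_zero hN)]
    have hq : cexp (2 * π * I * ((heckeDiagMatrix N • τ : ℍ) : ℂ)) = Periodic.qParam 1 (τ : ℂ) ^ N := by
      rw [coe_heckeDiagMatrix_smul hN, Periodic.qParam, ← Complex.exp_nat_mul]
      congr 1
      push_cast
      ring
    rw [hq, ← pow_mul]

end Fermat.Agent.Eisenstein.UpperB
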