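import Mathlib.NumberTheory.ModularForms.QExpansion
import Mathlib.RingTheory.PowerSeries.Expand
import Mathlib.Analysis.Normed.Ring.InfiniteSum
import Mathlib.RingTheory.RootsOfUnity.Complex

/-!
# Functions on the upper half plane given by a power series in `q^(1/h)`
-/

set_option autoImplicit false

noncomputable section

open Complex Filter Function
open UpperHalfPlane hiding I
open scoped Real Topology Manifold ModularForm

local notation "𝕢" => Periodic.qParam

namespace Fermat.Agent.Eisenstein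

/-- `f` is the sum of the series `a` in the parameter `exp (2 π i τ / h)`. -/
def IsQExp (h : ℕ) (f : ℍ → ℂ) (a : PowerSeries ℂ) : Prop :=
  ∀ τ : ℍ, HasSum (fun n => a.coeff n * 𝕢 h τ ^ n) (f τ)

variable {h : ℕ} {f g : ℍ → ℂ} {a b : PowerSeries ℂ}

lemma exists_qParam_eq [NeZero h] {q : ℂ} (hq : ‖q‖ < 1) (hq0 : q ≠ 0) :
    ∃ τ : ℍ, 𝕢 h τ = q := by
  have hh : (0 : ℝ) < h := by exact_mod_cast NeZero.pos h
  exact ⟨⟨Periodic.invQParam h q, Periodic.im_invQParam_pos_of_norm_lt_one hh hq hq0⟩,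
    Periodic.qParam_right_inv hh.ne' hq0⟩

lemma norm_qParam_nat_lt_one [NeZero h] (τ : ℍ) : ‖𝕢 h τ‖ < 1 :=
  Periodic.norm_qParam_lt_one (by exact_mod_cast NeZero.pos h) τ.im_pos

namespace IsQExp

lemma congr (ha : IsQExp h f a) (hfg : ∀ τ, f τ = g τ) : IsQExp h g a :=
  fun τ => hfg τ ▸ ha τ

lemma add (ha : IsQExp h f a) (hb : IsQExp h g b) : IsQExp h (f + g) (a + b) := fun τ => by
  simpa [add_mul] using (ha τ).add (hb τ)

lemma smul (c : ℂ) (ha : IsQExp h f a) : IsQExp h (c • f) (c • a) := fun τ => by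
  simpa [PowerSeries.coeff_smul, mul_assoc] using (ha τ).mul_left c

lemma neg (ha : IsQExp h f a) : IsQExp h (-f) (-a) := fun τ => by
  simpa using (ha τ).neg

lemma sub (ha : IsQExp h f a) (hb : IsQExp h g b) : IsQExp h (f - g) (a - b) := fun τ => by
  simpa [sub_mul] using (ha τ).sub (hb τ)

lemma zero : IsQExp h 0 0 := fun τ => by simp [hasSum_zero]

lemma const (c : ℂ) : IsQExp h (fun _ => c) (PowerSeries.C c) := fun τ => by
  refine (hasSum_ite_eq (0 : ℕ) c).congr_fun fun n => ?_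
  rcases eq_or_ne n 0 with rfl | hn <;> simp [PowerSeries.coeff_C, *]

lemma one : IsQExp h 1 1 := by
  have := const (h := h) (1 : ℂ)
  rwa [map_one] at this

lemma mul (ha : IsQExp h f a) (hb : IsQExp h g b) : IsQExp h (f * g) (a * b) := fun τ => by
  have hna := summable_norm_iff.mpr (ha τ).summable
  have hnb := summable_norm_iff.mpr (hb τ).summable
  have hsum := (summable_norm_sum_mul_antidiagonal_of_summable_norm hna hnb).of_norm
  have heq : ∀ n, ∑ kl ∈ Finset.antidiagonal n,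
      (a.coeff kl.1 * 𝕢 h τ ^ kl.1) * (b.coeff kl.2 * 𝕢 h τ ^ kl.2)
      = (a * b).coeff n * 𝕢 h τ ^ n := fun n => by
    rw [PowerSeries.coeff_mul, Finset.sum_mul]
    refine Finset.sum_congr rfl fun kl hkl => ?_
    rw [← (Finset.HasAntidiagonal.mem_antidiagonal.mp hkl), pow_add]
    ring
  have := hsum.hasSum
  rw [← tsum_mul_tsum_eq_tsum_sum_antidiagonal_of_summable_norm hna hnb, (ha τ).tsum_eq,
    (hb τ).tsum_eq] at this
  exact this.congr_fun fun n => (heq n).symm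

lemma pow (ha : IsQExp h f a) (n : ℕ) : IsQExp h (f ^ n) (a ^ n) := by
  induction n with
  | zero => simpa using one
  | succ n ih => rw [pow_succ, pow_succ]; exact ih.mul ha

lemma sum {ι : Type*} (s : Finset ι) {F : ι → ℍ → ℂ} {c : ι → PowerSeries ℂ}
    (hF : ∀ i ∈ s, IsQExp h (F i) (c i)) : IsQExp h (∑ i ∈ s, F i) (∑ i ∈ s, c i) := by
  induction s using Finset.cons_induction with
  | empty => simpa using zero
  | cons i s hi ih =>
    rw [Finset.sum_cons, Finset.sum_cons]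
    exact (hF i (Finset.mem_cons_self i s)).add
      (ih fun j hj => hF j (Finset.mem_cons_of_mem hj))

/-- The zero function only has the zero series. -/
lemma eq_zero [NeZero h] (ha : IsQExp h 0 a) : a = 0 := by
  set p := FormalMultilinearSeries.ofScalars ℂ fun n => a.coeff n with hp
  have hsum : ∀ q : ℂ, ‖q‖ < 1 → q ≠ 0 → HasSum (fun n => a.coeff n * q ^ n) 0 := by
    intro q hq hq0
    obtain ⟨τ, rfl⟩ := exists_qParam_eq (h := h) hq hq0
    exact ha τ
  have hrad : (1 / 2 : NNReal) ≤ p.radius := by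
    apply FormalMultilinearSeries.le_radius_of_summable
    have := (hsum ((1 / 2 : ℝ) : ℂ) (by norm_num) (by norm_num)).summable.norm
    refine this.congr fun n => ?_
    rw [norm_mul, norm_pow, hp, FormalMultilinearSeries.ofScalars_norm]
    norm_num
  have hpos : (0 : ENNReal) < p.radius :=
    lt_of_lt_of_le (by norm_num) hrad
  have hball := p.hasFPowerSeriesOnBall hpos
  have hev : p.sum =ᶠ[𝓝 0] 0 := by
    have hcont := hball.hasFPowerSeriesAt.continuousAt
    have hne : p.sum =ᶠ[𝓝[≠] 0] 0 := by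
      filter_upwards [self_mem_nhdsWithin,
        mem_nhdsWithin_of_mem_nhds (Metric.ball_mem_nhds (0 : ℂ) one_pos)] with q hq0 hq
      rw [Metric.mem_ball, dist_zero_right] at hq
      have := (hsum q hq hq0).tsum_eq
      simp only [Pi.zero_apply]
      rw [← this, FormalMultilinearSeries.sum]
      refine tsum_congr fun n => ?_
      simp [hp, mul_comm]
    exact (hcont.eventuallyEq_nhds_iff_eventuallyEq_nhdsNE continuousAt_const).mp hne
  have h0 : p = 0 := (hball.hasFPowerSeriesAt.congr hev).eq_zero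
  ext n
  have h1 : p.coeff n = a.coeff n := FormalMultilinearSeries.coeff_ofScalars
  rw [map_zero, ← h1, h0]
  rfl

lemma unique [NeZero h] (ha : IsQExp h f a) (hb : IsQExp h f b) : a = b := by
  rw [← sub_eq_zero]
  exact eq_zero ((ha.sub hb).congr fun τ => by simp)

lemma ext (ha : IsQExp h f a) (hb : IsQExp h g a) : f = g :=
  funext fun τ => (ha τ).unique (hb τ)

lemma periodic [NeZero h] (ha : IsQExp h f a) (τ τ' : ℍ) (hττ : (τ' : ℂ) = (τ : ℂ) + h) :
    f τ' = f τ := by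
  have hq : 𝕢 h τ' = 𝕢 h τ := by
    rw [hττ, Periodic.qParam, Periodic.qParam]
    have hh : (h : ℂ) ≠ 0 := by exact_mod_cast NeZero.ne h
    rw [show 2 * ↑π * I * ((τ : ℂ) + h) / ((h : ℝ) : ℂ)
      = 2 * ↑π * I * (τ : ℂ) / ((h : ℝ) : ℂ) + 2 * ↑π * I by push_cast; field_simp,
      Complex.exp_add, Complex.exp_two_pi_mul_I, mul_one]
  exact (ha τ').unique (by rw [hq]; exact ha τ)

lemma isBoundedAtImInfty [NeZero h] (ha : IsQExp h f a) : IsBoundedAtImInfty f :=
  isBoundedAtImInfty_of_hasSum_qExpansion (c := fun n => a.coeff n)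
    (show (0 : ℝ) < (h : ℝ) by exact_mod_cast NeZero.pos h) ha

end IsQExp

lemma qParam_mul_period {m : ℕ} (hm : m ≠ 0) (τ : ℂ) :
    𝕢 ((h * m : ℕ) : ℝ) τ ^ m = 𝕢 h τ := by
  rw [Periodic.qParam, Periodic.qParam, ← Complex.exp_nat_mul]
  have hm' : (m : ℂ) ≠ 0 := by exact_mod_cast hm
  congr 1
  push_cast
  field_simp

lemma qParam_scale {m : ℕ} (τ : ℂ) : 𝕢 h (m * τ) = 𝕢 h τ ^ m := by
  rw [Periodic.qParam, Periodic.qParam, ← Complex.exp_nat_mul]
  congr 1
  ring

/-- Raise the width. -/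
lemma IsQExp.expand {m : ℕ} (hm : m ≠ 0) (ha : IsQExp h f a) :
    IsQExp (h * m) f (PowerSeries.expand m hm a) := fun τ => by
  have hinj : Injective fun n : ℕ => m * n := fun x y hxy =>
    Nat.eq_of_mul_eq_mul_left (Nat.pos_of_ne_zero hm) hxy
  refine (hinj.hasSum_iff (fun n hn => ?_)).mp ((ha τ).congr_fun fun n => ?_)
  · rw [PowerSeries.coeff_expand_of_not_dvd _ _ _ (fun ⟨k, hk⟩ => hn ⟨k, hk.symm⟩), zero_mul]
  · rw [Function.comp_apply, PowerSeries.coeff_expand_mul, pow_mul, qParam_mul_period hm]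

/-- Multiply the argument by a positive integer. -/
lemma IsQExp.scale {m : ℕ} (hm : m ≠ 0) (ha : IsQExp h f a) {g : ℍ → ℂ}
    (hg : ∀ τ : ℍ, ∀ τ' : ℍ, (τ' : ℂ) = m * (τ : ℂ) → g τ = f τ') :
    IsQExp h g (PowerSeries.expand m hm a) := fun τ => by
  have hinj : Injective fun n : ℕ => m * n := fun x y hxy =>
    Nat.eq_of_mul_eq_mul_left (Nat.pos_of_ne_zero hm) hxy
  let τ' : ℍ := ⟨m * (τ : ℂ), by
    have := τ.im_pos
    have : (0 : ℝ) < m := by exact_mod_cast Nat.pos_of_ne_zero hm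
    simp only [Complex.mul_im, Complex.natCast_re, Complex.natCast_im, zero_mul, add_zero]
    positivity⟩
  rw [hg τ τ' rfl]
  refine (hinj.hasSum_iff (fun n hn => ?_)).mp ((ha τ').congr_fun fun n => ?_)
  · rw [PowerSeries.coeff_expand_of_not_dvd _ _ _ (fun ⟨k, hk⟩ => hn ⟨k, hk.symm⟩), zero_mul]
  · rw [Function.comp_apply, PowerSeries.coeff_expand_mul, pow_mul,
      show (τ' : ℂ) = m * (τ : ℂ) from rfl, qParam_scale]

/-- Divide the argument by a positive integer. -/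
lemma IsQExp.divide {m : ℕ} (hm : m ≠ 0) (ha : IsQExp h f a) {g : ℍ → ℂ}
    (hg : ∀ τ : ℍ, ∀ τ' : ℍ, (m : ℂ) * τ' = (τ : ℂ) → g τ = f τ') :
    IsQExp (h * m) g a := fun τ => by
  have hm' : (m : ℂ) ≠ 0 := by exact_mod_cast hm
  let τ' : ℍ := ⟨(τ : ℂ) / m, by
    rw [Complex.div_natCast_im]
    exact div_pos τ.im_pos (by exact_mod_cast Nat.pos_of_ne_zero hm)⟩
  rw [hg τ τ' (mul_div_cancel₀ _ hm')]
  have hq : 𝕢 ((h * m : ℕ) : ℝ) τ = 𝕢 h τ' := by
    rw [Periodic.qParam, Periodic.qParam]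
    congr 1
    show _ = 2 * ↑π * I * ((τ : ℂ) / m) / ((h : ℝ) : ℂ)
    push_cast
    field_simp
  simp only [hq]
  exact ha τ'

/-- The sum over the translates by `0, ..., m - 1` of a series of width `m`. -/
lemma IsQExp.sum_translate {m : ℕ} (hm : m ≠ 0) (ha : IsQExp m f a) :
    IsQExp 1 (fun τ => ∑ j ∈ Finset.range m, f ((j : ℝ) +ᵥ τ))
      (PowerSeries.mk fun n => (m : ℂ) * a.coeff (m * n)) := fun τ => by
  have : NeZero m := ⟨hm⟩
  set ζ : ℂ := Complex.exp (2 * π * I / m) with hζ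
  have hprim : IsPrimitiveRoot ζ m := Complex.isPrimitiveRoot_exp m hm
  have hm' : (m : ℂ) ≠ 0 := by exact_mod_cast hm
  have hq : ∀ j : ℕ, 𝕢 m (((j : ℝ) +ᵥ τ : ℍ) : ℂ) = ζ ^ j * 𝕢 m τ := fun j => by
    rw [UpperHalfPlane.coe_vadd, hζ, ← Complex.exp_nat_mul, Periodic.qParam, Periodic.qParam,
      ← Complex.exp_add]
    congr 1
    push_cast
    field_simp
  have hsum : HasSum (fun n => (∑ j ∈ Finset.range m, (ζ ^ n) ^ j) * (a.coeff n * 𝕢 m τ ^ n))
      (∑ j ∈ Finset.range m, f ((j : ℝ) +ᵥ τ)) := by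
    refine (hasSum_sum fun j (_ : j ∈ Finset.range m) => ha ((j : ℝ) +ᵥ τ)).congr_fun fun n => ?_
    rw [Finset.sum_mul]
    refine Finset.sum_congr rfl fun j _ => ?_
    rw [hq, mul_pow, ← pow_mul, ← pow_mul, mul_comm j n]
    ring
  have hgeom : ∀ n, ∑ j ∈ Finset.range m, (ζ ^ n) ^ j = if m ∣ n then (m : ℂ) else 0 := fun n => by
    split_ifs with hdvd
    · simp [(hprim.pow_eq_one_iff_dvd n).mpr hdvd]
    · rw [geom_sum_eq (fun h1 => hdvd ((hprim.pow_eq_one_iff_dvd n).mp h1))]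
      rw [← pow_mul, mul_comm, pow_mul, hprim.pow_eq_one, one_pow, sub_self, zero_div]
  have hinj : Injective fun n : ℕ => m * n := fun x y hxy =>
    Nat.eq_of_mul_eq_mul_left (Nat.pos_of_ne_zero hm) hxy
  refine ((hinj.hasSum_iff (fun n hn => ?_)).mpr hsum).congr_fun fun n => ?_
  · rw [hgeom, if_neg (fun ⟨k, hk⟩ => hn ⟨k, hk.symm⟩), zero_mul]
  · rw [Function.comp_apply, hgeom, if_pos (dvd_mul_right m n), PowerSeries.coeff_mk, pow_mul]
    have := qParam_mul_period (h := 1) hm (τ : ℂ)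
    rw [one_mul] at this
    rw [this]
    ring

/-- Translation multiplies the coefficients by roots of unity. -/
lemma IsQExp.translate {m : ℕ} [NeZero m] (ha : IsQExp m f a) (j : ℕ) :
    IsQExp m (fun τ => f ((j : ℝ) +ᵥ τ))
      (PowerSeries.rescale (Complex.exp (2 * π * I / m) ^ j) a) := fun τ => by
  refine (ha ((j : ℝ) +ᵥ τ)).congr_fun fun n => ?_
  have hm' : (m : ℂ) ≠ 0 := by exact_mod_cast NeZero.ne m
  have hq : 𝕢 m (((j : ℝ) +ᵥ τ : ℍ) : ℂ) = Complex.exp (2 * π * I / m) ^ j * 𝕢 m τ := by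
    rw [UpperHalfPlane.coe_vadd, ← Complex.exp_nat_mul, Periodic.qParam, Periodic.qParam,
      ← Complex.exp_add]
    congr 1
    push_cast
    field_simp
  rw [PowerSeries.coeff_rescale, hq, mul_pow]
  ring

/-- A form periodic and bounded at infinity has its `q`-expansion as series. -/
lemma isQExp_qExpansion {F : Type*} [FunLike F ℍ ℂ] {Γ : Subgroup (GL (Fin 2) ℝ)} {k : ℤ}
    [ModularFormClass F Γ k] {h : ℕ} [NeZero h] (φ : F) (hΓ : (h : ℝ) ∈ Γ.strictPeriods) :
    IsQExp h φ (qExpansion h φ) :=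
  haveI : Fact (IsCusp OnePoint.infty Γ) :=
    ⟨Γ.isCusp_of_mem_strictPeriods (by exact_mod_cast NeZero.pos h) hΓ⟩
  fun τ => ModularForm.hasSum_qExpansion φ (by exact_mod_cast NeZero.pos h) hΓ τ

/-- Width one version of `isQExp_qExpansion`. -/
lemma isQExp_qExpansion_one {F : Type*} [FunLike F ℍ ℂ] {Γ : Subgroup (GL (Fin 2) ℝ)} {k : ℤ}
    [ModularFormClass F Γ k] (φ : F) (hΓ : (1 : ℝ) ∈ Γ.strictPeriods) :
    IsQExp 1 φ (qExpansion 1 φ) := by
  have h := isQExp_qExpansion (h := 1) φ (by rwa [Nat.cast_one])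
  rwa [Nat.cast_one] at h

end Fermat.Agent.Eisenstein
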