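import Mathlib.NumberTheory.ModularForms.LevelOne.GradedRing
import Mathlib.NumberTheory.ModularForms.NormTrace
import Mathlib.NumberTheory.ModularForms.EisensteinSeries.QExpansion
import Mathlib.RingTheory.PowerSeries.Inverse
import Fermat.Agent.Eisenstein.UpperQExp

/-!
# Series of level one forms with coefficients in a ring
-/

set_option autoImplicit false
set_option maxHeartbeats 200000

noncomputable section

open Complex UpperHalfPlane ModularForm PowerSeries
open scoped MatrixGroups ArithmeticFunction.sigma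

namespace Fermat.Agent.Eisenstein

variable {S : Type*} [CommRing S]

/-- `∑ σ_k(n) q^n`. -/
def divSeries (S : Type*) [CommRing S] (k : ℕ) : PowerSeries S :=
  mk fun n => (σ k n : S)

/-- The series of the normalised Eisenstein series of weight four. -/
def qSeries (S : Type*) [CommRing S] : PowerSeries S := 1 + (240 : S) • divSeries S 3

/-- The series of the normalised Eisenstein series of weight six. -/
def rSeries (S : Type*) [CommRing S] : PowerSeries S := 1 - (504 : S) • divSeries S 5

/-- The divisor sum `∑_{d ∣ n} (5 d³ + 7 d⁵) / 12`. -/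
def mixSum (n : ℕ) : ℤ := ∑ d ∈ n.divisors, (5 * (d : ℤ) ^ 3 + 7 * (d : ℤ) ^ 5) / 12

/-- The series of the discriminant, with visibly integral coefficients. -/
def dSeries (S : Type*) [CommRing S] : PowerSeries S :=
  mk (fun n => (mixSum n : S)) + (100 : S) • divSeries S 3 ^ 2 + (8000 : S) • divSeries S 3 ^ 3
    - (147 : S) • divSeries S 5 ^ 2

lemma coeff_divSeries (k n : ℕ) : coeff n (divSeries S k) = (σ k n : S) := by
  rw [divSeries, coeff_mk]

lemma twelve_dvd_mix (d : ℤ) : (12 : ℤ) ∣ 5 * d ^ 3 + 7 * d ^ 5 := by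
  have key : ∀ x : ZMod 12, 5 * x ^ 3 + 7 * x ^ 5 = 0 := by decide
  have := key (d : ZMod 12)
  exact (ZMod.intCast_zmod_eq_zero_iff_dvd _ 12).mp (by exact_mod_cast this)

lemma twelve_mul_mixSum (n : ℕ) : 12 * mixSum n = 5 * (σ 3 n : ℤ) + 7 * (σ 5 n : ℤ) := by
  simp only [mixSum, ArithmeticFunction.sigma_apply, Nat.cast_sum, Finset.mul_sum,
    ← Finset.sum_add_distrib]
  refine Finset.sum_congr rfl fun d _ => ?_
  rw [Int.mul_ediv_cancel' (twelve_dvd_mix _)]
  push_cast
  rfl

lemma twelve_smul_mix :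
    (12 : S) • (mk fun n => (mixSum n : S)) = (5 : S) • divSeries S 3 + (7 : S) • divSeries S 5 := by
  ext n
  simp only [coeff_smul, coeff_mk, map_add, coeff_divSeries, smul_eq_mul]
  exact_mod_cast congrArg (Int.cast (R := S)) (twelve_mul_mixSum n)

lemma dSeries_spec : (1728 : S) • dSeries S = qSeries S ^ 3 - rSeries S ^ 2 := by
  have h := twelve_smul_mix (S := S)
  simp only [dSeries, qSeries, rSeries, Algebra.smul_def, map_ofNat] at h ⊢
  linear_combination (144 : PowerSeries S) * h

section Map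

variable {T : Type*} [CommRing T] (φ : S →+* T)

@[simp] lemma map_divSeries (k : ℕ) : PowerSeries.map φ (divSeries S k) = divSeries T k := by
  ext n; simp [coeff_divSeries]

@[simp] lemma map_qSeries : PowerSeries.map φ (qSeries S) = qSeries T := by
  simp [qSeries, Algebra.smul_def, map_ofNat]

@[simp] lemma map_rSeries : PowerSeries.map φ (rSeries S) = rSeries T := by
  simp [rSeries, Algebra.smul_def, map_ofNat]

@[simp] lemma map_dSeries : PowerSeries.map φ (dSeries S) = dSeries T := by
  have hm : PowerSeries.map φ (mk fun n => (mixSum n : S)) = mk fun n => (mixSum n : T) := by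
    ext n; simp
  simp [dSeries, Algebra.smul_def, map_ofNat, hm]

end Map

lemma constantCoeff_divSeries (k : ℕ) : constantCoeff (divSeries S k) = 0 := by
  simp [← coeff_zero_eq_constantCoeff, coeff_divSeries]

lemma constantCoeff_qSeries : constantCoeff (qSeries S) = 1 := by
  simp [qSeries, constantCoeff_divSeries]

lemma constantCoeff_rSeries : constantCoeff (rSeries S) = 1 := by
  simp [rSeries, constantCoeff_divSeries]

lemma coeff_zero_dSeries : coeff 0 (dSeries S) = 0 := by
  simp [dSeries, constantCoeff_divSeries, mixSum]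

lemma coeff_one_dSeries : coeff 1 (dSeries S) = 1 := by
  have h2 : ∀ k, coeff 1 (divSeries S k ^ 2) = 0 := fun k => by
    simp [coeff_one_pow, constantCoeff_divSeries]
  have h3 : ∀ k, coeff 1 (divSeries S k ^ 3) = 0 := fun k => by
    simp [coeff_one_pow, constantCoeff_divSeries]
  simp [dSeries, h2, h3, mixSum]

/-- The discriminant series is `X` times a unit. -/
lemma exists_dSeries_eq : ∃ u : PowerSeries S, IsUnit u ∧ dSeries S = X * u := by
  obtain ⟨u, hu⟩ := X_dvd_iff.mpr
    (show constantCoeff (dSeries S) = 0 by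
      rw [← coeff_zero_eq_constantCoeff_apply, coeff_zero_dSeries])
  refine ⟨u, isUnit_iff_constantCoeff.mpr ?_, hu⟩
  have h1 := congrArg (coeff 1) hu
  rw [coeff_one_dSeries, coeff_succ_X_mul, coeff_zero_eq_constantCoeff_apply] at h1
  rw [← h1]
  exact isUnit_one

lemma coeff_one_dSeries_mul (a : PowerSeries S) :
    coeff 1 (dSeries S * a) = constantCoeff a := by
  obtain ⟨u, -, hu⟩ := exists_dSeries_eq (S := S)
  have h1 := congrArg (coeff 1) hu
  rw [coeff_one_dSeries, coeff_succ_X_mul, coeff_zero_eq_constantCoeff_apply] at h1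
  rw [hu, mul_assoc, coeff_succ_X_mul, coeff_zero_eq_constantCoeff_apply, map_mul, ← h1, one_mul]

/-- `a` is the series of a level one form of weight `k`. -/
def LevelOneSeries (ι : S →+* ℂ) (k : ℤ) (a : PowerSeries S) : Prop :=
  ∃ F : ModularForm 𝒮ℒ k, IsQExp 1 F (PowerSeries.map ι a)

namespace LevelOneSeries

variable {ι : S →+* ℂ} {k l : ℤ} {a b : PowerSeries S}

lemma add (ha : LevelOneSeries ι k a) (hb : LevelOneSeries ι k b) :
    LevelOneSeries ι k (a + b) := by
  obtain ⟨F, hF⟩ := ha; obtain ⟨G, hG⟩ := hb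
  exact ⟨F + G, by rw [map_add]; exact hF.add hG⟩

lemma smul (c : S) (ha : LevelOneSeries ι k a) : LevelOneSeries ι k (c • a) := by
  obtain ⟨F, hF⟩ := ha
  refine ⟨ι c • F, ?_⟩
  rw [Algebra.smul_def, map_mul, ← Algebra.algebraMap_self_apply (R := S) (c : S),
    PowerSeries.algebraMap_apply, Algebra.algebraMap_self_apply, Algebra.algebraMap_self_apply,
    map_C, ← smul_eq_C_mul]
  exact hF.smul (ι c)

lemma sub (ha : LevelOneSeries ι k a) (hb : LevelOneSeries ι k b) :
    LevelOneSeries ι k (a - b) := by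
  obtain ⟨F, hF⟩ := ha; obtain ⟨G, hG⟩ := hb
  exact ⟨F - G, by rw [map_sub]; exact hF.sub hG⟩

lemma mul (ha : LevelOneSeries ι k a) (hb : LevelOneSeries ι l b) :
    LevelOneSeries ι (k + l) (a * b) := by
  obtain ⟨F, hF⟩ := ha; obtain ⟨G, hG⟩ := hb
  exact ⟨F.mul G, by rw [map_mul]; exact hF.mul hG⟩

lemma congr (hkl : k = l) (ha : LevelOneSeries ι k a) : LevelOneSeries ι l a := hkl ▸ ha

lemma one : LevelOneSeries ι 0 1 := ⟨1, by rw [map_one]; exact IsQExp.one⟩

lemma pow (ha : LevelOneSeries ι k a) (n : ℕ) : LevelOneSeries ι (n * k) (a ^ n) := by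
  induction n with
  | zero => simpa using one.congr (by simp)
  | succ n ih => exact (ih.mul ha).congr (by push_cast; ring)

lemma isQExp_E₄ : IsQExp 1 E₄ (qSeries ℂ) := by
  convert isQExp_qExpansion_one E₄ one_mem_strictPeriods_SL using 1
  ext n
  norm_num [EisensteinSeries.E_qExpansion_coeff _ ⟨2, rfl⟩, qSeries, coeff_divSeries,
    show bernoulli 4 = -1 / 30 by decide +kernel, coeff_one]
  rcases eq_or_ne n 0 with rfl | hn <;> simp [*]

lemma isQExp_E₆ : IsQExp 1 E₆ (rSeries ℂ) := by
  convert isQExp_qExpansion_one E₆ one_mem_strictPeriods_SL using 1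
  ext n
  norm_num [EisensteinSeries.E_qExpansion_coeff _ ⟨3, rfl⟩, rSeries, coeff_divSeries,
    show bernoulli 6 = 1 / 42 by decide +kernel, coeff_one]
  rcases eq_or_ne n 0 with rfl | hn <;> simp [*]

lemma qSeries_mem : LevelOneSeries ι 4 (qSeries S) :=
  ⟨E₄, by rw [map_qSeries]; exact isQExp_E₄⟩

lemma rSeries_mem : LevelOneSeries ι 6 (rSeries S) :=
  ⟨E₆, by rw [map_rSeries]; exact isQExp_E₆⟩

lemma isQExp_discriminant : IsQExp 1 ModularForm.discriminant (dSeries ℂ) := by
  have hd : (dSeries ℂ) = (1 / 1728 : ℂ) • (qSeries ℂ ^ 3 - rSeries ℂ ^ 2) := by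
    rw [← dSeries_spec, smul_smul]
    norm_num
  rw [hd]
  refine (((isQExp_E₄.pow 3).sub (isQExp_E₆.pow 2)).smul (1 / 1728 : ℂ)).congr fun τ => ?_
  rw [discriminant_eq_E₄_cube_sub_E₆_sq]
  simp [div_eq_inv_mul]

lemma dSeries_mem : LevelOneSeries ι 12 (dSeries S) :=
  ⟨(CuspForm.discriminant : ModularForm 𝒮ℒ 12), by rw [map_dSeries]; exact isQExp_discriminant⟩

lemma qr_mem (i j : ℕ) : LevelOneSeries ι (4 * i + 6 * j) (qSeries S ^ i * rSeries S ^ j) :=
  ((qSeries_mem.pow i).mul (rSeries_mem.pow j)).congr (by ring)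

/-- In negative, odd and weight two all series vanish. -/
lemma eq_zero (hι : Function.Injective ι) (hk : k < 0 ∨ Odd k ∨ k = 2)
    (ha : LevelOneSeries ι k a) : a = 0 := by
  obtain ⟨F, hF⟩ := ha
  have hF0 : F = 0 := by
    rcases hk with hk | hk | rfl
    · exact ModularForm.isZero_of_neg_weight hk F
    · exact ModularForm.levelOne_odd_weight_eq_zero hk F
    · exact rank_zero_iff_forall_zero.mp ModularForm.levelOne_weight_two_rank_zero F
  subst hF0
  have := hF.eq_zero
  ext n
  have hn := congrArg (coeff n) this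
  rw [coeff_map, map_zero] at hn
  exact hι (by rw [hn, map_zero, map_zero])

lemma eq_const (hι : Function.Injective ι) (ha : LevelOneSeries ι 0 a) :
    a = C (constantCoeff a) := by
  obtain ⟨F, hF⟩ := ha
  obtain ⟨c, hc⟩ := ModularFormClass.levelOne_weight_zero_const F
  have h : PowerSeries.map ι a = C c :=
    hF.unique ((IsQExp.const c).congr fun τ => by rw [hc]; rfl)
  have h0 : ι (constantCoeff a) = c := by
    have := congrArg constantCoeff h
    rwa [← coeff_zero_eq_constantCoeff_apply, coeff_map, coeff_zero_eq_constantCoeff_apply,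
      constantCoeff_C] at this
  apply map_injective _ hι
  rw [h, map_C, h0]

lemma exists_dSeries_mul (hι : Function.Injective ι) (ha : LevelOneSeries ι k a)
    (h0 : constantCoeff a = 0) :
    ∃ b, LevelOneSeries ι (k - 12) b ∧ a = dSeries S * b := by
  obtain ⟨u, ⟨u, rfl⟩, hu⟩ := exists_dSeries_eq (S := S)
  obtain ⟨a', ha'⟩ := X_dvd_iff.mpr h0
  refine ⟨↑u⁻¹ * a', ?_, by rw [hu, mul_assoc, Units.mul_inv_cancel_left, ha']⟩
  obtain ⟨F, hF⟩ := ha
  have hc : (qExpansion 1 F).coeff 0 = 0 := by
    have h := (isQExp_qExpansion_one F one_mem_strictPeriods_SL).unique hF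
    rw [h]
    simp [h0]
  refine ⟨CuspForm.discriminantEquiv (toCuspForm F hc), ?_⟩
  generalize hGdef : CuspForm.discriminantEquiv (toCuspForm F hc) = G
  have hG := isQExp_qExpansion_one G one_mem_strictPeriods_SL
  have hmul : PowerSeries.map ι a = dSeries ℂ * qExpansion 1 G := by
    refine hF.unique ((isQExp_discriminant.mul hG).congr fun τ => ?_)
    rw [Pi.mul_apply, ← hGdef]
    exact (discriminant_mul_discriminantEquiv_apply (toCuspForm F hc) τ).trans
      (toCuspForm_apply F hc τ)
  have hmul' : PowerSeries.map ι a = dSeries ℂ * PowerSeries.map ι (↑u⁻¹ * a') := by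
    rw [← map_dSeries ι, ← map_mul, hu, mul_assoc, Units.mul_inv_cancel_left, ha']
  have hd : dSeries ℂ ≠ 0 := fun h => by
    simpa [h] using coeff_one_dSeries (S := ℂ)
  rw [← mul_left_cancel₀ hd (hmul.symm.trans hmul')]
  exact hG

/-- Induction: everything is built from `Q^i R^j` and multiplication by the discriminant. -/
lemma induction_on (hι : Function.Injective ι) (P : ℤ → PowerSeries S → Prop)
    (zero : ∀ k, P k 0) (add : ∀ k a b, P k a → P k b → P k (a + b))
    (mono : ∀ (s : S) (i j : ℕ), P (4 * i + 6 * j) (s • (qSeries S ^ i * rSeries S ^ j)))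
    (disc : ∀ k a, P k a → P (k + 12) (dSeries S * a))
    (ha : LevelOneSeries ι k a) : P k a := by
  suffices h : ∀ (n : ℕ) (k : ℤ) (a : PowerSeries S), k.toNat ≤ n →
      LevelOneSeries ι k a → P k a from h _ k a le_rfl ha
  intro n
  induction n with
  | zero =>
    intro k a hk ha
    by_cases h0 : k = 0
    · subst h0
      have h := mono (constantCoeff a) 0 0
      rw [pow_zero, pow_zero, one_mul, smul_eq_C_mul, mul_one, ← ha.eq_const hι] at h
      simpa using h
    · rw [ha.eq_zero hι (Or.inl (by omega))]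
      exact zero k
  | succ n ih =>
    intro k a hk ha
    by_cases hk' : k.toNat ≤ n
    · exact ih k a hk' ha
    by_cases hz : Odd k ∨ k = 2
    · rw [ha.eq_zero hι (Or.inr hz)]
      exact zero k
    push Not at hz
    obtain ⟨hodd, hne⟩ := hz
    obtain ⟨m, rfl⟩ : Even k := Int.not_odd_iff_even.mp hodd
    have hm : 2 ≤ m := by omega
    obtain ⟨i, j, hij⟩ : ∃ i j : ℕ, m + m = 4 * (i : ℤ) + 6 * j := by
      rcases Int.even_or_odd m with ⟨r, hr⟩ | ⟨r, hr⟩
      · exact ⟨r.toNat, 0, by omega⟩
      · exact ⟨(r - 1).toNat, 1, by omega⟩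
    set M := qSeries S ^ i * rSeries S ^ j with hM
    have hMmem : LevelOneSeries ι (m + m) M := (qr_mem i j).congr hij.symm
    have h0 : constantCoeff (a - constantCoeff a • M) = 0 := by
      simp [hM, constantCoeff_qSeries, constantCoeff_rSeries]
    obtain ⟨b, hb, hab⟩ := exists_dSeries_mul hι (ha.sub (hMmem.smul (constantCoeff a))) h0
    have hPb := disc _ _ (ih _ b (by omega) hb)
    rw [sub_add_cancel, ← hab] at hPb
    have hPM := mono (constantCoeff a) i j
    rw [← hij] at hPM
    have := add _ _ _ hPb hPM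
    rwa [sub_add_cancel] at this

end LevelOneSeries

end Fermat.Agent.Eisenstein
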