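import Mathlib.NumberTheory.ModularForms.LevelOne.DimensionFormula
import Mathlib.NumberTheory.ModularForms.CongruenceSubgroups
import Fermat.Agent.Newform.AtkinInvolution
import Fermat.Agent.Eisenstein.UpperQExp

/-!
# Forms of level `p` by their series at the two cusps, and the trace to level one
-/

set_option autoImplicit false
set_option maxHeartbeats 400000

noncomputable section

open Complex UpperHalfPlane ModularForm PowerSeries Fermat.Agent.Newform
open scoped MatrixGroups ModularForm Manifold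

namespace Fermat.Agent.Eisenstein

local notation "M₂" => Matrix (Fin 2) (Fin 2) ℤ

/-- `(0 -1; 1 j)`, i.e. the inversion followed by the translation by `j`. -/
def invTrans (j : ℤ) : M₂ := !![0, -1; 1, j]

lemma det_invTrans (j : ℤ) : (invTrans j).det = 1 := by simp [invTrans, Matrix.det_fin_two_of]

/-- `(1 j; 0 1)`. -/
def shiftMat (j : ℤ) : M₂ := !![1, j; 0, 1]

lemma det_shiftMat (j : ℤ) : (shiftMat j).det = 1 := by simp [shiftMat, Matrix.det_fin_two_of]

lemma invTrans_eq (i j : ℤ) : invTrans (i + j) = invTrans i * shiftMat j := by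
  ext a b
  fin_cases a <;> fin_cases b <;> simp [invTrans, shiftMat, Matrix.mul_apply, Fin.sum_univ_two]
  ring

variable {k : ℤ} {f g : ℍ → ℂ} {p : ℕ}

/-- Slash by the inversion. -/
def slashInv (k : ℤ) (f : ℍ → ℂ) : ℍ → ℂ := f ∣[k] atkinGL (invTrans 0)

lemma atkinGL_slash_apply (k : ℤ) (f : ℍ → ℂ) {X : M₂} (hX : 0 < X.det) (τ : ℍ) :
    (f ∣[k] atkinGL X) τ = f (atkinGL X • τ) * (X.det : ℂ) ^ (k - 1) *
      ((X 1 0 : ℂ) * τ + X 1 1) ^ (-k) := by
  have hdet : (((atkinGL X).det : ℝˣ) : ℝ) = X.det := by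
    rw [Matrix.GeneralLinearGroup.val_det_apply, val_atkinGL hX.ne', ← RingHom.mapMatrix_apply,
      ← RingHom.map_det]
    rfl
  rw [ModularForm.slash_apply, UpperHalfPlane.σ, if_pos (atkinGL_det_pos hX), hdet,
    abs_of_nonneg (by exact_mod_cast hX.le)]
  simp [UpperHalfPlane.denom, val_atkinGL hX.ne']

lemma coe_atkinGL_smul {X : M₂} (hX : 0 < X.det) (τ : ℍ) :
    ((atkinGL X • τ : ℍ) : ℂ) =
      ((X 0 0 : ℂ) * τ + X 0 1) / ((X 1 0 : ℂ) * τ + X 1 1) := by
  rw [UpperHalfPlane.coe_smul_of_det_pos (atkinGL_det_pos hX)]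
  simp [UpperHalfPlane.num, UpperHalfPlane.denom, val_atkinGL hX.ne']

lemma slash_shiftMat (k : ℤ) (f : ℍ → ℂ) (j : ℤ) :
    f ∣[k] atkinGL (shiftMat j) = fun τ => f ((j : ℝ) +ᵥ τ) := by
  funext τ
  rw [atkinGL_slash_apply k f (by rw [det_shiftMat]; norm_num), det_shiftMat]
  have : atkinGL (shiftMat j) • τ = (j : ℝ) +ᵥ τ := by
    apply UpperHalfPlane.ext
    rw [coe_atkinGL_smul (by rw [det_shiftMat]; norm_num), UpperHalfPlane.coe_vadd]
    simp [shiftMat, add_comm]
  rw [this]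
  simp [shiftMat]

lemma slash_invTrans (k : ℤ) (f : ℍ → ℂ) (j : ℤ) :
    f ∣[k] atkinGL (invTrans j) = fun τ => slashInv k f ((j : ℝ) +ᵥ τ) := by
  rw [show invTrans j = invTrans 0 * shiftMat j by rw [← invTrans_eq, zero_add],
    atkinGL_mul (by simp [det_invTrans]) (by simp [det_shiftMat]), SlashAction.slash_mul,
    slash_shiftMat, slashInv]

lemma slashInv_mul (k l : ℤ) (f g : ℍ → ℂ) :
    slashInv (k + l) (f * g) = slashInv k f * slashInv l g := by
  have h : atkinGL (invTrans 0) =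
      Matrix.SpecialLinearGroup.mapGL ℝ (⟨invTrans 0, det_invTrans 0⟩ : SL(2, ℤ)) :=
    atkinGL_coe_SL ⟨invTrans 0, det_invTrans 0⟩
  have h' := ModularForm.mul_slash_SL2 k l (⟨invTrans 0, det_invTrans 0⟩ : SL(2, ℤ)) f g
  simp only [ModularForm.SL_slash] at h'
  rw [slashInv, slashInv, slashInv, h]
  exact h'

/-- A level `p` form: invariant, holomorphic, with series at both cusps. -/
structure IsLevel (p : ℕ) (k : ℤ) (f : ℍ → ℂ) : Prop where
  inv : AtkinInvariant p k f
  holo : MDiff f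
  ser : ∃ a, IsQExp 1 f a
  ser_inv : ∃ b, IsQExp p (slashInv k f) b

lemma AtkinInvariant.of_eq_slash (hf : AtkinInvariant p k f) {γ : M₂} (h1 : γ.det = 1)
    (h2 : (p : ℤ) ∣ γ 1 0) : f ∣[k] atkinGL γ = f := hf.slash_atkinGL h1 h2

lemma IsLevel.mul {l : ℤ} (hf : IsLevel p k f) (hg : IsLevel p l g) :
    IsLevel p (k + l) (f * g) := by
  refine ⟨fun γ hγ => ?_, hf.holo.mul hg.holo, ?_, ?_⟩
  · have h1 := hf.inv γ hγ
    have h2 := hg.inv γ hγ
    obtain ⟨γ, -, rfl⟩ := hγ
    have h' := ModularForm.mul_slash_SL2 k l γ f g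
    simp only [ModularForm.SL_slash] at h'
    exact h'.trans (congrArg₂ (· * ·) h1 h2)
  · obtain ⟨a, ha⟩ := hf.ser; obtain ⟨b, hb⟩ := hg.ser
    exact ⟨_, ha.mul hb⟩
  · obtain ⟨a, ha⟩ := hf.ser_inv; obtain ⟨b, hb⟩ := hg.ser_inv
    exact ⟨_, by rw [slashInv_mul]; exact ha.mul hb⟩

lemma IsLevel.sub (hf : IsLevel p k f) (hg : IsLevel p k g) : IsLevel p k (f - g) := by
  refine ⟨fun γ hγ => ?_, hf.holo.sub hg.holo, ?_, ?_⟩
  · rw [sub_eq_add_neg, SlashAction.add_slash, SlashAction.neg_slash, hf.inv γ hγ, hg.inv γ hγ]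
  · obtain ⟨a, ha⟩ := hf.ser; obtain ⟨b, hb⟩ := hg.ser
    exact ⟨_, ha.sub hb⟩
  · obtain ⟨a, ha⟩ := hf.ser_inv; obtain ⟨b, hb⟩ := hg.ser_inv
    exact ⟨a - b, by rw [slashInv, sub_eq_add_neg f, SlashAction.add_slash, SlashAction.neg_slash,
      ← sub_eq_add_neg]; exact ha.sub hb⟩

lemma IsLevel.smul (c : ℂ) (hf : IsLevel p k f) : IsLevel p k (c • f) := by
  have hs : ∀ X : M₂, 0 < X.det → (c • f) ∣[k] atkinGL X = c • (f ∣[k] atkinGL X) := fun X hX => by
    rw [ModularForm.smul_slash, UpperHalfPlane.σ, if_pos (atkinGL_det_pos hX)]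
    rfl
  refine ⟨atkinInvariant_iff_atkinGL.mpr fun γ h1 h2 => ?_, hf.holo.const_smul c, ?_, ?_⟩
  · rw [hs γ (by rw [h1]; exact one_pos), hf.inv.slash_atkinGL h1 h2]
  · obtain ⟨a, ha⟩ := hf.ser
    exact ⟨_, ha.smul c⟩
  · obtain ⟨a, ha⟩ := hf.ser_inv
    exact ⟨_, by rw [slashInv, hs _ (by rw [det_invTrans]; exact one_pos)]; exact ha.smul c⟩

lemma IsLevel.const (c : ℂ) : IsLevel p 0 (fun _ => c) := by
  have hs : ∀ X : M₂, X.det = 1 → (fun _ : ℍ => c) ∣[(0 : ℤ)] atkinGL X = fun _ => c :=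
    fun X hX => by
    funext τ
    rw [atkinGL_slash_apply _ _ (by rw [hX]; exact one_pos), hX]
    simp
  refine ⟨atkinInvariant_iff_atkinGL.mpr fun γ h1 _ => hs γ h1, mdifferentiable_const,
    ⟨_, IsQExp.const c⟩, ⟨PowerSeries.C c, ?_⟩⟩
  rw [slashInv, hs _ (det_invTrans 0)]
  exact IsQExp.const c

lemma IsLevel.pow (hf : IsLevel p k f) (n : ℕ) : IsLevel p (n * k) (f ^ n) := by
  induction n with
  | zero =>
    rw [pow_zero, Nat.cast_zero, zero_mul]
    exact IsLevel.const (p := p) 1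
  | succ n ih =>
    rw [pow_succ, show ((n + 1 : ℕ) : ℤ) * k = n * k + k by push_cast; ring]
    exact ih.mul hf

/-- A periodic, holomorphic, bounded function has a series. -/
lemma exists_isQExp {h : ℕ} [NeZero h] (hper : ∀ τ : ℍ, f ((h : ℝ) +ᵥ τ) = f τ)
    (hhol : MDiff f) (hbdd : IsBoundedAtImInfty f) : IsQExp h f (qExpansion h f) := by
  have hper' : Function.Periodic (f ∘ ofComplex) (h : ℝ) := by
    intro w
    by_cases hw : 0 < w.im
    · have : 0 < (w + (h : ℝ)).im := by simp [hw]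
      simp only [Function.comp_apply, ofComplex_apply_of_im_pos this,
        ofComplex_apply_of_im_pos hw]
      rw [← hper ⟨w, hw⟩]
      congr 1
      exact UpperHalfPlane.ext (by rw [UpperHalfPlane.coe_vadd]; exact add_comm _ _)
    · push Not at hw
      have : (w + (h : ℝ)).im ≤ 0 := by simpa using hw
      simp only [Function.comp_apply, ofComplex_apply_of_im_nonpos this,
        ofComplex_apply_of_im_nonpos hw]
  exact fun τ => hasSum_qExpansion (by exact_mod_cast NeZero.pos h) hper' hhol hbdd τ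

lemma IsLevel.of_modularForm [NeZero p] {F : Type*} [FunLike F ℍ ℂ]
    [ModularFormClass F (CongruenceSubgroup.Gamma0 p) k] (φ : F) : IsLevel p k ⇑φ := by
  have hinv : AtkinInvariant p k ⇑φ := fun γ hγ => SlashInvariantFormClass.slash_action_eq φ γ hγ
  refine ⟨hinv, ModularFormClass.holo φ, ⟨_, isQExp_qExpansion_one φ
    (CongruenceSubgroup.strictPeriods_Gamma0 (N := p) ▸ by simp)⟩, ⟨_, exists_isQExp ?_ ?_ ?_⟩⟩
  · intro τ
    have h : invTrans p = (!![1, 0; -(p : ℤ), 1] : M₂) * invTrans 0 := by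
      ext a b
      fin_cases a <;> fin_cases b <;> simp [invTrans, Matrix.mul_apply, Fin.sum_univ_two]
    have h' := slash_invTrans k ⇑φ p
    rw [h, hinv.slash_atkinGL_mul (by simp [Matrix.det_fin_two_of]) (by simp)
      (by simp [det_invTrans])] at h'
    simpa [slashInv] using (congrFun h' τ).symm
  · exact (ModularFormClass.holo φ).slash k _
  · have : atkinGL (invTrans 0) =
        Matrix.SpecialLinearGroup.mapGL ℝ (⟨invTrans 0, det_invTrans 0⟩ : SL(2, ℤ)) :=
      atkinGL_coe_SL ⟨invTrans 0, det_invTrans 0⟩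
    rw [slashInv, this]
    exact ModularFormClass.bdd_at_infty_slash φ _

/-- Level one forms from invariance, holomorphy and a series. -/
lemma exists_modularForm (hinv : AtkinInvariant 1 k f) (hhol : MDiff f)
    {a : PowerSeries ℂ} (ha : IsQExp 1 f a) : ∃ F : ModularForm 𝒮ℒ k, ⇑F = f := by
  have hinv' : ∀ γ : SL(2, ℤ), f ∣[k] γ = f := fun γ =>
    hinv _ ⟨γ, by
      show γ ∈ CongruenceSubgroup.Gamma0 1
      rw [CongruenceSubgroup.Gamma0_mem]
      exact Subsingleton.elim _ _, rfl⟩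
  refine ⟨{ toFun := f, slash_action_eq' := ?_, holo' := hhol, bdd_at_cusps' := ?_ }, rfl⟩
  · rintro _ ⟨γ, rfl⟩
    exact hinv' γ
  · intro c hc
    rw [Subgroup.IsArithmetic.isCusp_iff_isCusp_SL2Z] at hc
    rw [OnePoint.isBoundedAt_iff_forall_SL2Z hc]
    intro γ _
    rw [hinv' γ]
    exact ha.isBoundedAtImInfty

/-- Representatives for `Γ₀(p)` in `SL₂(ℤ)`. -/
def trRep (p : ℕ) : Option (Fin p) → M₂ := fun i => i.elim 1 fun j => invTrans (j : ℤ)

lemma det_trRep (i : Option (Fin p)) : (trRep p i).det = 1 := by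
  rcases i with _ | j
  · exact Matrix.det_one
  · exact det_invTrans _

lemma exists_trRep_factor (hp : p.Prime) (X : M₂) (hX : X.det = 1) :
    ∃ (i : Option (Fin p)) (γ : M₂), γ.det = 1 ∧ (p : ℤ) ∣ γ 1 0 ∧ X = γ * trRep p i := by
  by_cases hc : (p : ℤ) ∣ X 1 0
  · exact ⟨none, X, hX, hc, by simp [trRep]⟩
  obtain ⟨α, β, hαβ⟩ := (Nat.prime_iff_prime_int.1 hp).coprime_iff_not_dvd.mpr hc
  have hp' : (p : ℤ) ≠ 0 := by exact_mod_cast hp.ne_zero
  have h0 := Int.emod_nonneg (β * X 1 1) hp'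
  have h1 : β * X 1 1 % (p : ℤ) < p := Int.emod_lt_of_pos _ (by exact_mod_cast hp.pos)
  set r := β * X 1 1 % (p : ℤ) with hr
  refine ⟨some ⟨r.toNat, by omega⟩, !![X 0 0 * r - X 0 1, X 0 0; X 1 0 * r - X 1 1, X 1 0],
    ?_, ?_, ?_⟩
  · rw [Matrix.det_fin_two_of, ← hX, Matrix.det_fin_two]
    ring
  · obtain ⟨e, he⟩ : (p : ℤ) ∣ β * X 1 1 - r := Int.dvd_self_sub_of_emod_eq rfl
    refine ⟨-X 1 0 * e - α * X 1 1, ?_⟩
    simp
    linear_combination (-(X 1 0)) * he + (X 1 1) * hαβ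
  · ext a b
    fin_cases a <;> fin_cases b <;>
      simp [trRep, invTrans, Matrix.mul_apply, Fin.sum_univ_two, max_eq_left h0]

lemma trRep_injective (hp : p.Prime) {i j : Option (Fin p)} {γ : M₂} (h2 : (p : ℤ) ∣ γ 1 0)
    (h : trRep p i = γ * trRep p j) : i = j := by
  have hnd : ¬ (p : ℤ) ∣ 1 := fun h1 =>
    (Nat.prime_iff_prime_int.1 hp).not_isUnit (isUnit_of_dvd_one h1)
  have h10 := congrFun (congrFun h 1) 0
  have h11 := congrFun (congrFun h 1) 1
  rcases i with _ | i <;> rcases j with _ | j <;>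
    simp [trRep, invTrans, Matrix.mul_apply, Fin.sum_univ_two] at h10 h11
  · rfl
  · rw [← h10] at h11
    exact absurd ⟨-(h2.choose), by linear_combination h11 - h2.choose_spec⟩ hnd
  · rw [← h10] at h2
    exact absurd h2 hnd
  · rw [← h10] at h11
    refine congrArg some (Fin.ext ?_)
    obtain ⟨e, he⟩ := h2
    have hd : (p : ℤ) ∣ (j : ℤ) - i := ⟨e, by linear_combination he - h11⟩
    have hi : ((i : ℕ) : ℤ) < p := by exact_mod_cast i.isLt
    have hj : ((j : ℕ) : ℤ) < p := by exact_mod_cast j.isLt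
    obtain ⟨q, hq⟩ := hd
    have hq0 : q = 0 := by
      rcases lt_trichotomy q 0 with hq0 | hq0 | hq0
      · nlinarith
      · exact hq0
      · nlinarith
    subst hq0
    omega

/-- The trace to level one. -/
def trOne (p : ℕ) (k : ℤ) (f : ℍ → ℂ) : ℍ → ℂ :=
  ∑ i : Option (Fin p), f ∣[k] atkinGL (trRep p i)

lemma trOne_apply (p : ℕ) (k : ℤ) (f : ℍ → ℂ) (τ : ℍ) :
    trOne p k f τ = f τ + ∑ j ∈ Finset.range p, slashInv k f ((j : ℝ) +ᵥ τ) := by
  have h1 : atkinGL (1 : M₂) = 1 := by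
    apply Units.ext
    rw [val_atkinGL (by simp)]
    simp
  rw [trOne, Fintype.sum_option, Pi.add_apply, Finset.sum_apply, Finset.sum_range]
  congr 1
  · simp [trRep, h1]
  · refine Finset.sum_congr rfl fun j _ => ?_
    simp [trRep, slash_invTrans]

/-- The trace is a level one form with the expected series. -/
theorem IsLevel.exists_trace (hp : p.Prime) (hf : IsLevel p k f) {a b : PowerSeries ℂ}
    (ha : IsQExp 1 f a) (hb : IsQExp p (slashInv k f) b) :
    ∃ F : ModularForm 𝒮ℒ k, ⇑F = trOne p k f ∧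
      IsQExp 1 F (a + PowerSeries.mk fun n => (p : ℂ) * b.coeff (p * n)) := by
  have hser : IsQExp 1 (trOne p k f)
      (a + PowerSeries.mk fun n => (p : ℂ) * b.coeff (p * n)) :=
    (ha.add (hb.sum_translate hp.ne_zero)).congr fun τ => by rw [trOne_apply, Pi.add_apply]
  have hinv : AtkinInvariant 1 k (trOne p k f) := by
    rw [atkinInvariant_iff_atkinGL]
    intro g hg _
    rw [trOne, SlashAction.sum_slash, Finset.sum_congr rfl fun i _ => by
      rw [← SlashAction.slash_mul,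
        ← atkinGL_mul (by simp [det_trRep]) (by rw [hg]; exact one_ne_zero)]]
    refine hf.inv.sum_slash_eq _ _ (fun i => by simp [det_trRep]) (fun i => ?_) ?_
    · exact exists_trRep_factor hp _ (by rw [Matrix.det_mul, det_trRep, hg, mul_one])
    · intro i j γ _ h2 h
      have hcancel := congrArg (· * g.adjugate) h
      simp only [Matrix.mul_assoc, Matrix.mul_adjugate, hg, one_smul, Matrix.mul_one] at hcancel
      exact trRep_injective hp h2 hcancel
  have hhol : MDiff (trOne p k f) := by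
    rw [trOne]
    exact .sum fun i _ => hf.holo.slash k _
  obtain ⟨F, hF⟩ := exists_modularForm hinv hhol hser
  exact ⟨F, hF, hF ▸ hser⟩

/-- `A (p τ)`. -/
def scaleArg (p : ℕ) (k : ℤ) (f : ℍ → ℂ) : ℍ → ℂ :=
  ((p : ℂ) ^ (1 - k)) • (f ∣[k] atkinGL (atkinDiag p))

lemma scaleArg_apply [NeZero p] (τ τ' : ℍ) (h : (τ' : ℂ) = p * (τ : ℂ)) :
    scaleArg p k f τ = f τ' := by
  have hp : (p : ℂ) ≠ 0 := by exact_mod_cast NeZero.ne p
  have hpos : 0 < (atkinDiag p).det := by rw [det_atkinDiag]; exact_mod_cast NeZero.pos p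
  have hs : atkinGL (atkinDiag p) • τ = τ' := by
    apply UpperHalfPlane.ext
    rw [coe_atkinGL_smul hpos, h]
    simp [atkinDiag]
  rw [scaleArg, Pi.smul_apply, atkinGL_slash_apply k f hpos, hs, det_atkinDiag]
  simp only [atkinDiag, Matrix.of_apply, Matrix.cons_val', Matrix.cons_val_zero,
    Matrix.cons_val_one, Matrix.cons_val_fin_one, Int.cast_zero, zero_mul, Int.cast_one, zero_add,
    one_zpow, mul_one, Int.cast_natCast, smul_eq_mul]
  rw [mul_comm (f τ'), ← mul_assoc, ← zpow_add₀ hp, show 1 - k + (k - 1) = 0 by ring, zpow_zero,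
    one_mul]

lemma isQExp_scaleArg [NeZero p] {a : PowerSeries ℂ} (ha : IsQExp 1 f a) :
    IsQExp 1 (scaleArg p k f) (PowerSeries.expand p (NeZero.ne p) a) :=
  ha.scale (NeZero.ne p) fun τ τ' h => scaleArg_apply τ τ' h

lemma isLevel_scaleArg [NeZero p] (F : ModularForm 𝒮ℒ k) {a : PowerSeries ℂ}
    (ha : IsQExp 1 F a) :
    IsLevel p k (scaleArg p k F) ∧
      IsQExp p (slashInv k (scaleArg p k F)) (((p : ℂ) ^ (-k)) • a) := by
  have hp : (p : ℤ) ≠ 0 := by exact_mod_cast NeZero.ne p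
  have hp' : (p : ℂ) ≠ 0 := by exact_mod_cast NeZero.ne p
  have hsmul : ∀ (X : M₂), 0 < X.det → ∀ (c : ℂ) (φ : ℍ → ℂ),
      (c • φ) ∣[k] atkinGL X = c • (φ ∣[k] atkinGL X) := fun X hX c φ => by
    rw [ModularForm.smul_slash, UpperHalfPlane.σ, if_pos (atkinGL_det_pos hX)]
    rfl
  have hF : ∀ X : M₂, X.det = 1 → ⇑F ∣[k] atkinGL X = ⇑F := fun X hX => by
    rw [show atkinGL X = Matrix.SpecialLinearGroup.mapGL ℝ (⟨X, hX⟩ : SL(2, ℤ)) from
      atkinGL_coe_SL ⟨X, hX⟩]
    exact SlashInvariantFormClass.slash_action_eq F _ ⟨_, rfl⟩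
  have hdd : (atkinDiag p).det ≠ 0 := by rw [det_atkinDiag]; exact hp
  have hinv : IsQExp p (slashInv k (scaleArg p k F)) (((p : ℂ) ^ (-k)) • a) := by
    have hfac : atkinDiag p * invTrans 0 = invTrans 0 * !![1, 0; 0, (p : ℤ)] := by
      ext a b
      fin_cases a <;> fin_cases b <;>
        simp [atkinDiag, invTrans, Matrix.mul_apply, Fin.sum_univ_two]
    have hd : 0 < (!![1, 0; 0, (p : ℤ)] : M₂).det := by
      simp [Matrix.det_fin_two_of, NeZero.pos]
    rw [slashInv, scaleArg, hsmul _ (by simp [det_invTrans]), ← SlashAction.slash_mul,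
      ← atkinGL_mul hdd (by simp [det_invTrans]), hfac, atkinGL_mul (by simp [det_invTrans]) hd.ne',
      SlashAction.slash_mul, hF _ (det_invTrans 0)]
    have h := ha.divide (NeZero.ne p) (g := fun τ => F (atkinGL !![1, 0; 0, (p : ℤ)] • τ))
      (fun τ τ' h => by
        congr 1
        apply UpperHalfPlane.ext
        rw [coe_atkinGL_smul hd, ← h]
        simp [hp'])
    rw [one_mul] at h
    refine ((h.smul ((p : ℂ) ^ (-k)))).congr fun τ => ?_
    rw [Pi.smul_apply, Pi.smul_apply, atkinGL_slash_apply k _ hd, smul_eq_mul, smul_eq_mul]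
    simp only [Matrix.det_fin_two_of, mul_zero, sub_zero, one_mul, Int.cast_natCast]
    simp only [Matrix.of_apply, Matrix.cons_val', Matrix.cons_val_zero, Matrix.cons_val_one,
      Matrix.cons_val_fin_one, Int.cast_zero, zero_mul, zero_add, Int.cast_natCast]
    rw [mul_assoc, ← zpow_add₀ hp', mul_comm _ (F _ : ℂ), mul_comm ((p : ℂ) ^ (1 - k)), mul_assoc,
      ← zpow_add₀ hp']
    congr 2
    ring
  refine ⟨⟨?_, ?_, ⟨_, isQExp_scaleArg ha⟩, ⟨_, hinv⟩⟩, hinv⟩
  · rw [atkinInvariant_iff_atkinGL]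
    intro γ h1 h2
    obtain ⟨c, hc⟩ := h2
    have hfac : atkinDiag p * γ = !![γ 0 0, (p : ℤ) * γ 0 1; c, γ 1 1] * atkinDiag p := by
      ext a b
      fin_cases a <;> fin_cases b <;>
        simp [atkinDiag, Matrix.mul_apply, Fin.sum_univ_two, hc] <;> ring
    have hd' : (!![γ 0 0, (p : ℤ) * γ 0 1; c, γ 1 1] : M₂).det = 1 := by
      rw [Matrix.det_fin_two_of, ← h1, Matrix.det_fin_two, hc]
      ring
    rw [scaleArg, hsmul _ (by rw [h1]; exact one_pos), ← SlashAction.slash_mul,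
      ← atkinGL_mul hdd (by rw [h1]; exact one_ne_zero), hfac,
      atkinGL_mul (by rw [hd']; exact one_ne_zero) hdd, SlashAction.slash_mul, hF _ hd']
  · exact ((ModularFormClass.holo F).slash k _).const_smul _

/-- In weight two the series at the cusp zero is minus the `U_p` of the one at infinity. -/
theorem IsLevel.coeff_slashInv_two (hp : p.Prime) (hf : IsLevel p 2 f) {a b : PowerSeries ℂ}
    (ha : IsQExp 1 f a) (hb : IsQExp p (slashInv 2 f) b) (n : ℕ) :
    (p : ℂ) * b.coeff n = -a.coeff (p * n) := by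
  have : NeZero p := ⟨hp.ne_zero⟩
  have hp' : (p : ℂ) ≠ 0 := by exact_mod_cast hp.ne_zero
  let D : AtkinData p 1 := ⟨0, 1, hp, by simp⟩
  have hU : IsQExp 1 (ModularForm.heckeU 2 p f) (PowerSeries.mk fun n => a.coeff (p * n)) := by
    have h1 : IsQExp p (fun τ => f (ModularForm.heckeMatrix p 0 • τ)) a := by
      have h := ha.divide hp.ne_zero (g := fun τ => f (ModularForm.heckeMatrix p 0 • τ))
        (fun τ τ' h => by
          congr 1
          apply UpperHalfPlane.ext
          rw [ModularForm.coe_heckeMatrix_smul hp.ne_zero, ← h]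
          simp [hp'])
      rwa [one_mul] at h
    have h2 := (h1.sum_translate hp.ne_zero).smul ((p : ℂ)⁻¹)
    have h3 : ((p : ℂ)⁻¹ • PowerSeries.mk fun n => (p : ℂ) * a.coeff (p * n)) =
        PowerSeries.mk fun n => a.coeff (p * n) := by
      ext n
      simp [hp']
    rw [h3] at h2
    refine h2.congr fun τ => ?_
    rw [Pi.smul_apply, ModularForm.heckeU_apply 2 hp.ne_zero, smul_eq_mul]
    congr 1
    refine Finset.sum_congr rfl fun j _ => ?_
    congr 1
    apply UpperHalfPlane.ext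
    rw [ModularForm.coe_heckeMatrix_smul hp.ne_zero, ModularForm.coe_heckeMatrix_smul hp.ne_zero,
      UpperHalfPlane.coe_vadd]
    push_cast
    ring
  have hW : IsQExp 1 (f ∣[(2 : ℤ)] atkinGL D.W) ((p : ℂ) • b) := by
    have hfac : D.W = shiftMat 1 * (invTrans 0 * atkinDiag p) := by
      ext a b
      fin_cases a <;> fin_cases b <;>
        simp [AtkinData.W, D, shiftMat, invTrans, atkinDiag, Matrix.mul_apply, Fin.sum_univ_two]
    have hd : 0 < (atkinDiag p).det := by rw [det_atkinDiag]; exact_mod_cast hp.pos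
    rw [hfac, hf.inv.slash_atkinGL_mul (det_shiftMat 1) (by simp [shiftMat])
      (by rw [Matrix.det_mul, det_invTrans, one_mul]; exact hd.ne'),
      atkinGL_mul (by simp [det_invTrans]) hd.ne', SlashAction.slash_mul]
    refine fun τ => ?_
    let τ' : ℍ := atkinGL (atkinDiag p) • τ
    have hτ' : (τ' : ℂ) = p * (τ : ℂ) := by
      rw [coe_atkinGL_smul hd]
      simp [atkinDiag]
    have hq : Function.Periodic.qParam (p : ℝ) (τ' : ℂ) = Function.Periodic.qParam (1 : ℕ) (τ : ℂ) := by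
      rw [hτ', Function.Periodic.qParam, Function.Periodic.qParam]
      congr 1
      push_cast
      field_simp
    have hval : ((f ∣[(2 : ℤ)] atkinGL (invTrans 0)) ∣[(2 : ℤ)] atkinGL (atkinDiag p)) τ =
        (p : ℂ) * slashInv 2 f τ' := by
      rw [atkinGL_slash_apply 2 _ hd, det_atkinDiag]
      simp [atkinDiag, slashInv, τ', mul_comm]
    rw [hval]
    refine ((hb τ').mul_left (p : ℂ)).congr_fun fun n => ?_
    rw [PowerSeries.coeff_smul, smul_eq_mul, hq, mul_assoc]
  have hinv : AtkinInvariant 1 2 (ModularForm.heckeU 2 p f + f ∣[(2 : ℤ)] atkinGL D.W) :=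
    D.heckeU_add_slash_W (by rw [mul_one]; exact hf.inv)
  have hhol : MDiff (ModularForm.heckeU 2 p f + f ∣[(2 : ℤ)] atkinGL D.W) :=
    MDifferentiable.add (MDifferentiable.sum fun j _ => hf.holo.slash 2 _) (hf.holo.slash 2 _)
  obtain ⟨F, hF⟩ := exists_modularForm hinv hhol (hU.add hW)
  have hF0 : F = 0 := rank_zero_iff_forall_zero.mp ModularForm.levelOne_weight_two_rank_zero F
  have hz : IsQExp 1 (0 : ℍ → ℂ) ((PowerSeries.mk fun n => a.coeff (p * n)) + (p : ℂ) • b) :=
    (hU.add hW).congr fun τ => by rw [← congrFun hF τ, hF0]; rfl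
  have := congrArg (PowerSeries.coeff n) hz.eq_zero
  simp only [map_add, PowerSeries.coeff_mk, PowerSeries.coeff_smul, smul_eq_mul, map_zero] at this
  linear_combination this

end Fermat.Agent.Eisenstein
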