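/-
The forms of level three used to bound the 2-part of the Eisenstein index:
`C = (3 E₂(3z) - E₂(z)) / 2`, `D = (C² - E₄) / 24`, `B = D² / C`, and the value of a level three
form with 2-integral coefficients at the elliptic point, where `C` and `D` vanish.
-/
import Fermat.Agent.Eisenstein.UpperBEis
import Fermat.Agent.Eisenstein.UpperLevelOne
import Fermat.Agent.Eisenstein.UpperTrace
import Fermat.Agent.Gamma0.Cusps
import Fermat.Prelude.Thm_ModularForm_sturm_bound_Gamma0
import Mathlib.RingTheory.RootsOfUnity.Minpoly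

set_option autoImplicit false

noncomputable section

namespace Fermat.Agent.Eisenstein.UpperB

open UpperHalfPlane hiding I
open Complex PowerSeries ModularForm Matrix.SpecialLinearGroup CongruenceSubgroup
open scoped MatrixGroups ModularForm Manifold

/-! ### The ring of numbers with odd denominators -/

/-- Complex numbers with an odd multiple which is an algebraic integer. -/
def oddInt : Subring ℂ where
  carrier := {x | ∃ M : ℤ, Odd M ∧ IsIntegral ℤ ((M : ℂ) * x)}
  mul_mem' := by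
    rintro x y ⟨M, hM, hx⟩ ⟨N, hN, hy⟩
    exact ⟨M * N, hM.mul hN, by push_cast; rw [mul_mul_mul_comm]; exact hx.mul hy⟩
  one_mem' := ⟨1, odd_one, by simpa using isIntegral_one⟩
  add_mem' := by
    rintro x y ⟨M, hM, hx⟩ ⟨N, hN, hy⟩
    refine ⟨M * N, hM.mul hN, ?_⟩
    rw [show ((M * N : ℤ) : ℂ) * (x + y) = (N : ℂ) * ((M : ℂ) * x) + (M : ℂ) * ((N : ℂ) * y) by
      push_cast; ring]
    exact ((isIntegral_algebraMap (A := ℂ) (x := N)).mul hx).add
      ((isIntegral_algebraMap (A := ℂ) (x := M)).mul hy)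
  zero_mem' := ⟨1, odd_one, by simpa using isIntegral_zero⟩
  neg_mem' := by
    rintro x ⟨M, hM, hx⟩
    exact ⟨M, hM, by rw [mul_neg]; exact hx.neg⟩

theorem inv_odd_mem {M : ℤ} (hM : Odd M) : ((M : ℂ))⁻¹ ∈ oddInt := by
  refine ⟨M, hM, ?_⟩
  rw [mul_inv_cancel₀ (by exact_mod_cast (show M ≠ 0 by rintro rfl; simp at hM))]
  exact isIntegral_one

theorem mem_oddInt_of_isIntegral {x : ℂ} (hx : IsIntegral ℤ x) : x ∈ oddInt :=
  ⟨1, odd_one, by simpa using hx⟩

theorem root_mem_oddInt (n : ℕ) [NeZero n] (j : ℕ) :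
    Complex.exp (2 * Real.pi * I / n) ^ j ∈ oddInt :=
  pow_mem (mem_oddInt_of_isIntegral
    ((Complex.isPrimitiveRoot_exp n (NeZero.ne n)).isIntegral (NeZero.pos n))) j

theorem quarter_pow_not_mem {a : ℤ} (ha : Odd a) {r : ℕ} (hr : r ≠ 0) :
    ((a : ℂ) ^ 2 / 4) ^ r ∉ oddInt := by
  rintro ⟨M, hM, hx⟩
  have hq : IsIntegral ℤ (algebraMap ℚ ℂ ((M : ℚ) * ((a : ℚ) ^ 2 / 4) ^ r)) := by
    simpa using hx
  rw [isIntegral_algebraMap_iff (algebraMap ℚ ℂ).injective] at hq
  obtain ⟨z, hz⟩ := IsIntegrallyClosed.isIntegral_iff.mp hq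
  rw [eq_intCast (algebraMap ℤ ℚ), div_pow, ← pow_mul, ← mul_div_assoc,
    eq_div_iff (pow_ne_zero _ (by norm_num))] at hz
  have hz' : z * 4 ^ r = M * a ^ (2 * r) := by exact_mod_cast hz
  have hodd : Odd (M * a ^ (2 * r)) := hM.mul ha.pow
  rw [← hz'] at hodd
  exact (Int.not_even_iff_odd.mpr hodd) ((Int.even_pow.mpr ⟨by decide, hr⟩).mul_left z)

/-- The inclusion of `oddInt` in `ℂ`. -/
abbrev ι : oddInt →+* ℂ := oddInt.subtype

/-! ### Forms invariant under `Γ₀(N)` with bounded slashes -/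

/-- Holomorphic and bounded at every cusp. -/
structure IsBdd (k : ℤ) (f : ℍ → ℂ) : Prop where
  hol : MDiff f
  bdd : ∀ γ : SL(2, ℤ), IsBoundedAtImInfty (f ∣[k] γ)

variable {k l : ℤ} {f g : ℍ → ℂ}

theorem IsBdd.add (hf : IsBdd k f) (hg : IsBdd k g) : IsBdd k (f + g) :=
  ⟨hf.hol.add hg.hol, fun γ => by rw [SlashAction.add_slash]; exact (hf.bdd γ).add (hg.bdd γ)⟩

theorem IsBdd.smul (c : ℂ) (hf : IsBdd k f) : IsBdd k (c • f) :=
  ⟨hf.hol.const_smul c, fun γ => by rw [SL_smul_slash]; exact (hf.bdd γ).smul c⟩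

theorem IsBdd.sub (hf : IsBdd k f) (hg : IsBdd k g) : IsBdd k (f - g) := by
  rw [sub_eq_add_neg, ← neg_one_smul ℂ g]
  exact hf.add (hg.smul _)

theorem IsBdd.mul (hf : IsBdd k f) (hg : IsBdd l g) : IsBdd (k + l) (f * g) :=
  ⟨hf.hol.mul hg.hol, fun γ => by rw [mul_slash_SL2]; exact (hf.bdd γ).mul (hg.bdd γ)⟩

theorem IsBdd.const (c : ℂ) : IsBdd 0 (fun _ => c) := by
  refine ⟨mdifferentiable_const, fun γ => ?_⟩
  rw [show (fun _ : ℍ => c) = Function.const ℍ c from rfl, is_invariant_const]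
  exact Filter.const_boundedAtFilter _ c

theorem IsBdd.congr (hk : k = l) (hf : IsBdd k f) : IsBdd l f := hk ▸ hf

theorem IsBdd.slash (hf : IsBdd k f) (γ : SL(2, ℤ)) : IsBdd k (f ∣[k] γ) :=
  ⟨by rw [SL_slash]; exact hf.hol.slash k _,
    fun δ => by rw [← SlashAction.slash_mul]; exact hf.bdd _⟩

theorem IsBdd.of_modularForm {N : ℕ} [NeZero N] (F : ModularForm (Gamma0 N) k) :
    IsBdd k (F : ℍ → ℂ) :=
  ⟨ModularFormClass.holo F, fun γ => by
    rw [slash_eq_mapGL]
    exact ModularFormClass.bdd_at_infty_slash F γ⟩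

/-- Invariant under `Γ₀(N)` and bounded. -/
structure IsLvl (N : ℕ) (k : ℤ) (f : ℍ → ℂ) : Prop extends IsBdd k f where
  inv : ∀ γ ∈ Gamma0 N, f ∣[k] γ = f

variable {N : ℕ}

theorem IsLvl.add (hf : IsLvl N k f) (hg : IsLvl N k g) : IsLvl N k (f + g) :=
  ⟨hf.toIsBdd.add hg.toIsBdd, fun γ hγ => by
    rw [SlashAction.add_slash, hf.inv γ hγ, hg.inv γ hγ]⟩

theorem IsLvl.smul (c : ℂ) (hf : IsLvl N k f) : IsLvl N k (c • f) :=
  ⟨hf.toIsBdd.smul c, fun γ hγ => by rw [SL_smul_slash, hf.inv γ hγ]⟩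

theorem IsLvl.sub (hf : IsLvl N k f) (hg : IsLvl N k g) : IsLvl N k (f - g) := by
  rw [sub_eq_add_neg, ← neg_one_smul ℂ g]
  exact hf.add (hg.smul _)

theorem IsLvl.mul (hf : IsLvl N k f) (hg : IsLvl N l g) : IsLvl N (k + l) (f * g) :=
  ⟨hf.toIsBdd.mul hg.toIsBdd, fun γ hγ => by rw [mul_slash_SL2, hf.inv γ hγ, hg.inv γ hγ]⟩

theorem IsLvl.congr (hk : k = l) (hf : IsLvl N k f) : IsLvl N l f := hk ▸ hf

theorem IsLvl.one : IsLvl N 0 (1 : ℍ → ℂ) :=
  ⟨IsBdd.const 1, fun γ _ => is_invariant_const γ 1⟩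

theorem IsLvl.pow (hf : IsLvl N k f) (n : ℕ) : IsLvl N (n * k) (f ^ n) := by
  induction n with
  | zero => simpa using IsLvl.one (N := N)
  | succ n ih =>
    rw [pow_succ]
    exact (ih.mul hf).congr (by push_cast; ring)

theorem IsLvl.sum {ι' : Type*} (s : Finset ι') {F : ι' → ℍ → ℂ}
    (h0 : IsLvl N k (0 : ℍ → ℂ)) (hF : ∀ i ∈ s, IsLvl N k (F i)) : IsLvl N k (∑ i ∈ s, F i) := by
  induction s using Finset.cons_induction with
  | empty => simpa using h0
  | cons i s hi ih =>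
    rw [Finset.sum_cons]
    exact (hF i (Finset.mem_cons_self i s)).add (ih fun j hj => hF j (Finset.mem_cons_of_mem hj))

theorem IsLvl.of_modularForm [NeZero N] (F : ModularForm (Gamma0 N) k) :
    IsLvl N k (F : ℍ → ℂ) :=
  ⟨IsBdd.of_modularForm F, fun γ hγ => by
    rw [slash_eq_mapGL]
    exact SlashInvariantFormClass.slash_action_eq F _ (Subgroup.mem_map_of_mem _ hγ)⟩

theorem IsLvl.of_levelOne (F : ModularForm 𝒮ℒ k) : IsLvl N k (F : ℍ → ℂ) := by
  have h : ∀ γ : SL(2, ℤ), (F : ℍ → ℂ) ∣[k] γ = F := fun γ => by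
    rw [slash_eq_mapGL]
    exact SlashInvariantFormClass.slash_action_eq F _ ⟨γ, rfl⟩
  exact ⟨⟨ModularFormClass.holo F, fun γ => by
    rw [h γ]; exact ModularFormClass.bdd_at_infty F⟩, fun γ _ => h γ⟩

/-- A function as a modular form of level `N`. -/
def IsLvl.toModularForm [NeZero N] (hf : IsLvl N k f) : ModularForm (Gamma0 N) k where
  toFun := f
  slash_action_eq' := by
    rintro _ ⟨γ, hγ, rfl⟩
    rw [← slash_eq_mapGL]
    exact hf.inv γ hγ
  holo' := hf.hol
  bdd_at_cusps' {c} hc := by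
    rw [Subgroup.IsArithmetic.isCusp_iff_isCusp_SL2Z] at hc
    exact (OnePoint.isBoundedAt_iff_forall_SL2Z hc).mpr fun γ _ => hf.bdd γ

theorem IsLvl.eq_zero_of_series [NeZero N] (hf : IsLvl N k f) {s : PowerSeries ℂ}
    (hs : IsQExp 1 f s)
    (h0 : ∀ n : ℕ, n ≤ (k * (Gamma0 N).index).toNat / 12 → s.coeff n = 0) : f = 0 := by
  have h1 : (1 : ℝ) ∈ (Gamma0 N : Subgroup (GL (Fin 2) ℝ)).strictPeriods := by simp
  have hu : qExpansion 1 hf.toModularForm = s :=
    (isQExp_qExpansion_one hf.toModularForm h1).unique hs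
  have := ModularForm.sturm_bound_Gamma0 N hf.toModularForm fun n hn => by rw [hu]; exact h0 n hn
  exact congrArg DFunLike.coe this

/-! ### The forms `C`, `D`, `B` of level three -/

/-- `C = (3 E₂(3z) - E₂(z)) / 2`. -/
def formC : ℍ → ℂ := (1 / 2 : ℂ) • eisTwoFun 3

/-- `D = (C² - E₄) / 24`. -/
def formD : ℍ → ℂ := (1 / 24 : ℂ) • (formC * formC - ⇑E₄)

/-- `B = (C³ - E₆ + 60 C D) / 72`. -/
def formB : ℍ → ℂ := (1 / 72 : ℂ) • (formC * formC * formC - ⇑E₆ + (60 : ℂ) • (formC * formD))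

theorem isLvl_formC : IsLvl 3 2 formC :=
  (IsLvl.of_modularForm (eisTwo 3)).smul _

theorem isLvl_formD : IsLvl 3 4 formD :=
  ((((isLvl_formC.mul isLvl_formC).congr (by norm_num) : IsLvl 3 4 _)).sub
    (IsLvl.of_levelOne E₄)).smul _

theorem isLvl_formB : IsLvl 3 6 formB :=
  (((((isLvl_formC.mul isLvl_formC).mul isLvl_formC).congr (by norm_num) : IsLvl 3 6 _).sub
    (IsLvl.of_levelOne E₆)).add
      (((isLvl_formC.mul isLvl_formD).congr (by norm_num) : IsLvl 3 6 _).smul _)).smul _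

section Series

variable (S : Type*) [CommRing S]

/-- `∑ (σ(n) - 3 σ(n/3)) qⁿ`. -/
def cSeries : PowerSeries S := mk fun n =>
  (ArithmeticFunction.sigma 1 n : S)
    - if 3 ∣ n then 3 * (ArithmeticFunction.sigma 1 (n / 3) : S) else 0

/-- The series of `C`. -/
def serC : PowerSeries S := 1 + (12 : S) • cSeries S

/-- The series of `D`. -/
def serD : PowerSeries S := cSeries S + (6 : S) • cSeries S ^ 2 - (10 : S) • divSeries S 3

/-- The series `(C - C² - 4 D) / (-8)`. -/
def serK : PowerSeries S :=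
  (2 : S) • cSeries S + (21 : S) • cSeries S ^ 2 - (5 : S) • divSeries S 3

variable {S} {T : Type*} [CommRing T] (φ : S →+* T)

@[simp] theorem map_cSeries : PowerSeries.map φ (cSeries S) = cSeries T := by
  ext n
  simp only [cSeries, coeff_map, coeff_mk, map_sub, map_natCast]
  split_ifs <;> simp [map_ofNat]

@[simp] theorem map_serC : PowerSeries.map φ (serC S) = serC T := by
  simp [serC, Algebra.smul_def, map_ofNat]

@[simp] theorem map_serD : PowerSeries.map φ (serD S) = serD T := by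
  simp [serD, Algebra.smul_def, map_ofNat]

@[simp] theorem map_serK : PowerSeries.map φ (serK S) = serK T := by
  simp [serK, Algebra.smul_def, map_ofNat]

theorem constantCoeff_cSeries : constantCoeff (cSeries S) = 0 := by
  simp [← coeff_zero_eq_constantCoeff, cSeries]

theorem constantCoeff_serC : constantCoeff (serC S) = 1 := by
  simp [serC, constantCoeff_cSeries]

theorem isUnit_serC : IsUnit (serC S) :=
  isUnit_iff_constantCoeff.mpr (by rw [constantCoeff_serC]; exact isUnit_one)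

theorem serK_spec : serC S - serC S * serC S - (4 : S) • serD S = -((8 : S) • serK S) := by
  simp only [serC, serD, serK, Algebra.smul_def, map_ofNat]
  ring

end Series

theorem isQExp_formC : IsQExp 1 formC (serC ℂ) := by
  have h := (isQExp_qExpansion_one (eisTwo 3)
    (show (1 : ℝ) ∈ (Gamma0 3 : Subgroup (GL (Fin 2) ℝ)).strictPeriods by simp)).smul (1 / 2 : ℂ)
  refine (?_ : (1 / 2 : ℂ) • qExpansion 1 (eisTwo 3) = serC ℂ) ▸ h
  ext n
  rw [PowerSeries.coeff_smul, coe_eisTwo, qExpansion_eisTwo_coeff, serC, map_add, coeff_smul,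
    cSeries, coeff_mk, coeff_one]
  rcases eq_or_ne n 0 with rfl | hn
  · norm_num
  by_cases h3 : 3 ∣ n
  · have hn3 : n / 3 ≠ 0 := by omega
    simp [hn, h3, hn3, smul_eq_mul]
    ring
  · simp [hn, h3, smul_eq_mul]
    ring

theorem isQExp_formD : IsQExp 1 formD (serD ℂ) := by
  refine (?_ : (1 / 24 : ℂ) • (serC ℂ * serC ℂ - qSeries ℂ) = serD ℂ) ▸
    ((isQExp_formC.mul isQExp_formC).sub LevelOneSeries.isQExp_E₄).smul (1 / 24 : ℂ)
  simp only [serC, serD, qSeries, smul_eq_C_mul]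
  rw [show (C (1 / 24 : ℂ)) * ((1 + C 12 * cSeries ℂ) * (1 + C 12 * cSeries ℂ)
      - (1 + C 240 * divSeries ℂ 3))
    = (C (1 / 24 : ℂ) * C 24) * cSeries ℂ + (C (1 / 24 : ℂ) * C 144) * cSeries ℂ ^ 2
      - (C (1 / 24 : ℂ) * C 240) * divSeries ℂ 3 by simp only [map_ofNat]; ring,
    ← map_mul, ← map_mul, ← map_mul]
  norm_num

theorem coeff_two_mul {S : Type*} [CommRing S] (x y : PowerSeries S) :
    coeff 2 (x * y) = coeff 0 x * coeff 2 y + coeff 1 x * coeff 1 y + coeff 2 x * coeff 0 y := by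
  simp [coeff_mul, Finset.Nat.antidiagonal_succ, add_assoc]

theorem coeff_one_mul' {S : Type*} [CommRing S] (x y : PowerSeries S) :
    coeff 1 (x * y) = coeff 0 x * coeff 1 y + coeff 1 x * coeff 0 y := by
  simp [coeff_mul, Finset.Nat.antidiagonal_succ]

theorem coeff_cSeries_small {S : Type*} [CommRing S] :
    coeff 0 (cSeries S) = 0 ∧ coeff 1 (cSeries S) = 1 ∧ coeff 2 (cSeries S) = 3 := by
  refine ⟨by simp [cSeries], by simp [cSeries], ?_⟩
  rw [cSeries, coeff_mk, if_neg (by decide), sub_zero]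
  norm_num [ArithmeticFunction.sigma_one_apply, show Nat.divisors 2 = {1, 2} from by decide]

theorem coeff_divSeries_small {S : Type*} [CommRing S] (k : ℕ) :
    coeff 0 (divSeries S k) = 0 ∧ coeff 1 (divSeries S k) = 1 ∧
      coeff 2 (divSeries S k) = 1 + 2 ^ k := by
  refine ⟨by simp [coeff_divSeries], by simp [coeff_divSeries], ?_⟩
  rw [coeff_divSeries, ArithmeticFunction.sigma_apply, show Nat.divisors 2 = {1, 2} from by decide]
  simp

theorem index_gamma0_three : (Gamma0 3).index = 4 := by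
  rw [Fermat.Agent.Gamma0.index_Gamma0, ModularCurve.dedekindPsi,
    show Nat.divisors 3 = {1, 3} from by decide]
  simp [Finset.filter_insert, Finset.filter_singleton, squarefree_one,
    (Nat.prime_three).squarefree]

/-- `C B = D²`. -/
theorem formC_mul_formB : formC * formB = formD * formD := by
  have hCB : IsQExp 1 formB ((1 / 72 : ℂ) •
      (serC ℂ * serC ℂ * serC ℂ - rSeries ℂ + (60 : ℂ) • (serC ℂ * serD ℂ))) :=
    ((((isQExp_formC.mul isQExp_formC).mul isQExp_formC).sub LevelOneSeries.isQExp_E₆).add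
      ((isQExp_formC.mul isQExp_formD).smul 60)).smul _
  refine sub_eq_zero.mp (IsLvl.eq_zero_of_series
    (((isLvl_formC.mul isLvl_formB).congr (by norm_num) : IsLvl 3 8 _).sub
      ((isLvl_formD.mul isLvl_formD).congr (by norm_num)))
    ((isQExp_formC.mul hCB).sub (isQExp_formD.mul isQExp_formD)) fun n hn => ?_)
  rw [index_gamma0_three] at hn
  have hn' : n ≤ 2 := by simpa using hn
  obtain ⟨c0, c1, c2⟩ := coeff_cSeries_small (S := ℂ)
  obtain ⟨s0, s1, s2⟩ := coeff_divSeries_small (S := ℂ) 3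
  obtain ⟨t0, t1, t2⟩ := coeff_divSeries_small (S := ℂ) 5
  interval_cases n <;>
    simp [coeff_two_mul, coeff_one_mul', serC, serD, rSeries, PowerSeries.coeff_smul, pow_two,
      c0, c1, c2, s0, s1, s2, t0, t1, t2, constantCoeff_cSeries, constantCoeff_divSeries] <;>
    norm_num

/-- The series of `B`. -/
def serB : PowerSeries oddInt := serD oddInt ^ 2 * ↑(isUnit_serC (S := oddInt)).unit⁻¹

theorem isQExp_formB : IsQExp 1 formB (PowerSeries.map ι serB) := by
  have hB : IsQExp 1 formB _ :=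
    ((((isQExp_formC.mul isQExp_formC).mul isQExp_formC).sub LevelOneSeries.isQExp_E₆).add
      ((isQExp_formC.mul isQExp_formD).smul 60)).smul _
  have h := (formC_mul_formB ▸ isQExp_formC.mul hB).unique (isQExp_formD.mul isQExp_formD)
  have hu : PowerSeries.map ι (↑(isUnit_serC (S := oddInt)).unit⁻¹) * serC ℂ = 1 := by
    rw [← map_serC ι, ← map_mul, IsUnit.val_inv_mul, map_one]
  convert hB using 1
  rw [serB, map_mul, map_pow, map_serD, pow_two, ← h, ← mul_comm (PowerSeries.map ι _), ← mul_assoc,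
    hu, one_mul]

/-! ### The elliptic point -/

/-- The element of order three `(1 1; -3 -2)` of `Γ₀(3)`. -/
def ellThree : SL(2, ℤ) := ⟨!![1, 1; -3, -2], by simp [Matrix.det_fin_two_of]⟩

theorem ellThree_mem : ellThree ∈ Gamma0 3 := by
  rw [Gamma0_mem]; decide

/-- The fixed point of `ellThree`. -/
def rhoThree : ℍ :=
  ⟨⟨-1 / 2, Real.sqrt 3 / 6⟩, show (0 : ℝ) < Real.sqrt 3 / 6 by positivity⟩

theorem rhoThree_quad : 3 * (rhoThree : ℂ) ^ 2 + 3 * (rhoThree : ℂ) + 1 = 0 := by
  have h3 : Real.sqrt 3 ^ 2 = 3 := Real.sq_sqrt (by norm_num)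
  apply Complex.ext <;> simp [rhoThree, pow_two]
  · nlinarith
  · ring

theorem denom_rhoThree : denom ellThree (rhoThree : ℂ) = -3 * (rhoThree : ℂ) - 2 := by
  simp [denom, ellThree]
  ring

theorem ellThree_smul : ellThree • rhoThree = rhoThree := by
  have h := UpperHalfPlane.coe_specialLinearGroup_apply ellThree rhoThree
  apply UpperHalfPlane.ext
  rw [h]
  have hd : (-3 : ℂ) * (rhoThree : ℂ) + -2 ≠ 0 := by
    intro h0
    have := congrArg Complex.im h0
    simp [rhoThree] at this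
  simp [ellThree]
  rw [neg_mul] at hd
  rw [div_eq_iff hd]
  linear_combination rhoThree_quad

/-- Invariant forms of weight two or four vanish at the elliptic point. -/
theorem eq_zero_at_rhoThree (hf : IsLvl 3 k f) (hk : k = 2 ∨ k = 4) : f rhoThree = 0 := by
  have h := congrFun (hf.inv ellThree ellThree_mem) rhoThree
  rw [SL_slash_apply, ellThree_smul, denom_rhoThree] at h
  set w : ℂ := -3 * (rhoThree : ℂ) - 2 with hw
  have hw2 : w ^ 2 + w + 1 = 0 := by rw [hw]; linear_combination 3 * rhoThree_quad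
  have hw0 : w ≠ 0 := fun h0 => by simp [h0] at hw2
  have hw1 : w ≠ 1 := fun h0 => by norm_num [h0] at hw2
  have hw3 : w ^ 3 = 1 := by linear_combination (w - 1) * hw2
  have key : f rhoThree * (w ^ (-k) - 1) = 0 := by linear_combination h
  refine (mul_eq_zero.mp key).resolve_right (sub_ne_zero.mpr ?_)
  rcases hk with rfl | rfl
  · rw [zpow_neg, Ne, inv_eq_one, show (2 : ℤ) = (2 : ℕ) from rfl, zpow_natCast]
    intro h0
    exact hw1 (by linear_combination hw3 - w * h0)
  · rw [zpow_neg, Ne, inv_eq_one, show (4 : ℤ) = (4 : ℕ) from rfl, zpow_natCast]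
    intro h0
    exact hw1 (by linear_combination h0 - w * hw3)

theorem formC_rhoThree : formC rhoThree = 0 := eq_zero_at_rhoThree isLvl_formC (Or.inl rfl)

theorem formB_rhoThree_ne_zero : formB rhoThree ≠ 0 := by
  have hE4 : E₄ rhoThree = 0 :=
    eq_zero_at_rhoThree (f := (E₄ : ℍ → ℂ)) (IsLvl.of_levelOne E₄) (Or.inr rfl)
  have hΔ := discriminant_eq_E₄_cube_sub_E₆_sq rhoThree
  have hE6 : E₆ rhoThree ≠ 0 := by
    intro h6
    apply discriminant_ne_zero rhoThree
    rw [hΔ, hE4, h6]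
    norm_num
  simp [formB, formC_rhoThree, hE6]

/-! ### Values of forms with 2-integral coefficients -/

theorem exists_serD_eq : ∃ u : PowerSeries oddInt,
    serD oddInt = X * u ∧ constantCoeff u = -9 := by
  obtain ⟨c0, c1, -⟩ := coeff_cSeries_small (S := oddInt)
  obtain ⟨s0, s1, -⟩ := coeff_divSeries_small (S := oddInt) 3
  obtain ⟨u, hu⟩ := X_dvd_iff.mpr (show constantCoeff (serD oddInt) = 0 by
    simp [serD, constantCoeff_cSeries, constantCoeff_divSeries])
  refine ⟨u, hu, ?_⟩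
  have h1 := congrArg (coeff 1) hu
  rw [coeff_succ_X_mul, coeff_zero_eq_constantCoeff_apply] at h1
  rw [← h1]
  simp [serD, pow_two, coeff_one_mul', c0, c1, s0, s1, -coeff_zero_eq_constantCoeff]
  norm_num

/-- The monomial of order `i` in weight `6 n`. -/
def mono (n i : ℕ) : ℍ → ℂ :=
  formC ^ (3 * n - 3 * (i / 2) - 2 * (i % 2)) * formD ^ (i % 2) * formB ^ (i / 2)

/-- The series of `mono`. -/
def monoSeries (n i : ℕ) : PowerSeries oddInt :=
  serC oddInt ^ (3 * n - 3 * (i / 2) - 2 * (i % 2)) * serD oddInt ^ (i % 2) * serB ^ (i / 2)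

theorem isLvl_mono {n i : ℕ} (hi : i ≤ 2 * n) : IsLvl 3 (6 * n) (mono n i) :=
  (((isLvl_formC.pow _).mul (isLvl_formD.pow _)).mul (isLvl_formB.pow _)).congr (by
    have h1 : 3 * (i / 2) + 2 * (i % 2) ≤ 3 * n := by omega
    push_cast [Nat.sub_sub, Nat.cast_sub h1]
    ring)

theorem isQExp_mono (n i : ℕ) : IsQExp 1 (mono n i) (PowerSeries.map ι (monoSeries n i)) := by
  rw [monoSeries, map_mul, map_mul, map_pow, map_pow, map_pow, map_serC, map_serD]
  exact ((isQExp_formC.pow _).mul (isQExp_formD.pow _)).mul (isQExp_formB.pow _)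

theorem exists_monoSeries_eq (n i : ℕ) :
    ∃ u : PowerSeries oddInt, monoSeries n i = X ^ i * u ∧ constantCoeff u = (-9) ^ i := by
  obtain ⟨u, hu, hu0⟩ := exists_serD_eq
  set v : PowerSeries oddInt := ↑(isUnit_serC (S := oddInt)).unit⁻¹ with hv
  have hv0 : constantCoeff v = 1 := by
    have := congrArg constantCoeff (IsUnit.val_inv_mul (isUnit_serC (S := oddInt)))
    rwa [map_mul, constantCoeff_serC, mul_one, map_one] at this
  refine ⟨serC oddInt ^ (3 * n - 3 * (i / 2) - 2 * (i % 2)) * u ^ i * v ^ (i / 2), ?_, ?_⟩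
  · rw [monoSeries, serB, ← hv, hu]
    conv_rhs => rw [← mul_assoc, ← mul_assoc, show i = i % 2 + 2 * (i / 2) by omega, pow_add, pow_add]
    rw [show (i % 2 + 2 * (i / 2)) % 2 = i % 2 by omega,
      show (i % 2 + 2 * (i / 2)) / 2 = i / 2 by omega]
    simp only [mul_pow, ← pow_mul]
    ring
  · simp [hv0, hu0, constantCoeff_serC]

theorem mono_rhoThree {n i : ℕ} (hi : i ≤ 2 * n) :
    mono n i rhoThree = if i = 2 * n then formB rhoThree ^ n else 0 := by
  split_ifs with h
  · subst h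
    simp [mono, Nat.mul_div_cancel_left]
  · have : 3 * n - 3 * (i / 2) - 2 * (i % 2) ≠ 0 := by omega
    simp [mono, formC_rhoThree, zero_pow this]

/-- The value at the elliptic point of a form of weight `6 n` with 2-integral coefficients. -/
theorem exists_value_rhoThree {n : ℕ} {F : ℍ → ℂ} (hF : IsLvl 3 (6 * n) F)
    {s : PowerSeries oddInt} (hs : IsQExp 1 F (PowerSeries.map ι s)) :
    ∃ r ∈ oddInt, F rhoThree = r * formB rhoThree ^ n := by
  have key : ∀ m, m ≤ 2 * n + 1 → ∃ (G : ℍ → ℂ) (t : PowerSeries oddInt) (r : oddInt),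
      IsLvl 3 (6 * n) G ∧ IsQExp 1 G (PowerSeries.map ι t) ∧
      (∀ j < m, coeff j (s - t) = 0) ∧ G rhoThree = r * formB rhoThree ^ n := by
    intro m
    induction m with
    | zero =>
      intro _
      refine ⟨(0 : ℂ) • mono n 0, 0, 0, (isLvl_mono (by omega)).smul 0, ?_, fun j hj => absurd hj
        (Nat.not_lt_zero j), by simp⟩
      rw [map_zero, zero_smul]
      exact IsQExp.zero
    | succ m ih =>
      intro hm
      obtain ⟨G, t, r, hG, hGs, hGt, hGv⟩ := ih (by omega)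
      obtain ⟨u, hu, hu0⟩ := exists_monoSeries_eq n m
      have h9 : ((-9 : ℤ) : ℂ)⁻¹ ∈ oddInt := inv_odd_mem (by decide)
      set w : oddInt := ⟨((-9 : ℤ) : ℂ)⁻¹, h9⟩ with hw
      have hw9 : w * -9 = 1 := Subtype.ext (by
        simp [hw]
        rw [show ((9 : oddInt) : ℂ) = 9 from map_ofNat ι 9]
        norm_num)
      set c : oddInt := w ^ m * coeff m (s - t) with hc
      have hle : m ≤ 2 * n := by omega
      refine ⟨G + (c : ℂ) • mono n m, t + PowerSeries.C c * monoSeries n m,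
        r + if m = 2 * n then c else 0, hG.add ((isLvl_mono hle).smul _), ?_, ?_, ?_⟩
      · rw [map_add, map_mul, map_C, ← smul_eq_C_mul]
        exact hGs.add ((isQExp_mono n m).smul _)
      · intro j hj
        rw [← sub_sub, map_sub, coeff_C_mul, hu, coeff_X_pow_mul']
        rcases lt_or_eq_of_le (Nat.le_of_lt_succ hj) with hlt | rfl
        · rw [if_neg (by omega), hGt j hlt, mul_zero, sub_zero]
        · rw [if_pos le_rfl, Nat.sub_self, coeff_zero_eq_constantCoeff_apply, hu0, hc, mul_right_comm,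
            ← mul_pow, hw9, one_pow, one_mul, sub_self]
      · rw [Pi.add_apply, hGv, Pi.smul_apply, mono_rhoThree hle]
        split_ifs <;> simp [smul_eq_mul] <;> ring
  obtain ⟨G, t, r, hG, hGs, hGt, hGv⟩ := key (2 * n + 1) le_rfl
  have hFG : F - G = 0 := by
    refine (hF.sub hG).eq_zero_of_series (hs.sub hGs) fun j hj => ?_
    rw [index_gamma0_three] at hj
    rw [← map_sub, coeff_map, hGt j (by omega), map_zero]
  exact ⟨r, r.2, by rw [sub_eq_zero.mp hFG, hGv]⟩

end Fermat.Agent.Eisenstein.UpperB
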