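/-
A weight two form of prime level `p ≡ 7 (mod 8)` whose series is an odd constant modulo 8
does not exist: the norm to level three of an auxiliary form of weight six would have a
non 2-integral value at the elliptic point.
-/
import Fermat.Agent.Eisenstein.UpperBLevelThree

set_option autoImplicit false

noncomputable section

namespace Fermat.Agent.Eisenstein.UpperB

open UpperHalfPlane hiding I
open Complex PowerSeries ModularForm Matrix.SpecialLinearGroup CongruenceSubgroup
open Fermat.Agent.Newform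
open scoped MatrixGroups ModularForm Manifold

variable {k : ℤ} {p : ℕ}

theorem IsBdd.prod {ι' : Type*} (s : Finset ι') {F : ι' → ℍ → ℂ}
    (hF : ∀ i ∈ s, IsBdd k (F i)) : IsBdd (k * s.card) (∏ i ∈ s, F i) := by
  induction s using Finset.cons_induction with
  | empty => simpa using! IsBdd.const 1
  | cons i s hi ih =>
    rw [Finset.prod_cons]
    exact ((hF i (Finset.mem_cons_self i s)).mul
      (ih fun j hj => hF j (Finset.mem_cons_of_mem hj))).congr
      (by rw [Finset.card_cons]; push_cast; ring)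

theorem prod_slash {ι' : Type*} (s : Finset ι') (F : ι' → ℍ → ℂ) (γ : SL(2, ℤ)) :
    (∏ i ∈ s, F i) ∣[k * s.card] γ = ∏ i ∈ s, (F i ∣[k] γ) := by
  induction s using Finset.cons_induction with
  | empty => simpa using! is_invariant_const γ (1 : ℂ)
  | cons i s hi ih =>
    rw [Finset.prod_cons, Finset.prod_cons, Finset.card_cons,
      show k * ((s.card + 1 : ℕ) : ℤ) = k + k * (s.card : ℤ) by push_cast; ring, mul_slash_SL2, ih]

theorem isQExp_prod {h : ℕ} {ι' : Type*} (s : Finset ι') {F : ι' → ℍ → ℂ}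
    {c : ι' → PowerSeries oddInt} (hF : ∀ i ∈ s, IsQExp h (F i) (PowerSeries.map ι (c i))) :
    IsQExp h (∏ i ∈ s, F i) (PowerSeries.map ι (∏ i ∈ s, c i)) := by
  induction s using Finset.cons_induction with
  | empty => simpa using IsQExp.one
  | cons i s hi ih =>
    rw [Finset.prod_cons, Finset.prod_cons, map_mul]
    exact (hF i (Finset.mem_cons_self i s)).mul (ih fun j hj => hF j (Finset.mem_cons_of_mem hj))

theorem isQExp_expand {f : ℍ → ℂ} (hp : p ≠ 0) {s : PowerSeries oddInt}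
    (hs : IsQExp 1 f (PowerSeries.map ι s)) :
    IsQExp p f (PowerSeries.map ι (PowerSeries.expand p hp s)) := by
  have h := hs.expand hp
  rw [one_mul] at h
  rwa [PowerSeries.map_expand]

/-- The auxiliary weight six expression. -/
def phiForm (a : ℤ) (X : ℍ → ℂ) : ℍ → ℂ :=
  (1 / 64 : ℂ) • (formC * ((X - (a : ℂ) • formC) * (X - (a : ℂ) • formC)))
    - ((a : ℂ) / 8) • ((X - (a : ℂ) • formC) * formD) + ((a : ℂ) ^ 2 / 4) • formB

theorem isBdd_phiForm (a : ℤ) {X : ℍ → ℂ} (hX : IsBdd 2 X) : IsBdd 6 (phiForm a X) :=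
  ((((isLvl_formC.toIsBdd.mul ((hX.sub (isLvl_formC.toIsBdd.smul (a : ℂ))).mul
    (hX.sub (isLvl_formC.toIsBdd.smul (a : ℂ))))).congr (by norm_num) : IsBdd 6 _).smul _).sub
      ((((hX.sub (isLvl_formC.toIsBdd.smul (a : ℂ))).mul isLvl_formD.toIsBdd).congr
        (by norm_num) : IsBdd 6 _).smul _)).add (isLvl_formB.toIsBdd.smul _)

theorem phiForm_slash (a : ℤ) (X : ℍ → ℂ) {γ : SL(2, ℤ)} (hγ : γ ∈ Gamma0 3) :
    phiForm a X ∣[(6 : ℤ)] γ = phiForm a (X ∣[(2 : ℤ)] γ) := by
  have hY : (X - (a : ℂ) • formC) ∣[(2 : ℤ)] γ = X ∣[(2 : ℤ)] γ - (a : ℂ) • formC := by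
    rw [sub_eq_add_neg, SlashAction.add_slash, SlashAction.neg_slash, SL_smul_slash,
      isLvl_formC.inv γ hγ, ← sub_eq_add_neg]
  rw [phiForm, SlashAction.add_slash, sub_eq_add_neg ((1 / 64 : ℂ) • _), SlashAction.add_slash,
    SlashAction.neg_slash, SL_smul_slash, SL_smul_slash, SL_smul_slash, isLvl_formB.inv γ hγ,
    ← sub_eq_add_neg]
  rw [show (formC * ((X - (a : ℂ) • formC) * (X - (a : ℂ) • formC))) ∣[(6 : ℤ)] γ
      = formC * ((X ∣[(2 : ℤ)] γ - (a : ℂ) • formC) * (X ∣[(2 : ℤ)] γ - (a : ℂ) • formC)) by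
      rw [show (6 : ℤ) = 2 + (2 + 2) from rfl, mul_slash_SL2, mul_slash_SL2, hY,
        isLvl_formC.inv γ hγ],
    show ((X - (a : ℂ) • formC) * formD) ∣[(6 : ℤ)] γ
      = (X ∣[(2 : ℤ)] γ - (a : ℂ) • formC) * formD by
      rw [show (6 : ℤ) = 2 + 4 from rfl, mul_slash_SL2, hY, isLvl_formD.inv γ hγ]]
  rfl

theorem phiForm_rhoThree (a : ℤ) (X : ℍ → ℂ) :
    phiForm a X rhoThree = (a : ℂ) ^ 2 / 4 * formB rhoThree := by
  simp [phiForm, formC_rhoThree, eq_zero_at_rhoThree isLvl_formD (Or.inr rfl)]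

theorem exists_phiForm_series (hp : p ≠ 0) (a : ℤ) {X : ℍ → ℂ} {H : PowerSeries oddInt}
    (hX : IsQExp p X (PowerSeries.map ι (C (a : oddInt) + (8 : oddInt) • H))) :
    ∃ T, IsQExp p (phiForm a X) (PowerSeries.map ι T) := by
  have : NeZero p := ⟨hp⟩
  set Cp := PowerSeries.expand p hp (serC oddInt) with hCp
  set Dp := PowerSeries.expand p hp (serD oddInt) with hDp
  set Kp := PowerSeries.expand p hp (serK oddInt) with hKp
  have hC : IsQExp p formC (PowerSeries.map ι Cp) :=
    isQExp_expand hp (by rw [map_serC]; exact isQExp_formC)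
  have hD : IsQExp p formD (PowerSeries.map ι Dp) :=
    isQExp_expand hp (by rw [map_serD]; exact isQExp_formD)
  have hB := isQExp_expand hp isQExp_formB
  have hY := hX.sub (hC.smul (a : ℂ))
  have hΦ : IsQExp p (phiForm a X) _ :=
    (((hC.mul (hY.mul hY)).smul (1 / 64 : ℂ)).sub ((hY.mul hD).smul ((a : ℂ) / 8))).add
      (hB.smul ((a : ℂ) ^ 2 / 4))
  set inner : PowerSeries oddInt := Cp * H - C (a : oddInt) * Kp with hinner
  have hinnerser : IsQExp p ((1 / 8 : ℂ) • (formC * (X - (a : ℂ) • formC))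
      - ((a : ℂ) / 2) • formD) (PowerSeries.map ι inner) := by
    refine (?_ : (1 / 8 : ℂ) • (PowerSeries.map ι Cp * (PowerSeries.map ι
      (C (a : oddInt) + (8 : oddInt) • H) - (a : ℂ) • PowerSeries.map ι Cp))
        - ((a : ℂ) / 2) • PowerSeries.map ι Dp = PowerSeries.map ι inner) ▸
      ((hC.mul hY).smul (1 / 8 : ℂ)).sub (hD.smul ((a : ℂ) / 2))
    have hk := congrArg (fun s => PowerSeries.map ι (PowerSeries.expand p hp s))
      (serK_spec (S := oddInt))
    simp only [Algebra.smul_def, map_sub, map_mul, map_neg, map_ofNat, ← hCp, ← hDp, ← hKp] at hk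
    simp only [hinner, map_add, map_mul, map_sub, map_C, smul_eq_C_mul, map_intCast, map_ofNat]
    have h18 : C (1 / 8 : ℂ) * 8 = (1 : PowerSeries ℂ) := by
      rw [← map_ofNat (C (R := ℂ)) 8, ← map_mul]; norm_num
    have ha2 : C ((a : ℂ) / 2) = C (1 / 8 : ℂ) * 4 * (a : PowerSeries ℂ) := by
      rw [← map_ofNat (C (R := ℂ)) 4, ← map_intCast (C (R := ℂ)) a, ← map_mul, ← map_mul]
      congr 1
      ring
    rw [ha2]
    linear_combination (C (1 / 8 : ℂ) * (a : PowerSeries ℂ)) * hk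
      + (PowerSeries.map ι Cp * PowerSeries.map ι H
          - (a : PowerSeries ℂ) * PowerSeries.map ι Kp) * h18
  have hCΦ : formC * phiForm a X = ((1 / 8 : ℂ) • (formC * (X - (a : ℂ) • formC))
      - ((a : ℂ) / 2) • formD) * ((1 / 8 : ℂ) • (formC * (X - (a : ℂ) • formC))
      - ((a : ℂ) / 2) • formD) := by
    funext τ
    have h := congrFun formC_mul_formB τ
    simp only [phiForm, Pi.mul_apply, Pi.add_apply, Pi.sub_apply, Pi.smul_apply, smul_eq_mul] at h ⊢
    linear_combination ((a : ℂ) ^ 2 / 4) * h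
  have heq := (hCΦ ▸ hC.mul hΦ).unique (hinnerser.mul hinnerser)
  have hu : IsUnit Cp := (isUnit_serC (S := oddInt)).map (PowerSeries.expand p hp)
  refine ⟨inner * inner * ↑hu.unit⁻¹, ?_⟩
  refine (?_ : _ = PowerSeries.map ι (inner * inner * ↑hu.unit⁻¹)) ▸ hΦ
  have hv : PowerSeries.map ι Cp * PowerSeries.map ι ↑hu.unit⁻¹ = 1 := by
    rw [← map_mul, IsUnit.mul_val_inv, map_one]
  rw [map_mul, map_mul, ← heq, mul_right_comm, hv, one_mul]

theorem coeff_C_add_smul {S : Type*} [CommRing S] (x c : S) (y : PowerSeries S) (n : ℕ) :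
    coeff n (C x + c • y) = (if n = 0 then x else 0) + c * coeff n y := by
  rw [map_add, coeff_smul, coeff_C, smul_eq_mul]

theorem coe_eight : ((8 : oddInt) : ℂ) = 8 := map_ofNat ι 8

/-- The representative as an element of `SL(2, ℤ)`. -/
def repSL (p : ℕ) (i : Option (Fin p)) : SL(2, ℤ) := ⟨trRep p i, det_trRep i⟩

theorem slash_repSL (U : ℍ → ℂ) (γ : SL(2, ℤ)) :
    U ∣[(2 : ℤ)] γ = U ∣[(2 : ℤ)] atkinGL (γ : Matrix (Fin 2) (Fin 2) ℤ) := by
  rw [slash_eq_mapGL, atkinGL_coe_SL]

/-- No weight two form of level `p ≡ 7 (mod 8)` is an odd constant modulo 8. -/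
theorem no_unit_mod_eight (hp : p.Prime) (h8 : 8 ∣ p + 1) {U : ℍ → ℂ} (hU : IsLevel p 2 U)
    {a : ℤ} (ha : Odd a) {h : PowerSeries ℤ}
    (hser : IsQExp 1 U (PowerSeries.map (Int.castRingHom ℂ) (C a + C (8 : ℤ) * h))) : False := by
  have : NeZero p := ⟨hp.ne_zero⟩
  have hp2 : p % 2 = 1 := by omega
  have hpodd : Odd (p : ℤ) := by exact_mod_cast Nat.odd_iff.mpr hp2
  obtain ⟨q, hq⟩ := h8
  obtain ⟨b, hb⟩ := hU.ser_inv
  set hS : PowerSeries oddInt := PowerSeries.map (Int.castRingHom oddInt) h with hhS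
  set pinv : oddInt := ⟨((p : ℤ) : ℂ)⁻¹, inv_odd_mem hpodd⟩ with hpinv
  have hser' : IsQExp 1 U (PowerSeries.map ι (C (a : oddInt) + (8 : oddInt) • hS)) := by
    have e : PowerSeries.map (Int.castRingHom ℂ) (C a + C (8 : ℤ) * h)
        = PowerSeries.map ι (C (a : oddInt) + (8 : oddInt) • hS) := by
      ext n
      rw [hhS, coeff_map, coeff_map, coeff_C_add_smul, map_add, coeff_C, coeff_C_mul, coeff_map]
      split_ifs <;> simp [coe_eight]
    exact e ▸ hser
  set H' : PowerSeries oddInt := C (-(a : oddInt) * (q : oddInt) * pinv)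
    + C (-pinv) * PowerSeries.mk (fun n => coeff (p * n) hS) with hH'
  have hp0 : (p : ℂ) ≠ 0 := by exact_mod_cast hp.ne_zero
  have hb' : b = PowerSeries.map ι (C (a : oddInt) + (8 : oddInt) • H') := by
    ext n
    have h1 := hU.coeff_slashInv_two hp hser' hb n
    have hq' : (p : ℂ) + 1 = 8 * q := by exact_mod_cast hq
    have hH'n : (coeff n H' : oddInt) = (if n = 0 then -(a : oddInt) * (q : oddInt) * pinv else 0)
        + -pinv * coeff (p * n) hS := by
      rw [hH', map_add, coeff_C, coeff_C_mul, coeff_mk]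
    rw [coeff_map, coeff_C_add_smul] at h1
    rw [coeff_map, coeff_C_add_smul, hH'n]
    rcases eq_or_ne n 0 with rfl | hn
    · simp [hpinv, coe_eight, -coeff_zero_eq_constantCoeff] at h1 ⊢
      field_simp
      linear_combination h1 - (a : ℂ) * hq'
    · have hpn : p * n ≠ 0 := mul_ne_zero hp.ne_zero hn
      simp [hpinv, coe_eight, hn, hpn] at h1 ⊢
      field_simp
      linear_combination h1
  have hrep : ∀ γ : SL(2, ℤ), ∃ i, U ∣[(2 : ℤ)] γ = U ∣[(2 : ℤ)] repSL p i := by
    intro γ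
    obtain ⟨i, γ', h1, h2, h3⟩ := exists_trRep_factor hp (γ : Matrix (Fin 2) (Fin 2) ℤ) γ.2
    refine ⟨i, ?_⟩
    rw [slash_repSL, slash_repSL, h3,
      hU.inv.slash_atkinGL_mul h1 h2 (by rw [det_trRep]; exact one_ne_zero)]
    rfl
  have hsers : ∀ i, ∃ H : PowerSeries oddInt, IsQExp p (U ∣[(2 : ℤ)] repSL p i)
      (PowerSeries.map ι (C (a : oddInt) + (8 : oddInt) • H)) := by
    rintro (_ | j)
    · refine ⟨PowerSeries.expand p hp.ne_zero hS, ?_⟩
      have e : repSL p none = 1 := Subtype.ext rfl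
      rw [e, SlashAction.slash_one]
      have := isQExp_expand hp.ne_zero hser'
      rwa [map_add, map_smul, PowerSeries.expand_C] at this
    · let z : oddInt := ⟨_, root_mem_oddInt p (j : ℕ)⟩
      refine ⟨PowerSeries.rescale z H', ?_⟩
      rw [slash_repSL]
      show IsQExp p (U ∣[(2 : ℤ)] atkinGL (invTrans (j : ℤ))) _
      rw [slash_invTrans]
      have h1 := (hb' ▸ hb).translate (j : ℕ)
      refine (?_ : _ = PowerSeries.map ι (C (a : oddInt) + (8 : oddInt) • PowerSeries.rescale z H'))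
        ▸ (h1.congr fun τ => by push_cast; rfl)
      ext n
      rw [coeff_rescale, coeff_map, coeff_map, coeff_C_add_smul, coeff_C_add_smul, coeff_rescale]
      split_ifs with h0
      · subst h0; simp [z, coe_eight]
      · simp [z, coe_eight]
        ring
  have hbdd : ∀ i, IsBdd 2 (U ∣[(2 : ℤ)] repSL p i) := fun i =>
    IsBdd.slash ⟨hU.holo, fun γ => by
      obtain ⟨j, hj⟩ := hrep γ
      obtain ⟨H, hH⟩ := hsers j
      rw [hj]
      exact hH.isBoundedAtImInfty⟩ _
  set Nm : ℍ → ℂ := ∏ i : Option (Fin p), phiForm a (U ∣[(2 : ℤ)] repSL p i) with hNm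
  have hN : IsLvl 3 (6 * ((p + 1 : ℕ) : ℤ)) Nm := by
    have hcard : ((p + 1 : ℕ) : ℤ) = ((Finset.univ : Finset (Option (Fin p))).card : ℤ) := by
      simp
    rw [hcard]
    refine ⟨IsBdd.prod _ fun i _ => isBdd_phiForm a (hbdd i), fun γ hγ => ?_⟩
    rw [hNm, prod_slash]
    choose π δ h1 h2 h3 using fun i : Option (Fin p) => exists_trRep_factor hp
      ((repSL p i * γ : SL(2, ℤ)) : Matrix (Fin 2) (Fin 2) ℤ) (repSL p i * γ).2
    have hπ : Function.Injective π := by
      intro i j hij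
      have hi := h3 i
      have hj := h3 j
      rw [Matrix.SpecialLinearGroup.coe_mul] at hi hj
      have e : trRep p i = (δ i * (δ j).adjugate) * trRep p j := by
        have hg : (γ : Matrix (Fin 2) (Fin 2) ℤ) * ((γ⁻¹ : SL(2, ℤ)) : Matrix (Fin 2) (Fin 2) ℤ)
            = 1 := by
          rw [← Matrix.SpecialLinearGroup.coe_mul, mul_inv_cancel, Matrix.SpecialLinearGroup.coe_one]
        have e' := congrArg (· * ((γ⁻¹ : SL(2, ℤ)) : Matrix (Fin 2) (Fin 2) ℤ)) hi
        have e'' := congrArg (· * ((γ⁻¹ : SL(2, ℤ)) : Matrix (Fin 2) (Fin 2) ℤ)) hj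
        simp only [Matrix.mul_assoc, hg, Matrix.mul_one, hij] at e' e''
        change trRep p i = _ at e'
        change trRep p j = _ at e''
        rw [e', e'', Matrix.mul_assoc, ← Matrix.mul_assoc (δ j).adjugate, Matrix.adjugate_mul,
          h1 j, one_smul, Matrix.one_mul]
      exact trRep_injective hp (atkin_mem_mul (h2 i) (atkin_mem_adjugate (h2 j))) e
    have key : ∀ i, phiForm a (U ∣[(2 : ℤ)] repSL p i) ∣[(6 : ℤ)] γ
        = phiForm a (U ∣[(2 : ℤ)] repSL p (π i)) := by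
      intro i
      rw [phiForm_slash a _ hγ, ← SlashAction.slash_mul, slash_repSL, h3 i,
        hU.inv.slash_atkinGL_mul (h1 i) (h2 i) (by rw [det_trRep]; exact one_ne_zero),
        slash_repSL]
      rfl
    rw [Finset.prod_congr rfl fun i _ => key i]
    exact Equiv.prod_comp (Equiv.ofBijective π (Finite.injective_iff_bijective.mp hπ))
      (fun i => phiForm a (U ∣[(2 : ℤ)] repSL p i))
  choose T hT using fun i => exists_phiForm_series hp.ne_zero a (hsers i).choose_spec
  have hNp := isQExp_prod (Finset.univ : Finset (Option (Fin p))) fun i _ => hT i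
  have hσ := isQExp_qExpansion_one hN.toModularForm
    (show (1 : ℝ) ∈ (Gamma0 3 : Subgroup (GL (Fin 2) ℝ)).strictPeriods by simp)
  have hσp := hσ.expand hp.ne_zero
  rw [one_mul] at hσp
  have heq := hσp.unique hNp
  set P := ∏ i : Option (Fin p), T i with hP
  have hN1 : IsQExp 1 Nm (PowerSeries.map ι (PowerSeries.mk fun n => coeff (p * n) P)) := by
    refine (?_ : _ = PowerSeries.map ι (PowerSeries.mk fun n => coeff (p * n) P)) ▸ hσ
    ext n
    have := congrArg (coeff (p * n)) heq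
    rw [coeff_expand_mul, coeff_map] at this
    rw [this, coeff_map, coeff_mk]
  obtain ⟨r, hr, hval⟩ := exists_value_rhoThree hN hN1
  rw [hNm, Finset.prod_apply, Finset.prod_congr rfl fun i _ => phiForm_rhoThree a _,
    Finset.prod_const, Finset.card_univ, Fintype.card_option, Fintype.card_fin, mul_pow] at hval
  exact quarter_pow_not_mem ha (Nat.succ_ne_zero p)
    (by rw [mul_right_cancel₀ (pow_ne_zero _ formB_rhoThree_ne_zero) hval]; exact hr)

end Fermat.Agent.Eisenstein.UpperB
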