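import Fermat.Agent.Eisenstein.UpperWeight
import Fermat.Agent.Eisenstein.UpperBTwoPart
import Fermat.Agent.Modular.WeightTwoLowLevel

/-!
# Every Eisenstein congruence modulus divides the numerator of `(p - 1) / 12`
-/

set_option autoImplicit false

noncomputable section

namespace Fermat.Agent.Eisenstein.UpperB

open PowerSeries ModularCurve CuspForm Fermat.Agent.Newform

variable {p M : ℕ}

theorem coeff_zero_diffSeries (cg : Eisenstein.EisensteinCongruence p M) :
    coeff 0 cg.diffSeries = (p : ℤ) - 1 := by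
  have h0 : cg.coeff 0 = 0 := by
    have := cg.coeff_spec 0
    rw [Eigen.qCoeff_index_zero] at this
    exact_mod_cast this.symm
  rw [Eisenstein.EisensteinCongruence.diffSeries, Eisenstein.eisTwoSeries, map_sub, map_zsmul,
    coeff_mk, coeff_mk, h0]
  simp

theorem sixteen_dvd_coeff_diffSeries (cg : Eisenstein.EisensteinCongruence p M) (h2 : 2 ∣ M)
    {n : ℕ} (hn : n ≠ 0) : (16 : ℤ) ∣ coeff n cg.diffSeries := by
  obtain ⟨c, rfl⟩ := h2
  have hm : Int.castRingHom (ZMod 16) (24 * ((2 * c : ℕ) : ℤ)) = 0 := by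
    rw [eq_intCast, ZMod.intCast_zmod_eq_zero_iff_dvd]
    exact ⟨3 * c, by push_cast; ring⟩
  have h := congrArg (coeff n) (cg.diffSeries_eq_C _ hm)
  rw [coeff_map, PowerSeries.coeff_C, if_neg hn, eq_intCast,
    ZMod.intCast_zmod_eq_zero_iff_dvd] at h
  exact h

/-- An even modulus excludes `8 ∣ p + 1`. -/
theorem not_two_dvd (cg : Eisenstein.EisensteinCongruence p M) (hp : p.Prime) (h8 : 8 ∣ p + 1) :
    ¬ 2 ∣ M := by
  intro h2
  obtain ⟨q, hq⟩ := h8
  refine no_unit_mod_eight hp ⟨q, hq⟩ ((cg.isLevel_diff hp).smul (1 / 2 : ℂ))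
    (a := 4 * (q : ℤ) - 1) ⟨2 * (q : ℤ) - 1, by ring⟩
    (h := PowerSeries.mk fun n => if n = 0 then 0 else coeff n cg.diffSeries / 16) ?_
  convert (cg.isQExp_diff hp).smul (1 / 2 : ℂ) using 1
  ext n
  rw [coeff_map, PowerSeries.coeff_smul, coeff_map, map_add, coeff_C_mul, coeff_C, coeff_mk]
  rcases eq_or_ne n 0 with rfl | hn
  · rw [if_pos rfl, if_pos rfl, coeff_zero_diffSeries]
    have hqC : (p : ℂ) + 1 = 8 * q := by exact_mod_cast hq
    simp only [eq_intCast, mul_zero, add_zero, smul_eq_mul]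
    push_cast
    linear_combination -(1 / 2 : ℂ) * hqC
  · rw [if_neg hn, if_neg hn]
    obtain ⟨d, hd⟩ := sixteen_dvd_coeff_diffSeries cg h2 hn
    rw [hd, Int.mul_ediv_cancel_left _ (by norm_num)]
    simp only [eq_intCast, zero_add, smul_eq_mul]
    push_cast
    ring

/-- The cofactor of `p + 1` is prime to the modulus. -/
theorem coprime_cofactor (cg : Eisenstein.EisensteinCongruence p M) (hp : p.Prime) {x : ℕ}
    (hx : x ∣ p + 1) (h2 : 2 ∣ x → 8 ∣ p + 1) (h3 : 3 ∣ x → 9 ∣ p + 1) : Nat.Coprime M x := by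
  refine Nat.coprime_of_dvd fun ℓ hℓ hℓM hℓx => ?_
  rcases Nat.lt_or_ge ℓ 5 with hlt | hge
  · interval_cases ℓ
    · exact absurd hℓ (by decide)
    · exact absurd hℓ (by decide)
    · exact not_two_dvd cg hp (h2 hℓx) hℓM
    · exact Eisenstein.not_three_dvd cg hp (h3 hℓx) hℓM
    · exact absurd hℓ (by decide)
  · exact Eisenstein.not_dvd_of_five_le cg hp hℓ hge (hℓx.trans hx) hℓM

theorem dvd_eisensteinNumerator_of_five_le (cg : Eisenstein.EisensteinCongruence p M)
    (hp : p.Prime) (h5 : 5 ≤ p) : M ∣ eisensteinNumerator p := by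
  have h := Eisenstein.dvd_sq_sub_one cg hp h5
  have h2 : 24 * M ∣ (p - 1) * (p + 1) := by
    rw [← Int.natCast_dvd_natCast]
    rw [show (((p - 1) * (p + 1) : ℕ) : ℤ) = ((p : ℤ) - 1) * ((p : ℤ) + 1) by
      rw [Nat.cast_mul, Nat.cast_sub hp.one_le]; push_cast; ring]
    exact h
  have hodd : p % 2 = 1 := hp.eq_two_or_odd.resolve_left (by omega)
  have h3 : p % 3 ≠ 0 := by
    intro h0
    have := (Nat.prime_dvd_prime_iff_eq Nat.prime_three hp).mp (Nat.dvd_of_mod_eq_zero h0)
    omega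
  set a := p / 12 with ha
  have key : ∀ {g y x e : ℕ}, p - 1 = g * y → p + 1 = e * x → g * e = 24 →
      Nat.gcd (p - 1) 12 = g → (2 ∣ x → 8 ∣ p + 1) → (3 ∣ x → 9 ∣ p + 1) →
      M ∣ eisensteinNumerator p := by
    intro g y x e hy hx hge hg hx2 hx3
    have hg0 : 0 < g := Nat.pos_of_ne_zero fun h0 => by simp [h0] at hge
    rw [eisensteinNumerator, hg, hy, Nat.mul_div_cancel_left _ hg0]
    refine (coprime_cofactor cg hp ⟨e, by rw [hx, mul_comm]⟩ hx2 hx3).dvd_of_dvd_mul_right ?_
    rw [hy, hx, show g * y * (e * x) = g * e * (y * x) by ring, hge] at h2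
    exact Nat.dvd_of_mul_dvd_mul_left (by norm_num) h2
  have hcases : p % 12 = 1 ∨ p % 12 = 5 ∨ p % 12 = 7 ∨ p % 12 = 11 := by omega
  rcases hcases with hr | hr | hr | hr
  · exact key (g := 12) (y := a) (x := 6 * a + 1) (e := 2) (by omega) (by omega) rfl
      (Nat.gcd_eq_right (by omega)) (by omega) (by omega)
  · refine key (g := 4) (y := 3 * a + 1) (x := 2 * a + 1) (e := 6) (by omega) (by omega) rfl ?_
      (by omega) (by omega)
    rw [Nat.gcd_comm, Nat.gcd_rec, show (p - 1) % 12 = 4 by omega]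
    rfl
  · refine key (g := 6) (y := 2 * a + 1) (x := 3 * a + 2) (e := 4) (by omega) (by omega) rfl ?_
      (by omega) (by omega)
    rw [Nat.gcd_comm, Nat.gcd_rec, show (p - 1) % 12 = 6 by omega]
    rfl
  · refine key (g := 2) (y := 6 * a + 5) (x := a + 1) (e := 12) (by omega) (by omega) rfl ?_
      (by omega) (by omega)
    rw [Nat.gcd_comm, Nat.gcd_rec, show (p - 1) % 12 = 10 by omega]
    rfl

theorem index_lt_six_of_lt (hp : p.Prime) (h5 : p < 5) :
    (CongruenceSubgroup.Gamma0 p).index < 6 := by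
  interval_cases p
  · exact absurd hp (by decide)
  · exact absurd hp (by decide)
  · have := Fermat.Agent.Modular.index_Gamma0_le_sq 2
    omega
  · rw [index_gamma0_three]
    omega
  · exact absurd hp (by decide)

theorem dvd_eisensteinNumerator_of_lt_five (cg : Eisenstein.EisensteinCongruence p M)
    (hp : p.Prime) (h5 : p < 5) : M ∣ eisensteinNumerator p := by
  have : NeZero p := ⟨hp.ne_zero⟩
  have h0 := Fermat.Agent.Modular.cuspForm_two_eq_zero_of_index_lt (index_lt_six_of_lt hp h5)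
    cg.form
  have hc : cg.coeff 1 = 0 := by
    have := cg.coeff_spec 1
    rw [h0, Eigen.qCoeff_form_zero] at this
    exact_mod_cast this.symm
  have h := cg.congr 1 le_rfl
  rw [hc, Eisenstein.sigmaAway_one, zero_sub, dvd_neg, Int.natCast_dvd_natCast] at h
  exact h.trans (one_dvd _)

/-- The numerator of `(p - 1) / 12` lies in the image of the Eisenstein ideal. -/
theorem numerator_mem_map (p : ℕ) [Fact p.Prime] :
    ((eisensteinNumerator p : ℕ) : ↥(heckeLatticeAlgebra p ∅)) ∈
      Ideal.map ((latticeRestrictHom p ∅).toRingHom.comp (heckeEvalForms p 2))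
        (eisensteinIdeal p) := by
  have hp : p.Prime := Fact.out
  refine Eisenstein.mem_map_of_congruence_bound ?_ fun M _ cg => ?_
  · rw [eisensteinNumerator]
    have h1 : 0 < p - 1 := by have := hp.two_le; omega
    exact (Nat.div_pos (Nat.gcd_le_left _ h1) (Nat.gcd_pos_of_pos_left _ h1)).ne'
  · rcases Nat.lt_or_ge p 5 with h | h
    · exact dvd_eisensteinNumerator_of_lt_five cg hp h
    · exact dvd_eisensteinNumerator_of_five_le cg hp h

end Fermat.Agent.Eisenstein.UpperB
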