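import Fermat.Agent.Eigen.QCoeff
import Fermat.Prelude.Def_CuspForm_HeckeLocal
import Fermat.Prelude.Def_CuspForm_HeckeEvalForms
import Fermat.Prelude.Def_ModularCurve_ModularUnit

/-!
# Duality between the lattice Hecke algebra and integral cusp forms
-/

set_option autoImplicit false
set_option maxHeartbeats 400000

noncomputable section

open CongruenceSubgroup ModularFormClass ModularCurve CuspForm Fermat.Agent.Eigen
open scoped ArithmeticFunction.sigma

namespace Fermat.Agent.Eisenstein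

/-- The sum of the divisors of `n` prime to `p`. -/
def sigmaAway (p n : ℕ) : ℕ := σ 1 (ordCompl[p] n)

variable {p : ℕ}

/-- A non-degenerate pairing of lattices has finite cokernel. -/
lemma exists_zsmul_eq_pairing {A B : Type*} [AddCommGroup A] [AddCommGroup B]
    [Module.Finite ℤ A] [Module.Free ℤ A] [Module.Finite ℤ B] [Module.Free ℤ B]
    (D : A →ₗ[ℤ] B →ₗ[ℤ] ℤ) (hl : Function.Injective D) (hr : Function.Injective D.flip)
    (Φ : B →ₗ[ℤ] ℤ) : ∃ k : ℤ, k ≠ 0 ∧ ∃ f, D f = k • Φ := by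
  by_contra hne
  push Not at hne
  have h1 := LinearMap.finrank_le_finrank_of_injective hr
  rw [Module.finrank_linearMap_self] at h1
  have hli : Function.Injective (LinearMap.coprod D (LinearMap.toSpanSingleton ℤ _ Φ)) := by
    rw [injective_iff_map_eq_zero]
    intro x hx
    simp only [LinearMap.coprod_apply, LinearMap.toSpanSingleton_apply] at hx
    have h3 : D x.1 = (-x.2) • Φ := by rw [neg_smul]; exact eq_neg_of_add_eq_zero_left hx
    by_cases hz : x.2 = 0
    · rw [hz, neg_zero, zero_smul, map_eq_zero_iff _ hl] at h3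
      exact Prod.ext h3 hz
    · exact absurd h3 (hne _ (neg_ne_zero.mpr hz) _)
  have h4 := LinearMap.finrank_le_finrank_of_injective hli
  rw [Module.finrank_prod, Module.finrank_self, Module.finrank_linearMap_self] at h4
  omega

/-- Reduction of a membership statement to moduli of congruences. -/
lemma natCast_mem_map_of_bound {R : Type*} [CommRing R] (φ : HeckeAlg →+* R)
    (hsur : Function.Surjective φ) (a : Nat.Primes → ℤ) {n : ℕ} (hn : n ≠ 0)
    (H : ∀ M : ℕ, M ≠ 0 → ∀ θ : R →+* ZMod M, (∀ ℓ, θ (φ (heckeGen ℓ)) = a ℓ) → M ∣ n) :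
    (n : R) ∈ Ideal.map φ (eigenIdeal a) := by
  set I := Ideal.map φ (eigenIdeal a)
  set ψ : ℤ →+* R ⧸ I := Int.castRingHom _ with hψdef
  have hgen : ∀ ℓ, Ideal.Quotient.mk I (φ (heckeGen ℓ)) = ψ (a ℓ) := by
    intro ℓ
    have h := Ideal.Quotient.eq_zero_iff_mem.mpr
      (Ideal.mem_map_of_mem φ (heckeGen_sub_mem_eigenIdeal a ℓ (a ℓ) rfl))
    rw [map_sub, map_sub, sub_eq_zero] at h
    rw [h, ← RingHom.comp_apply φ, ← RingHom.comp_apply]
    exact RingHom.congr_fun (RingHom.ext_int _ ψ) _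
  have hψ : Function.Surjective ψ := by
    intro x
    obtain ⟨y, rfl⟩ := Ideal.Quotient.mk_surjective x
    obtain ⟨t, rfl⟩ := hsur y
    induction t using MvPolynomial.induction_on with
    | C b =>
      exact ⟨b, RingHom.congr_fun (RingHom.ext_int ψ
        (((Ideal.Quotient.mk I).comp φ).comp MvPolynomial.C)) b⟩
    | add u v hu hv =>
      obtain ⟨b, hb⟩ := hu
      obtain ⟨c, hc⟩ := hv
      exact ⟨b + c, by rw [map_add, hb, hc, map_add, map_add]⟩
    | mul_X u ℓ hu =>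
      obtain ⟨b, hb⟩ := hu
      exact ⟨b * a ℓ, by rw [map_mul, hb, ← hgen, map_mul, map_mul]; rfl⟩
  obtain ⟨d, hd⟩ := (IsPrincipalIdealRing.principal (RingHom.ker ψ)).principal
  have key : ∀ M : ℕ, M ≠ 0 → (M : ℤ) ∣ d → M ∣ n := by
    intro M hM hMd
    let e := RingHom.quotientKerEquivOfSurjective hψ
    let q : ℤ ⧸ RingHom.ker ψ →+* ZMod M := Ideal.Quotient.lift _ (Int.castRingHom _) fun b hb => by
      rw [hd] at hb
      exact (ZMod.intCast_zmod_eq_zero_iff_dvd b M).mpr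
        (hMd.trans (Ideal.mem_span_singleton.mp hb))
    refine H M hM ((q.comp e.symm.toRingHom).comp (Ideal.Quotient.mk I)) fun ℓ => ?_
    have he : e.symm (ψ (a ℓ)) = Ideal.Quotient.mk _ (a ℓ) := by
      rw [RingEquiv.symm_apply_eq]
      rfl
    show q (e.symm (Ideal.Quotient.mk I (φ (heckeGen ℓ)))) = _
    rw [hgen, he]
    rfl
  have hd0 : d ≠ 0 := fun h0 => by
    have := Nat.le_of_dvd (Nat.pos_of_ne_zero hn) (key (n + 1) n.succ_ne_zero (h0 ▸ dvd_zero _))
    omega
  have hdn : d ∣ (n : ℤ) := Int.natAbs_dvd.mp <|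
    Int.natCast_dvd_natCast.mpr (key d.natAbs (Int.natAbs_ne_zero.mpr hd0) Int.natAbs_dvd_self)
  have hmem : (n : ℤ) ∈ RingHom.ker ψ := hd ▸ Ideal.mem_span_singleton.mpr hdn
  rw [RingHom.mem_ker, hψdef] at hmem
  rw [← Ideal.Quotient.eq_zero_iff_mem, map_natCast]
  simpa using hmem

lemma sigmaAway_one : sigmaAway p 1 = 1 := by
  simp [sigmaAway, ArithmeticFunction.sigma_one]

lemma sigmaAway_self_mul (hp : p.Prime) (m : ℕ) : sigmaAway p (p * m) = sigmaAway p m := by
  have h := Nat.ordCompl_self_pow_mul m 1 hp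
  rw [pow_one] at h
  rw [sigmaAway, sigmaAway, h]

lemma sigma_one_prime_recursion {ℓ m : ℕ} (hℓ : ℓ.Prime) (hm : m ≠ 0) :
    σ 1 (ℓ * m) + (if ℓ ∣ m then ℓ * σ 1 (m / ℓ) else 0) = (1 + ℓ) * σ 1 m := by
  obtain ⟨e, r, hr, rfl⟩ := Nat.exists_eq_pow_mul_and_not_dvd hm ℓ hℓ.ne_one
  have hcop : ∀ i, Nat.Coprime (ℓ ^ i) r := fun i =>
    ((Nat.Prime.coprime_iff_not_dvd hℓ).mpr hr).pow_left i
  have hsig : ∀ i, σ 1 (ℓ ^ i * r) = σ 1 (ℓ ^ i) * σ 1 r := fun i =>
    ArithmeticFunction.isMultiplicative_sigma.map_mul_of_coprime (hcop i)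
  have hsucc : ∀ i, σ 1 (ℓ ^ (i + 1)) = 1 + ℓ * σ 1 (ℓ ^ i) := fun i => by
    rw [ArithmeticFunction.sigma_one_apply_prime_pow hℓ,
      ArithmeticFunction.sigma_one_apply_prime_pow hℓ, Finset.sum_range_succ', pow_zero, add_comm,
      Finset.mul_sum]
    simp [pow_succ, mul_comm]
  rw [← mul_assoc, ← pow_succ', hsig, hsig, hsucc]
  rcases e with _ | e
  · rw [pow_zero, one_mul, if_neg hr]
    simp [ArithmeticFunction.sigma_one]
  · rw [if_pos (dvd_mul_of_dvd_left (dvd_pow_self ℓ e.succ_ne_zero) r), pow_succ', mul_assoc,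
      Nat.mul_div_cancel_left _ hℓ.pos, ← pow_succ', hsig, hsucc]
    ring

lemma sigmaAway_recursion (hp : p.Prime) {ℓ m : ℕ} (hℓ : ℓ.Prime) (hℓp : ℓ ≠ p) (hm : m ≠ 0) :
    sigmaAway p (ℓ * m) + (if ℓ ∣ m then ℓ * sigmaAway p (m / ℓ) else 0) =
      (1 + ℓ) * sigmaAway p m := by
  have hℓ' : ordCompl[p] ℓ = ℓ := by
    rw [Nat.factorization_eq_zero_of_not_dvd
      (fun h => hℓp ((Nat.prime_dvd_prime_iff_eq hp hℓ).mp h).symm)]
    simp
  have key := sigma_one_prime_recursion hℓ (Nat.ordCompl_pos p hm).ne'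
  have hiff : ℓ ∣ ordCompl[p] m ↔ ℓ ∣ m := by
    refine ⟨fun h => h.trans (Nat.ordCompl_dvd m p), fun h => ?_⟩
    obtain ⟨c, rfl⟩ := h
    rw [Nat.ordCompl_mul, hℓ']
    exact dvd_mul_right _ _
  by_cases h : ℓ ∣ m
  · rw [if_pos h]
    rw [if_pos (hiff.mpr h)] at key
    obtain ⟨c, rfl⟩ := h
    rw [Nat.mul_div_cancel_left _ hℓ.pos]
    rw [Nat.ordCompl_mul, hℓ', Nat.mul_div_cancel_left _ hℓ.pos] at key
    simpa only [sigmaAway, Nat.ordCompl_mul, hℓ'] using key
  · rw [if_neg h]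
    rw [if_neg (fun hh => h (hiff.mp hh))] at key
    simpa only [sigmaAway, Nat.ordCompl_mul, hℓ'] using key

variable {N : ℕ} [NeZero N]

set_option quotPrecheck false in
local notation "T'" => ↥(heckeLatticeAlgebra N ∅)
set_option quotPrecheck false in
local notation "L" => ↥(intLattice N 2)

/-- The map from formal Hecke polynomials to the lattice Hecke algebra. -/
def heckeToLattice (N : ℕ) [NeZero N] : HeckeAlg →+* ↥(heckeLatticeAlgebra N ∅) :=
  (latticeRestrictHom N ∅).toRingHom.comp (heckeEvalForms N 2)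

lemma exists_int_qCoeff {f : CuspForm (Gamma0 N) 2} (hf : f ∈ intLattice N 2) (n : ℕ) :
    ∃ m : ℤ, qCoeff f n = m := by
  refine Submodule.span_induction (fun g hg => hg n) ⟨0, by rw [qCoeff_form_zero, Int.cast_zero]⟩
    (fun g h _ _ ⟨a, ha⟩ ⟨b, hb⟩ => ⟨a + b, by rw [qCoeff_add, ha, hb]; push_cast; rfl⟩)
    (fun c g _ ⟨a, ha⟩ => ⟨c * a, by rw [qCoeff_zsmul, ha]; push_cast; rfl⟩) hf

/-- The integral coefficient. -/
def intCoeff (n : ℕ) (f : L) : ℤ := (exists_int_qCoeff f.2 n).choose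

lemma intCoeff_spec (n : ℕ) (f : L) :
    (intCoeff n f : ℂ) = qCoeff (f : CuspForm (Gamma0 N) 2) n :=
  ((exists_int_qCoeff f.2 n).choose_spec).symm

/-- The integral coefficient as a linear map. -/
def intCoeffLin (n : ℕ) : L →ₗ[ℤ] ℤ where
  toFun := intCoeff n
  map_add' f g := Int.cast_injective (α := ℂ) <| by
    push_cast
    rw [intCoeff_spec, intCoeff_spec, intCoeff_spec, Submodule.coe_add, qCoeff_add]
  map_smul' c f := Int.cast_injective (α := ℂ) <| by
    simp only [RingHom.id_apply, smul_eq_mul, Int.cast_mul, intCoeff_spec, SetLike.val_smul,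
      qCoeff_zsmul]

lemma eq_of_intCoeff {f g : L} (h : ∀ n, 1 ≤ n → intCoeff n f = intCoeff n g) : f = g := by
  refine Subtype.ext (ext_qCoeff fun n => ?_)
  rcases Nat.eq_zero_or_pos n with rfl | hn
  · rw [qCoeff_index_zero, qCoeff_index_zero]
  · rw [← intCoeff_spec, ← intCoeff_spec, h n hn]

/-- Evaluation `f ↦ (t ↦ a₁ (t f))`. -/
def duality (N : ℕ) [NeZero N] :
    ↥(intLattice N 2) →ₗ[ℤ] (↥(heckeLatticeAlgebra N ∅) →ₗ[ℤ] ℤ) :=
  LinearMap.mk₂ ℤ
    (fun f t => intCoeffLin 1 ((t : Module.End ℤ ↥(intLattice N 2)) f))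
    (fun f g t => by simp [map_add])
    (fun c f t => by simp)
    (fun f t t' => by simp)
    (fun c f t => by simp)

lemma duality_apply (f : L) (t : T') :
    duality N f t = intCoeff 1 ((t : Module.End ℤ L) f) := rfl

lemma exists_rep (n : ℕ) (hn : 1 ≤ n) :
    ∃ t : HeckeAlg, (∀ f : L, intCoeff 1 ((heckeToLattice N t : Module.End ℤ L) f) = intCoeff n f) ∧
      (N.Prime → MvPolynomial.aeval (eisensteinSystem N) t = (sigmaAway N n : ℤ)) := by
  induction n using Nat.strong_induction_on with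
  | _ n ih =>
  rcases hn.eq_or_lt with rfl | hn1
  · exact ⟨1, fun f => by rw [map_one]; rfl, fun _ => by simp [sigmaAway_one]⟩
  obtain ⟨m, hm⟩ := Nat.minFac_dvd n
  have hℓ : (n.minFac).Prime := Nat.minFac_prime (by omega)
  set ℓ := n.minFac
  have hm0 : 1 ≤ m := Nat.pos_of_ne_zero fun h => by simp [h] at hm; omega
  have hmn : m < n := by
    rw [hm]
    exact lt_mul_of_one_lt_left (by omega) hℓ.one_lt
  obtain ⟨tm, htm, htm'⟩ := ih m hmn hm0
  have hact : ∀ (f : L), (((heckeToLattice N (heckeGen ⟨ℓ, hℓ⟩) : Module.End ℤ L) f : L) :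
      CuspForm (Gamma0 N) 2) = ((heckeFormsGen N 2 ⟨ℓ, hℓ⟩ : heckeAlgebra N 2 ∅) :
        Module.End ℂ (CuspForm (Gamma0 N) 2)) (f : CuspForm (Gamma0 N) 2) := fun f => by
    rw [heckeToLattice, RingHom.comp_apply, heckeEvalForms_heckeGen]
    rfl
  by_cases hℓN : ℓ ∣ N
  · refine ⟨tm * heckeGen ⟨ℓ, hℓ⟩, fun f => ?_, fun hN => ?_⟩
    · rw [map_mul, Subalgebra.coe_mul, Module.End.mul_apply, htm]
      apply Int.cast_injective (α := ℂ)
      rw [intCoeff_spec, intCoeff_spec, hact, heckeFormsGen_of_dvd hℓN, heckeAlgebra.coe_U,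
        qCoeff_heckeULin hℓ.ne_zero, hm, mul_comm]
    · rw [map_mul, aeval_heckeGen, htm' hN, eisensteinSystem_of_dvd (by exact hℓN), mul_one, hm,
        (Nat.prime_dvd_prime_iff_eq hℓ hN).mp hℓN, sigmaAway_self_mul hN]
  · obtain ⟨td, htd, htd'⟩ : ∃ t : HeckeAlg,
        (∀ f : L, intCoeff 1 ((heckeToLattice N t : Module.End ℤ L) f) =
          if ℓ ∣ m then (ℓ : ℤ) * intCoeff (m / ℓ) f else 0) ∧
        (N.Prime → MvPolynomial.aeval (eisensteinSystem N) t =
          ((if ℓ ∣ m then ℓ * sigmaAway N (m / ℓ) else 0 : ℕ) : ℤ)) := by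
      by_cases hd : ℓ ∣ m
      · obtain ⟨t, ht, ht'⟩ := ih (m / ℓ) ((Nat.div_le_self m ℓ).trans_lt hmn)
          (Nat.div_pos (Nat.le_of_dvd hm0 hd) hℓ.pos)
        refine ⟨(ℓ : HeckeAlg) * t, fun f => ?_, fun hN => ?_⟩
        · rw [if_pos hd, ← ht f, map_mul, map_natCast, ← nsmul_eq_mul]
          show intCoeffLin 1 _ = (ℓ : ℤ) * intCoeffLin 1 _
          rw [Subalgebra.coe_smul, LinearMap.smul_apply, map_nsmul, nsmul_eq_mul]
        · rw [if_pos hd, map_mul, map_natCast, ht' hN]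
          push_cast
          rfl
      · exact ⟨0, fun f => by rw [if_neg hd, map_zero]; exact map_zero (intCoeffLin 1),
          fun _ => by rw [if_neg hd, map_zero, Nat.cast_zero]⟩
    refine ⟨tm * heckeGen ⟨ℓ, hℓ⟩ - td, fun f => ?_, fun hN => ?_⟩
    · rw [map_sub, Subalgebra.coe_sub, LinearMap.sub_apply]
      show intCoeffLin 1 _ = _
      rw [map_sub]
      show intCoeff 1 _ - intCoeff 1 _ = _
      rw [htd, map_mul, Subalgebra.coe_mul, Module.End.mul_apply, htm]
      apply Int.cast_injective (α := ℂ)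
      push_cast
      rw [intCoeff_spec, intCoeff_spec, hact, heckeFormsGen_of_not_dvd hℓN, heckeAlgebra.coe_T,
        qCoeff_heckeTLin_two hℓ, hm, mul_comm ℓ m]
      split_ifs
      · push_cast
        rw [intCoeff_spec]
        ring
      · simp [intCoeff_spec]
    · rw [map_sub, map_mul, aeval_heckeGen, htm' hN, htd' hN,
        eisensteinSystem_of_not_dvd (by exact hℓN), hm, sub_eq_iff_eq_add]
      have := sigmaAway_recursion hN hℓ (fun h => hℓN (h ▸ dvd_rfl)) (by omega : m ≠ 0)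
      have h2 : ((sigmaAway N (ℓ * m) : ℤ) +
          ((if ℓ ∣ m then ℓ * sigmaAway N (m / ℓ) else 0 : ℕ) : ℤ)) =
          (1 + (ℓ : ℤ)) * sigmaAway N m := by exact_mod_cast this
      rw [h2]
      ring

lemma duality_left_injective : Function.Injective (duality N) := by
  intro f g h
  refine eq_of_intCoeff fun n hn => ?_
  obtain ⟨t, ht, -⟩ := exists_rep (N := N) n hn
  rw [← ht, ← ht]
  exact LinearMap.congr_fun h (heckeToLattice N t)

lemma duality_right_injective {t : T'} (h : ∀ f : L, duality N f t = 0) : t = 0 := by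
  refine Subtype.ext (LinearMap.ext fun f => eq_of_intCoeff fun n hn => ?_)
  obtain ⟨u, hu, -⟩ := exists_rep (N := N) n hn
  have h2 := h ((heckeToLattice N u : Module.End ℤ L) f)
  rw [duality_apply] at h2
  have hc : (heckeToLattice N u : Module.End ℤ L) ((t : Module.End ℤ L) f)
      = (t : Module.End ℤ L) ((heckeToLattice N u : Module.End ℤ L) f) := by
    rw [← Module.End.mul_apply, ← Subalgebra.coe_mul, mul_comm, Subalgebra.coe_mul,
      Module.End.mul_apply]
  rw [← hu, hc, h2]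
  exact (map_zero (intCoeffLin n)).symm

theorem duality_surjective : Function.Surjective (duality N) := by
  have := intLattice.moduleFinite N
  have := intLattice.moduleFree N
  have hflip : Function.Injective (duality N).flip := by
    rw [injective_iff_map_eq_zero]
    exact fun t ht => duality_right_injective fun f => LinearMap.congr_fun ht f
  intro Φ
  obtain ⟨k, hk, f, hf⟩ := exists_zsmul_eq_pairing (duality N) duality_left_injective hflip Φ
  have hdiv : ∀ n, 1 ≤ n → ∃ m : ℤ, intCoeff n f = k * m := fun n hn => by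
    obtain ⟨t, ht, -⟩ := exists_rep (N := N) n hn
    refine ⟨Φ (heckeToLattice N t), ?_⟩
    rw [← ht, ← duality_apply, hf]
    simp
  have hk' : (k : ℂ) ≠ 0 := Int.cast_ne_zero.mpr hk
  let g : L := ⟨(k : ℂ)⁻¹ • (f : CuspForm (Gamma0 N) 2), Submodule.subset_span fun n => by
    rcases Nat.eq_zero_or_pos n with rfl | hn
    · exact ⟨0, by rw [qCoeff_index_zero]; simp⟩
    · obtain ⟨m, hm⟩ := hdiv n hn
      refine ⟨m, ?_⟩
      rw [qCoeff_smul, ← intCoeff_spec, hm]
      push_cast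
      field_simp⟩
  have hg : k • g = f := Subtype.ext <| by
    rw [SetLike.val_smul, ← Int.cast_smul_eq_zsmul ℂ, smul_smul, mul_inv_cancel₀ hk', one_smul]
  refine ⟨g, ?_⟩
  ext t
  have := LinearMap.congr_fun hf t
  rw [← hg, map_zsmul, LinearMap.smul_apply, LinearMap.smul_apply] at this
  exact mul_left_cancel₀ hk (by simpa using this)

/-- An integral form congruent to the Eisenstein series. -/
structure EisensteinCongruence (p M : ℕ) where
  form : CuspForm (Gamma0 p) 2
  coeff : ℕ → ℤ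
  coeff_spec : ∀ n, qCoeff form n = coeff n
  congr : ∀ n, 1 ≤ n → (M : ℤ) ∣ coeff n - sigmaAway p n

lemma ringHom_heckeToLattice {p : ℕ} [NeZero p] {R : Type*} [CommRing R]
    (θ : ↥(heckeLatticeAlgebra p ∅) →+* R)
    (hθ : ∀ ℓ : Nat.Primes, θ (heckeToLattice p (heckeGen ℓ)) = eisensteinSystem p ℓ) (t : HeckeAlg) :
    θ (heckeToLattice p t) = (MvPolynomial.aeval (eisensteinSystem p) t : ℤ) := by
  induction t using MvPolynomial.induction_on with
  | C a =>
    rw [MvPolynomial.aeval_C]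
    exact RingHom.congr_fun (RingHom.ext_int
      ((θ.comp (heckeToLattice p)).comp MvPolynomial.C) (Int.castRingHom R)) a
  | add x y hx hy => simp [map_add, hx, hy]
  | mul_X x ℓ hx =>
    rw [map_mul, map_mul, hx, map_mul, Int.cast_mul]
    congr 1
    rw [show (MvPolynomial.X ℓ : HeckeAlg) = heckeGen ℓ from rfl, hθ, aeval_heckeGen]

/-- A mod `M` Eisenstein character of the lattice Hecke algebra gives a congruence. -/
theorem nonempty_eisensteinCongruence {p : ℕ} [Fact p.Prime] (M : ℕ)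
    (θ : ↥(heckeLatticeAlgebra p ∅) →+* ZMod M)
    (hθ : ∀ ℓ : Nat.Primes, θ (heckeToLattice p (heckeGen ℓ)) = eisensteinSystem p ℓ) :
    Nonempty (EisensteinCongruence p M) := by
  let castL : ℤ →ₗ[ℤ] ZMod M := (Int.castAddHom (ZMod M)).toIntLinearMap
  obtain ⟨Φ, hΦ⟩ := Module.projective_lifting_property castL θ.toAddMonoidHom.toIntLinearMap
    ZMod.intCast_surjective
  obtain ⟨f, hf⟩ := duality_surjective Φ
  refine ⟨⟨(f : CuspForm (Gamma0 p) 2), fun n => intCoeff n f, fun n => (intCoeff_spec n f).symm,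
    fun n hn => ?_⟩⟩
  obtain ⟨t, ht, ht'⟩ := exists_rep (N := p) n hn
  rw [← ZMod.intCast_zmod_eq_zero_iff_dvd, Int.cast_sub, sub_eq_zero, ← ht, ← duality_apply, hf]
  have h1 := LinearMap.congr_fun hΦ (heckeToLattice p t)
  have h2 : castL (Φ (heckeToLattice p t)) = θ (heckeToLattice p t) := h1
  rw [ringHom_heckeToLattice θ hθ, ht' Fact.out] at h2
  simpa [castL] using h2

/-- It is enough to bound every congruence modulus. -/
theorem mem_map_of_congruence_bound {p : ℕ} [Fact p.Prime] {n : ℕ} (hn : n ≠ 0)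
    (H : ∀ M : ℕ, M ≠ 0 → EisensteinCongruence p M → M ∣ n) :
    ((n : ℕ) : ↥(heckeLatticeAlgebra p ∅)) ∈
      Ideal.map (heckeToLattice p) (eisensteinIdeal p) := by
  have hsur : Function.Surjective (heckeToLattice p) := by
    refine (latticeRestrictHom_surjective p ∅).comp ?_
    have htop : heckeAlgebra p 2 ∅ ≤
        ((heckeAlgebra p 2 ∅).val.comp (MvPolynomial.aeval (heckeFormsGen p 2))).range := by
      refine Algebra.adjoin_le ?_
      rintro T (⟨ℓ, hℓ, hℓN, -, rfl⟩ | ⟨q, hqN, hq, -, rfl⟩)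
      · exact ⟨heckeGen ⟨ℓ, hℓ⟩,
          congrArg Subtype.val (heckeEvalForms_heckeGen_of_not_dvd (ℓ := ⟨ℓ, hℓ⟩) hℓN)⟩
      · exact ⟨heckeGen ⟨q, hq⟩,
          congrArg Subtype.val (heckeEvalForms_heckeGen_of_dvd (q := ⟨q, hq⟩) hqN)⟩
    intro x
    obtain ⟨t, ht⟩ := htop x.2
    exact ⟨t, Subtype.ext ht⟩
  exact natCast_mem_map_of_bound (heckeToLattice p) hsur (eisensteinSystem p) hn
    fun M hM θ hθ => (nonempty_eisensteinCongruence M θ hθ).elim (H M hM)

end Fermat.Agent.Eisenstein
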