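import Mathlib.NumberTheory.ModularForms.EisensteinSeries.E2.MDifferentiable
import Mathlib.NumberTheory.ModularForms.EisensteinSeries.E2.Transform
import Fermat.Agent.Eisenstein.UpperDual
import Fermat.Agent.Eisenstein.UpperTrace
import Fermat.Agent.Eisenstein.UpperLevelOne

/-!
# The Eisenstein series of weight two and prime level, and the difference with a congruent form
-/

set_option autoImplicit false
set_option maxHeartbeats 400000

noncomputable section

open UpperHalfPlane hiding I
open Complex ModularForm PowerSeries Fermat.Agent.Newform EisensteinSeries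
open scoped MatrixGroups ModularForm Manifold ArithmeticFunction.sigma

namespace Fermat.Agent.Eisenstein

local notation "M₂" => Matrix (Fin 2) (Fin 2) ℤ

variable {p : ℕ}

/-- The series of `E₂`. -/
def twoSeries (S : Type*) [CommRing S] : PowerSeries S := 1 - (24 : S) • divSeries S 1

lemma isQExp_E2 : IsQExp 1 E2 (twoSeries ℂ) := fun τ => by
  refine (hasSum_qExpansion_E2 (z := τ)).congr_fun fun n => ?_
  rcases eq_or_ne n 0 with rfl | hn
  · simp [twoSeries, constantCoeff_divSeries, Function.Periodic.qParam]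
  · simp [twoSeries, coeff_divSeries, Function.Periodic.qParam, coeff_one, hn]

/-- The scalar in the transformation law of `E₂`. -/
def kappa : ℂ := 1 / (2 * riemannZeta 2)

lemma E2_slash_mat {X : M₂} (hX : X.det = 1) (τ : ℍ) :
    (E2 ∣[(2 : ℤ)] atkinGL X) τ =
      E2 τ - kappa * (2 * Real.pi * I * (X 1 0) / ((X 1 0 : ℂ) * τ + X 1 1)) := by
  have h := congrFun (E2_slash_action ⟨X, hX⟩) τ
  rw [ModularForm.SL_slash] at h
  rw [show atkinGL X = Matrix.SpecialLinearGroup.mapGL ℝ (⟨X, hX⟩ : SL(2, ℤ)) from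
    atkinGL_coe_SL ⟨X, hX⟩]
  refine h.trans ?_
  simp [kappa, D2, UpperHalfPlane.denom]

/-- `24` times the Eisenstein series of weight two on `Γ₀(p)`. -/
def eisTwo (p : ℕ) : ℍ → ℂ := E2 ∣[(2 : ℤ)] atkinGL (atkinDiag p) - E2

/-- The series of `eisTwo`. -/
def eisTwoSeries (p : ℕ) : PowerSeries ℤ :=
  PowerSeries.mk fun n => if n = 0 then (p : ℤ) - 1 else 24 * sigmaAway p n

lemma sigma_one_eq_sigmaAway (hp : p.Prime) {n : ℕ} (hn : n ≠ 0) :
    σ 1 n = sigmaAway p n + (if p ∣ n then p * σ 1 (n / p) else 0) := by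
  obtain ⟨e, r, hr, rfl⟩ := Nat.exists_eq_pow_mul_and_not_dvd hn p hp.ne_one
  have hcop : ∀ i, Nat.Coprime (p ^ i) r := fun i =>
    ((Nat.Prime.coprime_iff_not_dvd hp).mpr hr).pow_left i
  have hr0 : r ≠ 0 := fun h => hr (h ▸ dvd_zero p)
  have haway : sigmaAway p (p ^ e * r) = σ 1 r := by
    rw [sigmaAway, Nat.ordCompl_self_pow_mul r e hp, Nat.factorization_eq_zero_of_not_dvd hr,
      pow_zero, Nat.div_one]
  rw [haway, ArithmeticFunction.isMultiplicative_sigma.map_mul_of_coprime (hcop e)]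
  rcases e with _ | e
  · simp [hr, ArithmeticFunction.sigma_one]
  · rw [if_pos (dvd_mul_of_dvd_left (dvd_pow_self p e.succ_ne_zero) r), pow_succ', mul_assoc p,
      Nat.mul_div_cancel_left _ hp.pos,
      ArithmeticFunction.isMultiplicative_sigma.map_mul_of_coprime (hcop e), ← pow_succ',
      ArithmeticFunction.sigma_one_apply_prime_pow hp,
      ArithmeticFunction.sigma_one_apply_prime_pow hp, Finset.sum_range_succ', pow_zero]
    simp only [pow_succ, ← Finset.sum_mul]
    ring

lemma isQExp_eisTwo (hp : p.Prime) :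
    IsQExp 1 (eisTwo p) ((eisTwoSeries p).map (Int.castRingHom ℂ)) := by
  have hpos : 0 < (atkinDiag p).det := by rw [det_atkinDiag]; exact_mod_cast hp.pos
  have h1 : IsQExp 1 (fun τ => E2 (atkinGL (atkinDiag p) • τ))
      (PowerSeries.expand p hp.ne_zero (twoSeries ℂ)) :=
    isQExp_E2.scale hp.ne_zero fun τ τ' h => by
      congr 1
      apply UpperHalfPlane.ext
      rw [coe_atkinGL_smul hpos, h]
      simp [atkinDiag]
  have h2 := ((h1.smul (p : ℂ)).sub isQExp_E2)
  have hs : (p : ℂ) • PowerSeries.expand p hp.ne_zero (twoSeries ℂ) - twoSeries ℂ =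
      (eisTwoSeries p).map (Int.castRingHom ℂ) := by
    ext n
    rcases eq_or_ne n 0 with rfl | hn
    · simp [twoSeries, constantCoeff_divSeries, eisTwoSeries]
    · have := sigma_one_eq_sigmaAway hp hn
      rw [map_sub, PowerSeries.coeff_smul, PowerSeries.coeff_expand]
      simp only [twoSeries, coeff_divSeries, eisTwoSeries, map_sub, coeff_one, coeff_mk,
        PowerSeries.coeff_smul, coeff_map, if_neg hn, smul_eq_mul, eq_intCast]
      by_cases hd : p ∣ n
      · have hn' : n / p ≠ 0 :=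
          (Nat.div_pos (Nat.le_of_dvd (Nat.pos_of_ne_zero hn) hd) hp.pos).ne'
        rw [if_pos hd] at this ⊢
        rw [this, if_neg hn']
        push_cast
        ring
      · rw [if_neg hd] at this ⊢
        rw [this]
        push_cast
        ring
  rw [hs] at h2
  refine h2.congr fun τ => ?_
  simp only [eisTwo, Pi.sub_apply, Pi.smul_apply, atkinGL_slash_apply 2 _ hpos, det_atkinDiag]
  simp [atkinDiag, mul_comm]

lemma isLevel_eisTwo (hp : p.Prime) : IsLevel p 2 (eisTwo p) := by
  have hp' : (p : ℂ) ≠ 0 := by exact_mod_cast hp.ne_zero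
  have hpos : 0 < (atkinDiag p).det := by rw [det_atkinDiag]; exact_mod_cast hp.pos
  refine ⟨atkinInvariant_iff_atkinGL.mpr fun γ h1 h2 => ?_,
    (E2_mdifferentiable.slash 2 _).sub E2_mdifferentiable, ⟨_, isQExp_eisTwo hp⟩, ?_⟩
  · obtain ⟨c, hc⟩ := h2
    have hfac : atkinDiag p * γ = !![γ 0 0, (p : ℤ) * γ 0 1; c, γ 1 1] * atkinDiag p := by
      ext a b
      fin_cases a <;> fin_cases b <;>
        simp [atkinDiag, Matrix.mul_apply, Fin.sum_univ_two, hc] <;> ring
    have hd' : (!![γ 0 0, (p : ℤ) * γ 0 1; c, γ 1 1] : M₂).det = 1 := by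
      rw [Matrix.det_fin_two_of, ← h1, Matrix.det_fin_two, hc]
      ring
    rw [eisTwo, sub_eq_add_neg, SlashAction.add_slash, SlashAction.neg_slash,
      ← SlashAction.slash_mul, ← atkinGL_mul hpos.ne' (by rw [h1]; exact one_ne_zero), hfac,
      atkinGL_mul (by rw [hd']; exact one_ne_zero) hpos.ne', SlashAction.slash_mul]
    funext τ
    rw [Pi.add_apply, Pi.neg_apply, atkinGL_slash_apply 2 _ hpos, E2_slash_mat hd',
      E2_slash_mat h1, Pi.add_apply, Pi.neg_apply, atkinGL_slash_apply 2 _ hpos,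
      coe_atkinGL_smul hpos, det_atkinDiag]
    have hden : ((γ 1 0 : ℂ)) * (τ : ℂ) + (γ 1 1 : ℂ) ≠ 0 := by
      have := UpperHalfPlane.denom_ne_zero
        (Matrix.SpecialLinearGroup.mapGL ℝ (⟨γ, h1⟩ : SL(2, ℤ))) τ
      simpa [UpperHalfPlane.denom] using this
    rw [hc] at hden
    simp [atkinDiag, hc]
    push_cast at hden
    rw [show (c : ℂ) * ((p : ℂ) * τ) = (p : ℂ) * c * τ by ring]
    field_simp
    ring
  · have hfac : atkinDiag p * invTrans 0 = invTrans 0 * !![1, 0; 0, (p : ℤ)] := by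
      ext a b
      fin_cases a <;> fin_cases b <;>
        simp [atkinDiag, invTrans, Matrix.mul_apply, Fin.sum_univ_two]
    have hd : 0 < (!![1, 0; 0, (p : ℤ)] : M₂).det := by
      simp [Matrix.det_fin_two_of, hp.pos]
    have h := isQExp_E2.divide hp.ne_zero (g := fun τ => E2 (atkinGL !![1, 0; 0, (p : ℤ)] • τ))
      (fun τ τ' h => by
        congr 1
        apply UpperHalfPlane.ext
        rw [coe_atkinGL_smul hd, ← h]
        simp [hp'])
    have hb := isQExp_E2.expand hp.ne_zero
    rw [one_mul] at h hb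
    refine ⟨_, ((h.smul (p : ℂ)⁻¹).sub hb).congr fun τ => ?_⟩
    rw [slashInv, eisTwo, sub_eq_add_neg (E2 ∣[(2 : ℤ)] atkinGL (atkinDiag p)),
      SlashAction.add_slash, SlashAction.neg_slash, ← SlashAction.slash_mul,
      ← atkinGL_mul hpos.ne' (by simp [det_invTrans]), hfac,
      atkinGL_mul (by simp [det_invTrans]) hd.ne', SlashAction.slash_mul]
    rw [Pi.sub_apply, Pi.add_apply, Pi.neg_apply, atkinGL_slash_apply 2 _ hd,
      E2_slash_mat (det_invTrans 0), E2_slash_mat (det_invTrans 0), coe_atkinGL_smul hd]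
    simp [invTrans, Matrix.det_fin_two_of]
    have hτ : (τ : ℂ) ≠ 0 := τ.ne_zero
    field_simp
    ring

variable {M : ℕ} (C : EisensteinCongruence p M)

namespace EisensteinCongruence

/-- `24` times (Eisenstein series minus the congruent cusp form). -/
def diff : ℍ → ℂ := eisTwo p - (24 : ℂ) • ⇑C.form

/-- Its series. -/
def diffSeries : PowerSeries ℤ := eisTwoSeries p - (24 : ℤ) • PowerSeries.mk C.coeff

/-- The series of `-U_p`. -/
def diffSeriesInv : PowerSeries ℤ := PowerSeries.mk fun n => -PowerSeries.coeff (p * n) C.diffSeries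

lemma isLevel_diff (hp : p.Prime) : IsLevel p 2 C.diff := by
  have : NeZero p := ⟨hp.ne_zero⟩
  exact (isLevel_eisTwo hp).sub ((IsLevel.of_modularForm C.form).smul 24)

lemma isQExp_diff (hp : p.Prime) : IsQExp 1 C.diff (C.diffSeries.map (Int.castRingHom ℂ)) := by
  have : NeZero p := ⟨hp.ne_zero⟩
  have hf : IsQExp 1 C.form ((PowerSeries.mk C.coeff).map (Int.castRingHom ℂ)) := by
    convert isQExp_qExpansion_one C.form
      (CongruenceSubgroup.one_mem_strictPeriods_Gamma0 p) using 1
    ext n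
    rw [coeff_map, coeff_mk, eq_intCast, ← C.coeff_spec]
    rfl
  have h := (isQExp_eisTwo hp).sub (hf.smul (24 : ℂ))
  convert h using 1
  · rfl
  · rw [diffSeries, map_sub]
    congr 1
    ext n
    rw [map_zsmul (PowerSeries.map (Int.castRingHom ℂ)), map_zsmul, PowerSeries.coeff_smul,
      zsmul_eq_mul, smul_eq_mul]
    norm_num

lemma isQExp_slashInv_diff (hp : p.Prime) :
    IsQExp p (slashInv 2 C.diff) ((p : ℂ)⁻¹ • C.diffSeriesInv.map (Int.castRingHom ℂ)) := by
  have hp' : (p : ℂ) ≠ 0 := by exact_mod_cast hp.ne_zero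
  obtain ⟨b, hb⟩ := (C.isLevel_diff hp).ser_inv
  convert hb using 1
  ext n
  have h := (C.isLevel_diff hp).coeff_slashInv_two hp (C.isQExp_diff hp) hb n
  rw [PowerSeries.coeff_smul, coeff_map, diffSeriesInv, coeff_mk, smul_eq_mul]
  rw [coeff_map] at h
  rw [eq_intCast] at h ⊢
  push_cast
  rw [← h]
  field_simp

lemma diffSeries_eq_C {S : Type*} [CommRing S] (φ : ℤ →+* S) (hm : φ (24 * M) = 0) :
    C.diffSeries.map φ = PowerSeries.C (φ ((p : ℤ) - 1)) := by
  ext n
  rw [coeff_map, PowerSeries.coeff_C, diffSeries, eisTwoSeries, map_sub, map_zsmul,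
    coeff_mk, coeff_mk]
  rcases eq_or_ne n 0 with rfl | hn
  · have h0 : C.coeff 0 = 0 := by
      have := C.coeff_spec 0
      rw [Eigen.qCoeff_index_zero] at this
      exact_mod_cast this.symm
    simp [h0]
  · rw [if_neg hn, if_neg hn]
    obtain ⟨d, hd⟩ := C.congr n (Nat.pos_of_ne_zero hn)
    rw [smul_eq_mul, ← mul_sub, show (sigmaAway p n : ℤ) - C.coeff n = -(M * d) by linarith,
      show (24 : ℤ) * -((M : ℤ) * d) = -d * (24 * M) by ring, map_mul, hm, mul_zero]

lemma diffSeriesInv_eq_C {S : Type*} [CommRing S] (φ : ℤ →+* S) (hm : φ (24 * M) = 0)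
    (hp : p.Prime) : C.diffSeriesInv.map φ = PowerSeries.C (-φ ((p : ℤ) - 1)) := by
  ext n
  have h := congrArg (PowerSeries.coeff (p * n)) (C.diffSeries_eq_C φ hm)
  rw [coeff_map] at h
  rw [coeff_map, diffSeriesInv, coeff_mk, map_neg, h, PowerSeries.coeff_C, PowerSeries.coeff_C]
  rcases eq_or_ne n 0 with rfl | hn
  · simp
  · rw [if_neg (mul_ne_zero hp.ne_zero hn), if_neg hn, neg_zero]

end EisensteinCongruence

end Fermat.Agent.Eisenstein
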