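import Fermat.Agent.Eisenstein.UpperEisenstein

/-!
# Traces of `H^j A(p z)` and the congruences they give
-/

set_option autoImplicit false
set_option maxHeartbeats 400000

noncomputable section

open PowerSeries Fermat.Agent.Newform
open scoped MatrixGroups ModularForm ArithmeticFunction.sigma

namespace Fermat.Agent.Eisenstein

variable {p M : ℕ}

local notation "ι" => Int.castRingHom ℂ

/-- The series of `p^(k+j-1) Tr (H^j A(p z))`, from the series of `H`, of `-U_p H` and of `A`. -/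
def traceSeries (hp : p ≠ 0) (j k : ℕ) (h v a : PowerSeries ℤ) : PowerSeries ℤ :=
  ((p : ℤ) ^ (k + j - 1)) • (h ^ j * PowerSeries.expand p hp a) +
    PowerSeries.mk fun n => coeff (p * n) (v ^ j * a)

lemma levelOneSeries_trace (cg : EisensteinCongruence p M) (hp : p.Prime) (j k : ℕ)
    (hjk : 1 ≤ k + j) {a : PowerSeries ℤ} (ha : LevelOneSeries ι k a) :
    LevelOneSeries ι ((k + 2 * j : ℕ) : ℤ)
      (traceSeries hp.ne_zero j k cg.diffSeries cg.diffSeriesInv a) := by
  have : NeZero p := ⟨hp.ne_zero⟩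
  have hp' : (p : ℂ) ≠ 0 := by exact_mod_cast hp.ne_zero
  obtain ⟨A, hA⟩ := ha
  obtain ⟨hAl, hAi⟩ := isLevel_scaleArg (p := p) A hA
  have hH := cg.isLevel_diff hp
  have hlev : IsLevel p ((k + 2 * j : ℕ) : ℤ) (cg.diff ^ j * scaleArg p k A) := by
    rw [show ((k + 2 * j : ℕ) : ℤ) = (j : ℤ) * 2 + k by push_cast; ring]
    exact (hH.pow j).mul hAl
  have h1 := ((cg.isQExp_diff hp).pow j).mul (isQExp_scaleArg (p := p) (k := (k : ℤ)) hA)
  have hpow : ∀ i : ℕ, IsQExp p (slashInv ((i : ℤ) * 2) (cg.diff ^ i))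
      (((p : ℂ)⁻¹ • cg.diffSeriesInv.map ι) ^ i) := fun i => by
    induction i with
    | zero =>
      have h0 : slashInv ((0 : ℕ) * 2 : ℤ) (cg.diff ^ 0) = 1 := by
        rw [pow_zero, slashInv, Nat.cast_zero, zero_mul]
        funext τ
        rw [atkinGL_slash_apply 0 _ (by rw [det_invTrans]; exact one_pos), det_invTrans]
        simp
      rw [h0, pow_zero]
      exact IsQExp.one
    | succ i ih =>
      rw [show ((i + 1 : ℕ) : ℤ) * 2 = (i : ℤ) * 2 + 2 by push_cast; ring, pow_succ, slashInv_mul,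
        pow_succ]
      exact ih.mul (cg.isQExp_slashInv_diff hp)
  have h2 : IsQExp p (slashInv ((k + 2 * j : ℕ) : ℤ) (cg.diff ^ j * scaleArg p k A))
      (((p : ℂ)⁻¹ • cg.diffSeriesInv.map ι) ^ j * ((p : ℂ) ^ (-(k : ℤ)) • a.map ι)) := by
    rw [show ((k + 2 * j : ℕ) : ℤ) = (j : ℤ) * 2 + k by push_cast; ring, slashInv_mul]
    exact (hpow j).mul hAi
  obtain ⟨F, hF, hFs⟩ := hlev.exists_trace hp h1 h2
  refine ⟨((p : ℂ) ^ (k + j - 1)) • F, ?_⟩
  convert hFs.smul ((p : ℂ) ^ (k + j - 1)) using 1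
  · rfl
  · ext n
    simp only [traceSeries, map_add, smul_pow, smul_mul_assoc, mul_smul_comm, smul_smul, smul_add,
      coeff_map, coeff_mk, PowerSeries.coeff_smul, smul_eq_mul, ← map_pow, ← map_mul,
      ← PowerSeries.map_expand, map_zsmul, eq_intCast, Int.cast_mul, Int.cast_pow,
      Int.cast_natCast]
    congr 1
    · simp [smul_eq_mul]
    rw [zpow_neg, zpow_natCast, inv_pow]
    have hexp : (p : ℂ) ^ (k + j - 1) * p = (p : ℂ) ^ k * (p : ℂ) ^ j := by
      rw [← pow_succ, Nat.sub_add_cancel hjk, pow_add]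
    field_simp
    linear_combination -((coeff (p * n) (cg.diffSeriesInv ^ j * a) : ℤ) : ℂ) * hexp

/-- The trace series when both series of `H` are constant. -/
lemma coeff_traceSeries_of_const {S : Type*} [CommRing S] (φ : ℤ →+* S) (hp : p ≠ 0) (j k : ℕ)
    {h v a : PowerSeries ℤ} {x y : S} (hh : h.map φ = PowerSeries.C x)
    (hv : v.map φ = PowerSeries.C y) (n : ℕ) :
    φ (coeff n (traceSeries hp j k h v a)) =
      φ p ^ (k + j - 1) * x ^ j * (if p ∣ n then φ (coeff (n / p) a) else 0) +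
        y ^ j * φ (coeff (p * n) a) := by
  have h1 : coeff n ((h ^ j * PowerSeries.expand p hp a).map φ) =
      x ^ j * (if p ∣ n then φ (coeff (n / p) a) else 0) := by
    rw [map_mul, map_pow, hh, ← map_pow, PowerSeries.map_expand, coeff_C_mul,
      PowerSeries.coeff_expand]
    simp [coeff_map]
  have h2 : coeff (p * n) ((v ^ j * a).map φ) = y ^ j * φ (coeff (p * n) a) := by
    rw [map_mul, map_pow, hv, ← map_pow, coeff_C_mul, coeff_map]
  rw [coeff_map] at h1 h2
  rw [traceSeries, map_add, map_add, map_zsmul, coeff_mk, map_zsmul, h2, zsmul_eq_mul, h1]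
  simp [mul_assoc]

variable (cg : EisensteinCongruence p M)

/-- The trace series of `C` mod `m ∣ 24 M`. -/
lemma coeff_traceSeries_mod {m : ℕ} (hm : m ∣ 24 * M) (hp : p.Prime) (j k : ℕ)
    (a : PowerSeries ℤ) (n : ℕ) :
    ((coeff n (traceSeries hp.ne_zero j k cg.diffSeries cg.diffSeriesInv a) : ℤ) : ZMod m) =
      ((p : ZMod m) - 1) ^ j *
        ((p : ZMod m) ^ (k + j - 1) * (if p ∣ n then ((coeff (n / p) a : ℤ) : ZMod m) else 0) +
          (-1) ^ j * ((coeff (p * n) a : ℤ) : ZMod m)) := by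
  have h0 : (Int.castRingHom (ZMod m)) (24 * M) = 0 := by
    have := (ZMod.natCast_eq_zero_iff _ m).mpr hm
    simpa using this
  have := coeff_traceSeries_of_const (Int.castRingHom (ZMod m)) hp.ne_zero j k (a := a)
    (cg.diffSeries_eq_C _ h0) (cg.diffSeriesInv_eq_C _ h0 hp) n
  simp only [eq_intCast] at this
  rw [this]
  push_cast
  rw [neg_pow]
  ring

lemma levelOne_series_eq_smul {k : ℤ} (hk : k = 6 ∨ k = 14) {a b : PowerSeries ℤ}
    (ha : LevelOneSeries ι k a) (hb : LevelOneSeries ι k b) (hb0 : constantCoeff b = 1) :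
    a = constantCoeff a • b := by
  have h0 : constantCoeff (a - constantCoeff a • b) = 0 := by simp [hb0]
  obtain ⟨c, hc, hcd⟩ :=
    LevelOneSeries.exists_dSeries_mul (Int.cast_injective) (ha.sub (hb.smul _)) h0
  refine sub_eq_zero.mp (hcd.trans ?_)
  rw [hc.eq_zero Int.cast_injective (by omega), mul_zero]

include cg in
/-- From the discriminant: `24 M ∣ (p - 1) p^11 (p + 1)`. -/
theorem dvd_of_discriminant (hp : p.Prime) :
    ((24 * M : ℕ) : ℤ) ∣ ((p : ℤ) - 1) * (p : ℤ) ^ 11 * ((p : ℤ) + 1) := by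
  have : NeZero p := ⟨hp.ne_zero⟩
  have hι : Function.Injective (ι) := Int.cast_injective
  have hd : LevelOneSeries ι ((12 : ℕ) : ℤ) (dSeries ℤ) := LevelOneSeries.dSeries_mem
  have hG := levelOneSeries_trace cg hp 1 12 (by norm_num) hd
  have hB := levelOneSeries_trace cg hp 0 12 (by norm_num) hd
  have hd0 : coeff (0 / p) (dSeries ℤ) = 0 := by rw [Nat.zero_div, coeff_zero_dSeries]
  have hd0' : coeff (p * 0) (dSeries ℤ) = 0 := by rw [mul_zero, coeff_zero_dSeries]
  have hG0 : constantCoeff (traceSeries hp.ne_zero 1 12 cg.diffSeries cg.diffSeriesInv (dSeries ℤ))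
      = 0 := by
    rw [← coeff_zero_eq_constantCoeff_apply, traceSeries, map_add, map_zsmul, coeff_mk, mul_zero,
      coeff_zero_eq_constantCoeff_apply, coeff_zero_eq_constantCoeff_apply, map_mul, map_mul,
      PowerSeries.constantCoeff_expand, ← coeff_zero_eq_constantCoeff_apply (φ := dSeries ℤ),
      coeff_zero_dSeries]
    simp
  obtain ⟨b, hb, hGb⟩ := LevelOneSeries.exists_dSeries_mul hι hG hG0
  have hGz : traceSeries hp.ne_zero 1 12 cg.diffSeries cg.diffSeriesInv (dSeries ℤ) = 0 := by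
    rw [hGb, hb.eq_zero hι (Or.inr (Or.inr (by norm_num))), mul_zero]
  have hB0 : constantCoeff (traceSeries hp.ne_zero 0 12 cg.diffSeries cg.diffSeriesInv (dSeries ℤ))
      = 0 := by
    rw [← coeff_zero_eq_constantCoeff_apply, traceSeries, map_add, map_zsmul, coeff_mk, pow_zero,
      pow_zero, one_mul, one_mul, mul_zero, PowerSeries.coeff_expand, if_pos (dvd_zero p), hd0,
      coeff_zero_dSeries]
    simp
  obtain ⟨u, hu, hBu⟩ := LevelOneSeries.exists_dSeries_mul hι hB hB0
  have hu' := (hu.congr (show ((12 + 2 * 0 : ℕ) : ℤ) - 12 = 0 by norm_num)).eq_const hι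
  have hco : ∀ n, (p : ℤ) ^ 11 * (if p ∣ n then coeff (n / p) (dSeries ℤ) else 0) +
      coeff (p * n) (dSeries ℤ) = coeff p (dSeries ℤ) * coeff n (dSeries ℤ) := by
    have hn : ∀ n, (p : ℤ) ^ 11 * (if p ∣ n then coeff (n / p) (dSeries ℤ) else 0) +
        coeff (p * n) (dSeries ℤ) = constantCoeff u * coeff n (dSeries ℤ) := fun n => by
      have := congrArg (coeff n) hBu
      rw [hu', mul_comm (dSeries ℤ), coeff_C_mul, traceSeries, map_add, map_zsmul, coeff_mk,
        pow_zero, pow_zero, one_mul, one_mul, PowerSeries.coeff_expand] at this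
      simpa using this
    have h1 := hn 1
    rw [coeff_one_dSeries, mul_one, mul_one, if_neg hp.not_dvd_one, mul_zero, zero_add] at h1
    intro n
    rw [hn n, h1]
  have hpp := hco p
  rw [if_pos dvd_rfl, Nat.div_self hp.pos, coeff_one_dSeries, mul_one] at hpp
  rw [← ZMod.intCast_zmod_eq_zero_iff_dvd]
  have h1 := coeff_traceSeries_mod cg (dvd_refl (24 * M)) hp 1 12 (dSeries ℤ) 1
  have h2 := coeff_traceSeries_mod cg (dvd_refl (24 * M)) hp 1 12 (dSeries ℤ) p
  simp only [hGz, map_zero, Int.cast_zero, if_neg hp.not_dvd_one, mul_one, if_pos (dvd_refl p),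
    Nat.div_self hp.pos, coeff_one_dSeries, Int.cast_one, pow_one, mul_zero, zero_add] at h1 h2
  have h3 := congrArg (Int.cast (R := ZMod (24 * M))) hpp
  push_cast at h3 h2 h1 ⊢
  linear_combination -h2 + ((p : ZMod (24 * M)) - 1) * h3
    + ((coeff p (dSeries ℤ) : ℤ) : ZMod (24 * M)) * h1

include cg in
/-- The level `p` does not divide the modulus. -/
theorem not_dvd_modulus (hp : p.Prime) (h5 : 5 ≤ p) : ¬ p ∣ M := by
  intro hpM
  have : NeZero p := ⟨hp.ne_zero⟩
  have hq : LevelOneSeries ι ((4 : ℕ) : ℤ) (qSeries ℤ) := LevelOneSeries.qSeries_mem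
  have hG := levelOneSeries_trace cg hp 1 4 (by norm_num) hq
  have hr : LevelOneSeries ι ((4 + 2 * 1 : ℕ) : ℤ) (rSeries ℤ) := LevelOneSeries.rSeries_mem
  have hGr := levelOne_series_eq_smul (Or.inl (by norm_num)) hG hr constantCoeff_rSeries
  have key : ∀ n, ((coeff n (traceSeries hp.ne_zero 1 4 cg.diffSeries cg.diffSeriesInv (qSeries ℤ)) :
      ℤ) : ZMod p) = ((coeff (p * n) (qSeries ℤ) : ℤ) : ZMod p) := fun n => by
    rw [coeff_traceSeries_mod cg (dvd_mul_of_dvd_right hpM 24) hp]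
    simp
  have hc : ((constantCoeff (traceSeries hp.ne_zero 1 4 cg.diffSeries cg.diffSeriesInv (qSeries ℤ)) :
      ℤ) : ZMod p) = 1 := by
    rw [← coeff_zero_eq_constantCoeff_apply, key]
    simp [constantCoeff_qSeries]
  have hn : ∀ n, n ≠ 0 →
      (240 : ZMod p) * (σ 3 (p * n) : ℕ) = -504 * (σ 5 n : ℕ) := fun n hn => by
    have h := congrArg (fun a => ((coeff n a : ℤ) : ZMod p)) hGr
    simp only [map_zsmul, PowerSeries.coeff_smul, smul_eq_mul, Int.cast_mul, key, hc, one_mul] at h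
    simp only [qSeries, rSeries, map_add, map_sub, PowerSeries.coeff_smul, coeff_divSeries,
      coeff_one, hn, mul_ne_zero hp.ne_zero hn, if_false, zero_add, zero_sub, smul_eq_mul] at h
    push_cast at h
    linear_combination h
  have hσp : ((σ 3 p : ℕ) : ZMod p) = 1 := by
    rw [ArithmeticFunction.sigma_apply, hp.sum_divisors]
    simp
  have h1 := hn 1 one_ne_zero
  rw [mul_one, hσp, ArithmeticFunction.sigma_one, mul_one, Nat.cast_one, mul_one] at h1
  have h2 := hn 2 two_ne_zero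
  have hcop : Nat.Coprime p 2 :=
    (Nat.coprime_primes hp Nat.prime_two).mpr (by omega)
  rw [ArithmeticFunction.isMultiplicative_sigma.map_mul_of_coprime hcop, Nat.cast_mul, hσp,
    ArithmeticFunction.sigma_apply, ArithmeticFunction.sigma_apply, Nat.prime_two.sum_divisors,
    Nat.prime_two.sum_divisors] at h2
  norm_num at h1 h2
  have h744 : ((744 : ℕ) : ZMod p) = 0 := by
    push_cast
    linear_combination h1
  have h18792 : ((18792 : ℕ) : ZMod p) = 0 := by
    push_cast
    linear_combination h2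
  rw [ZMod.natCast_eq_zero_iff] at h744 h18792
  have h24 : p ∣ Nat.gcd 744 18792 := Nat.dvd_gcd h744 h18792
  rw [show Nat.gcd 744 18792 = 2 ^ 3 * 3 by decide +kernel] at h24
  rcases hp.dvd_mul.mp h24 with h | h
  · have := Nat.le_of_dvd (by norm_num) (hp.dvd_of_dvd_pow h)
    omega
  · have := Nat.le_of_dvd (by norm_num) h
    omega

include cg in
/-- `24 M ∣ (p - 1) (p + 1)`. -/
theorem dvd_sq_sub_one (hp : p.Prime) (h5 : 5 ≤ p) :
    ((24 * M : ℕ) : ℤ) ∣ ((p : ℤ) - 1) * ((p : ℤ) + 1) := by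
  have hcop : Nat.Coprime (24 * M) (p ^ 11) := by
    refine Nat.Coprime.pow_right _ ((hp.coprime_iff_not_dvd.mpr fun h => ?_).symm)
    rcases hp.dvd_mul.mp h with h | h
    · rw [show (24 : ℕ) = 2 ^ 3 * 3 by norm_num] at h
      rcases hp.dvd_mul.mp h with h | h
      · have := Nat.le_of_dvd (by norm_num) (hp.dvd_of_dvd_pow h)
        omega
      · have := Nat.le_of_dvd (by norm_num) h
        omega
    · exact not_dvd_modulus cg hp h5 h
  have h := dvd_of_discriminant cg hp
  rw [show ((p : ℤ) - 1) * (p : ℤ) ^ 11 * ((p : ℤ) + 1) =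
    ((p : ℤ) - 1) * ((p : ℤ) + 1) * ((p ^ 11 : ℕ) : ℤ) by push_cast; ring] at h
  exact (Nat.isCoprime_iff_coprime.mpr hcop).dvd_of_dvd_mul_right h

/-- Modulo `m ∣ gcd (24 M, p + 1)` the traces form a geometric progression. -/
theorem coeff_traceSeries_geom {m : ℕ} (hm : m ∣ 24 * M) (hm1 : m ∣ p + 1) (hp : p.Prime)
    (j : ℕ) {k : ℕ} (hk : Even k) (hk1 : 1 ≤ k) (a : PowerSeries ℤ) (n : ℕ) :
    ((coeff n (traceSeries hp.ne_zero j k cg.diffSeries cg.diffSeriesInv a) : ℤ) : ZMod m) =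
      2 ^ j * ((coeff (p * n) a : ℤ) -
        (if p ∣ n then ((coeff (n / p) a : ℤ) : ZMod m) else 0)) := by
  rw [coeff_traceSeries_mod cg hm hp]
  have hp1 : (p : ZMod m) = -1 := by
    have := (ZMod.natCast_eq_zero_iff _ m).mpr hm1
    push_cast at this
    linear_combination this
  rw [hp1]
  have hs : ((-1 : ZMod m)) ^ (k + j - 1) = -(-1) ^ j := by
    obtain ⟨r, rfl⟩ := hk
    rw [show r + r + j - 1 = j + (2 * (r - 1) + 1) by omega, pow_add, pow_succ, pow_mul]
    simp
  rw [hs, show (-1 - 1 : ZMod m) = -1 * 2 by ring, mul_pow]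
  have hsq : ((-1 : ZMod m) ^ j) * (-1) ^ j = 1 := by rw [← mul_pow]; simp
  linear_combination (2 ^ j * (((coeff (p * n) a : ℤ) : ZMod m) -
    (if p ∣ n then ((coeff (n / p) a : ℤ) : ZMod m) else 0))) * hsq

end Fermat.Agent.Eisenstein
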