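import Mathlib.RingTheory.Polynomial.UniqueFactorization
import Mathlib.RingTheory.UniqueFactorizationDomain.Multiplicity
import Fermat.Agent.Eisenstein.UpperTraceSeries

/-!
# Two weights differing by two
-/

set_option autoImplicit false
set_option maxHeartbeats 400000

noncomputable section

open scoped ArithmeticFunction.sigma

namespace Fermat.Agent.Eisenstein

open PowerSeries (coeff constantCoeff map)

/-- If all `b ^ n` divide `a ^ (n + 1)` then `b` divides `a`. -/
lemma dvd_of_pow_dvd_pow_succ {R : Type*} [CommRing R] [IsDomain R] [UniqueFactorizationMonoid R]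
    {a b : R} (hb : b ≠ 0) (h : ∀ n : ℕ, b ^ n ∣ a ^ (n + 1)) : b ∣ a := by
  obtain ⟨a', b', c, hrel, rfl, rfl⟩ := UniqueFactorizationMonoid.exists_reduced_factors' a b hb
  obtain ⟨hc, hb'⟩ := mul_ne_zero_iff.mp hb
  by_cases hu : IsUnit b'
  · exact mul_dvd_mul_left c hu.dvd
  exfalso
  obtain ⟨n, hn⟩ := FiniteMultiplicity.of_not_isUnit hu hc
  apply hn
  have h1 := h (n + 1)
  rw [mul_pow, mul_pow, pow_succ c (n + 1), mul_assoc] at h1
  have h2 : b' ^ (n + 1) ∣ c * a' ^ (n + 1 + 1) :=
    (mul_dvd_mul_iff_left (pow_ne_zero _ hc)).mp h1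
  exact hrel.symm.pow.dvd_of_dvd_mul_right h2

section Graded

open Polynomial

variable {F : Type*} [Field F]

/-- Evaluation of a polynomial in two weighted variables at the two Eisenstein series. -/
def gradedEval (F : Type*) [Field F] :
    Polynomial (Polynomial F) →+* Polynomial (PowerSeries F) :=
  eval₂RingHom (aeval (Polynomial.C (rSeries F) * X ^ 6)).toRingHom
    (Polynomial.C (qSeries F) * X ^ 4)

lemma gradedEval_X : gradedEval F X = Polynomial.C (qSeries F) * X ^ 4 := by
  simp [gradedEval]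

lemma gradedEval_C (P : Polynomial F) :
    gradedEval F (Polynomial.C P) = aeval (Polynomial.C (rSeries F) * X ^ 6) P := by
  simp [gradedEval]

lemma gradedEval_C_X : gradedEval F (Polynomial.C X) = Polynomial.C (rSeries F) * X ^ 6 := by
  rw [gradedEval_C, aeval_X]

lemma gradedEval_C_C (s : F) :
    gradedEval F (Polynomial.C (Polynomial.C s)) = Polynomial.C (PowerSeries.C s) := by
  rw [gradedEval_C, aeval_C]
  rfl

/-- The polynomial giving the discriminant. -/
def deltaPoly (F : Type*) [Field F] : Polynomial (Polynomial F) := X ^ 3 - Polynomial.C (X ^ 2)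

lemma deltaPoly_monic : (deltaPoly F).Monic := monic_X_pow_sub_C _ three_ne_zero

lemma deltaPoly_natDegree : (deltaPoly F).natDegree = 3 := natDegree_X_pow_sub_C

lemma gradedEval_deltaPoly :
    gradedEval F (deltaPoly F) = Polynomial.C ((1728 : F) • dSeries F) * X ^ 12 := by
  rw [deltaPoly, map_sub, map_pow, gradedEval_X, map_pow Polynomial.C X 2, map_pow,
    gradedEval_C_X, dSeries_spec, map_sub, map_pow, map_pow]
  ring

/-- No monomial has degree two. -/
lemma coeff_two_gradedEval (P : Polynomial (Polynomial F)) : (gradedEval F P).coeff 2 = 0 := by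
  induction P using Polynomial.induction_on' with
  | add P Q hP hQ => rw [map_add, Polynomial.coeff_add, hP, hQ, add_zero]
  | monomial i P =>
    induction P using Polynomial.induction_on' with
    | add P Q hP hQ => rw [map_add, map_add, Polynomial.coeff_add, hP, hQ, add_zero]
    | monomial j s =>
      have h : gradedEval F (Polynomial.monomial i (Polynomial.monomial j s)) =
          Polynomial.C (PowerSeries.C s * rSeries F ^ j * qSeries F ^ i) *
            X ^ (4 * i + 6 * j) := by
        rw [← Polynomial.C_mul_X_pow_eq_monomial, map_mul, map_pow, gradedEval_X, gradedEval_C,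
          aeval_monomial, map_mul, map_mul, map_pow, map_pow, mul_pow, mul_pow, ← pow_mul,
          ← pow_mul, pow_add]
        rw [show algebraMap F (Polynomial (PowerSeries F)) s =
          Polynomial.C (PowerSeries.C s) from rfl]
        ring
      rw [h, Polynomial.coeff_C_mul_X_pow, if_neg (by omega)]

lemma eq_zero_of_constant_eval_eq_zero {r : Polynomial (Polynomial F)} (hr : r.natDegree < 3)
    (h : Polynomial.map (PowerSeries.constantCoeff (R := F)) (gradedEval F r) = 0) : r = 0 := by
  have hC : ∀ a : Polynomial F,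
      Polynomial.map (PowerSeries.constantCoeff (R := F)) (gradedEval F (Polynomial.C a)) = expand F 6 a := by
    intro a
    induction a using Polynomial.induction_on' with
    | add a b ha hb => rw [map_add, map_add, Polynomial.map_add, ha, hb, map_add]
    | monomial j s =>
      rw [gradedEval_C, aeval_monomial, Polynomial.map_mul, Polynomial.map_pow,
        Polynomial.map_mul, Polynomial.map_pow, Polynomial.map_X, Polynomial.map_C,
        constantCoeff_rSeries, map_one, one_mul, Polynomial.expand_monomial,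
        show algebraMap F (Polynomial (PowerSeries F)) s = Polynomial.C (PowerSeries.C s) from rfl,
        Polynomial.map_C, PowerSeries.constantCoeff_C, ← pow_mul,
        Polynomial.C_mul_X_pow_eq_monomial, mul_comm 6 j]
  rw [r.as_sum_range_C_mul_X_pow' hr] at h ⊢
  simp only [Finset.sum_range_succ, Finset.sum_range_zero, zero_add, map_add, map_mul, map_pow,
    gradedEval_X, Polynomial.map_add, Polynomial.map_mul, Polynomial.map_pow, Polynomial.map_X,
    Polynomial.map_C, hC, constantCoeff_qSeries, map_one, one_mul, ← pow_mul] at h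
  have key : ∀ (a : Polynomial F) (l i n : ℕ), l < 3 → i < 3 →
      (expand F 6 a * X ^ (4 * l)).coeff (6 * n + 4 * i) = if l = i then a.coeff n else 0 := by
    intro a l i n hl hi
    rw [Polynomial.coeff_mul_X_pow', Polynomial.coeff_expand (show 0 < 6 by norm_num)]
    split_ifs with h1 h2 h3 <;> first
      | rfl
      | omega
      | (congr 1; omega)
  have hzero : ∀ i, i < 3 → r.coeff i = 0 := fun i hi => by
    ext n
    have hn := congrArg (fun P => Polynomial.coeff P (6 * n + 4 * i)) h
    simp only [Polynomial.coeff_add, key _ _ i n (by norm_num : 0 < 3) hi,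
      key _ _ i n (by norm_num : 1 < 3) hi, key _ _ i n (by norm_num : 2 < 3) hi,
      Polynomial.coeff_zero] at hn
    interval_cases i <;> simpa using hn
  simp [Finset.sum_range_succ, hzero 0 (by norm_num), hzero 1 (by norm_num),
    hzero 2 (by norm_num)]

theorem gradedEval_injective (h : (1728 : F) ≠ 0) : Function.Injective (gradedEval F) := by
  rw [injective_iff_map_eq_zero]
  intro P
  induction hP : P.natDegree using Nat.strong_induction_on generalizing P with
  | _ n ih =>
  intro h0
  have hd0 : dSeries F ≠ 0 := fun h' => by simpa [h'] using coeff_one_dSeries (S := F)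
  have hd : gradedEval F (deltaPoly F) ≠ 0 := by
    rw [gradedEval_deltaPoly]
    refine mul_ne_zero ?_ (pow_ne_zero _ X_ne_zero)
    rw [Ne, Polynomial.C_eq_zero, smul_eq_zero, not_or]
    exact ⟨h, hd0⟩
  have hdiv := Polynomial.modByMonic_add_div P (deltaPoly F)
  have hr : P %ₘ deltaPoly F = 0 := by
    refine eq_zero_of_constant_eval_eq_zero ?_ ?_
    · have := Polynomial.natDegree_modByMonic_lt P (deltaPoly_monic (F := F))
        (fun h1 => by simpa [deltaPoly_natDegree] using congrArg Polynomial.natDegree h1)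
      rwa [deltaPoly_natDegree] at this
    · have h2 := congrArg (Polynomial.map (PowerSeries.constantCoeff (R := F))) (congrArg (gradedEval F) hdiv)
      rw [h0, map_add, map_mul, gradedEval_deltaPoly, Polynomial.map_add, Polynomial.map_mul,
        Polynomial.map_mul, Polynomial.map_C, PowerSeries.smul_eq_C_mul, map_mul,
        show PowerSeries.constantCoeff (dSeries F) = 0 by
          rw [← PowerSeries.coeff_zero_eq_constantCoeff_apply, coeff_zero_dSeries],
        mul_zero, map_zero, zero_mul, zero_mul, add_zero, Polynomial.map_zero] at h2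
      exact h2
  rw [hr, zero_add] at hdiv
  have hq : gradedEval F (P /ₘ deltaPoly F) = 0 := by
    have h3 := congrArg (gradedEval F) hdiv
    rw [map_mul, h0, mul_eq_zero] at h3
    exact h3.resolve_left hd
  by_cases hq0 : P /ₘ deltaPoly F = 0
  · rw [← hdiv, hq0, mul_zero]
  · refine absurd (ih _ ?_ _ rfl hq) hq0
    have := congrArg Polynomial.natDegree hdiv
    rw [deltaPoly_monic.natDegree_mul' hq0, deltaPoly_natDegree, hP] at this
    omega

/-- A series of weight `k` mod `ℓ` is graded: it comes from a homogeneous polynomial. -/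
def IsGraded (k : ℤ) (a : PowerSeries F) : Prop :=
  a = 0 ∨ 0 ≤ k ∧ ∃ P, gradedEval F P = Polynomial.C a * X ^ k.toNat

lemma isGraded_of_levelOneSeries (h : (1728 : F) ≠ 0) {k : ℤ} {a : PowerSeries ℤ}
    (ha : LevelOneSeries (Int.castRingHom ℂ) k a) :
    IsGraded k (PowerSeries.map (Int.castRingHom F) a) := by
  refine LevelOneSeries.induction_on (Int.cast_injective)
    (fun k a => IsGraded k (PowerSeries.map (Int.castRingHom F) a)) (fun k => Or.inl (map_zero _))
    (fun k a b ha hb => ?_) (fun s i j => ?_) (fun k a ha => ?_) ha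
  · rw [map_add]
    rcases ha with ha | ⟨hk, P, hP⟩
    · rwa [ha, zero_add]
    rcases hb with hb | ⟨-, Q, hQ⟩
    · rw [hb, add_zero]
      exact Or.inr ⟨hk, P, hP⟩
    exact Or.inr ⟨hk, P + Q, by rw [map_add, hP, hQ, map_add, add_mul]⟩
  · refine Or.inr ⟨by positivity, Polynomial.C (Polynomial.C (s : F) * X ^ j) * X ^ i, ?_⟩
    rw [show (4 * (i : ℤ) + 6 * j).toNat = 4 * i + 6 * j by omega, map_mul, map_pow,
      gradedEval_X, map_mul Polynomial.C, map_mul, gradedEval_C_C, map_pow Polynomial.C X, map_pow,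
      gradedEval_C_X, PowerSeries.smul_eq_C_mul, map_mul, PowerSeries.map_C,
      map_mul (PowerSeries.map _), map_pow (PowerSeries.map _), map_pow (PowerSeries.map _),
      map_qSeries, map_rSeries, eq_intCast, map_mul, map_mul, map_pow, map_pow, pow_add]
    ring
  · rcases ha with ha | ⟨hk, P, hP⟩
    · left
      rw [map_mul, ha, mul_zero]
    · refine Or.inr ⟨by omega, Polynomial.C (Polynomial.C (1728 : F)⁻¹) * deltaPoly F * P, ?_⟩
      rw [map_mul, map_mul, gradedEval_C_C, gradedEval_deltaPoly, hP,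
        show (k + 12).toNat = 12 + k.toNat by omega, map_mul (PowerSeries.map _), map_dSeries, pow_add,
        PowerSeries.smul_eq_C_mul, map_mul, map_mul]
      have hc : Polynomial.C (PowerSeries.C (1728 : F)⁻¹) * Polynomial.C (PowerSeries.C (1728 : F))
          = 1 := by rw [← map_mul, ← map_mul, inv_mul_cancel₀ h, map_one, map_one]
      linear_combination (Polynomial.C (dSeries F) * Polynomial.C (PowerSeries.map (Int.castRingHom F) a) *
        X ^ 12 * X ^ k.toNat) * hc

/-- No series occurs in all weights `k + 2 j` up to a geometric factor. -/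
theorem false_of_geometric (h : (1728 : F) ≠ 0) {k : ℕ} {b : PowerSeries F} (hb : b ≠ 0) {d : F}
    (hd : d ≠ 0) (hj : ∀ j : ℕ, IsGraded ((k + 2 * j : ℕ) : ℤ) (PowerSeries.C (d ^ j) * b)) :
    False := by
  have hP : ∀ j : ℕ, ∃ P, gradedEval F P =
      Polynomial.C (PowerSeries.C (d ^ j) * b) * X ^ (k + 2 * j) := fun j => by
    rcases hj j with h0 | ⟨-, P, hP⟩
    · refine absurd h0 (mul_ne_zero ?_ hb)
      simp [hd]
    · exact ⟨P, by rw [hP, Int.toNat_natCast]⟩
  choose P hP using hP
  have hb0 : P 0 ≠ 0 := fun h0 => by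
    have := hP 0
    rw [h0, map_zero, pow_zero, map_one, one_mul] at this
    exact mul_ne_zero (mt Polynomial.C_eq_zero.mp hb) (pow_ne_zero _ X_ne_zero) this.symm
  have hdvd : P 0 ∣ P 1 := dvd_of_pow_dvd_pow_succ hb0 fun n => by
    refine ⟨P (n + 1), gradedEval_injective h ?_⟩
    rw [map_mul, map_pow, map_pow, hP, hP, hP, pow_zero, map_one, one_mul, pow_one]
    simp only [map_mul, map_pow, mul_pow]
    ring
  obtain ⟨S, hS⟩ := hdvd
  have h2 := congrArg (gradedEval F) hS
  rw [map_mul, hP, hP, pow_zero, map_one, one_mul, mul_zero, add_zero, pow_one, mul_one,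
    map_mul, pow_add] at h2
  have h3 : gradedEval F S = Polynomial.C (PowerSeries.C d) * X ^ 2 := by
    refine mul_left_cancel₀ (mul_ne_zero (mt Polynomial.C_eq_zero.mp hb)
      (pow_ne_zero k X_ne_zero)) (h2.symm.trans ?_)
    ring
  have h4 := coeff_two_gradedEval S
  rw [h3, Polynomial.coeff_C_mul_X_pow, if_pos rfl] at h4
  exact hd (PowerSeries.C_injective (h4.trans (map_zero _).symm))

end Graded

variable {p M : ℕ}

lemma coeff_self_dSeries_pow {S : Type*} [CommRing S] (n : ℕ) :
    coeff n (dSeries S ^ n) = 1 := by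
  obtain ⟨u, -, hu⟩ := exists_dSeries_eq (S := S)
  have h1 := congrArg (coeff 1) hu
  rw [coeff_one_dSeries, PowerSeries.coeff_succ_X_mul,
    PowerSeries.coeff_zero_eq_constantCoeff_apply] at h1
  have h2 := PowerSeries.coeff_X_pow_mul (u ^ n) n 0
  rw [zero_add] at h2
  rw [hu, mul_pow, h2, PowerSeries.coeff_zero_eq_constantCoeff_apply, map_pow, ← h1, one_pow]

/-- A prime `ℓ ≥ 5` dividing `p + 1` does not divide the modulus. -/
theorem not_dvd_of_five_le (cg : EisensteinCongruence p M) (hp : p.Prime) {ℓ : ℕ} (hℓ : ℓ.Prime)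
    (h5 : 5 ≤ ℓ) (hℓp : ℓ ∣ p + 1) : ¬ ℓ ∣ M := by
  intro hℓM
  have : Fact ℓ.Prime := ⟨hℓ⟩
  have hsmall : ∀ m : ℕ, m ≠ 0 → m < 5 → ((m : ℕ) : ZMod ℓ) ≠ 0 := fun m hm0 hm h => by
    rw [ZMod.natCast_eq_zero_iff] at h
    have := Nat.le_of_dvd (Nat.pos_of_ne_zero hm0) h
    omega
  have h2 : (2 : ZMod ℓ) ≠ 0 := by simpa using hsmall 2 two_ne_zero (by norm_num)
  have h3 : (3 : ZMod ℓ) ≠ 0 := by simpa using hsmall 3 three_ne_zero (by norm_num)
  have h1728 : (1728 : ZMod ℓ) ≠ 0 := by
    rw [show (1728 : ZMod ℓ) = 2 ^ 6 * 3 ^ 3 by norm_num]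
    exact mul_ne_zero (pow_ne_zero _ h2) (pow_ne_zero _ h3)
  have hA : LevelOneSeries (Int.castRingHom ℂ) ((p * 12 : ℕ) : ℤ) (dSeries ℤ ^ p) :=
    (LevelOneSeries.dSeries_mem.pow p).congr (by push_cast; ring)
  let b : PowerSeries (ZMod ℓ) := PowerSeries.mk fun n =>
    ((coeff (p * n) (dSeries ℤ ^ p) : ℤ) : ZMod ℓ) -
      (if p ∣ n then ((coeff (n / p) (dSeries ℤ ^ p) : ℤ) : ZMod ℓ) else 0)
  refine false_of_geometric (F := ZMod ℓ) h1728 (k := p * 12) (b := b) (fun hb => ?_) h2 fun j => ?_
  · have h := congrArg (coeff 1) hb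
    simp [b, hp.ne_one, coeff_self_dSeries_pow] at h
  · have hG := levelOneSeries_trace cg hp j (p * 12) (by have := hp.two_le; omega) hA
    have hgr := isGraded_of_levelOneSeries (F := ZMod ℓ) h1728 hG
    have heq : map (Int.castRingHom (ZMod ℓ)) (traceSeries hp.ne_zero j (p * 12) cg.diffSeries
        cg.diffSeriesInv (dSeries ℤ ^ p)) = PowerSeries.C (2 ^ j) * b := by
      ext n
      rw [PowerSeries.coeff_map, PowerSeries.coeff_C_mul, PowerSeries.coeff_mk, eq_intCast,
        coeff_traceSeries_geom cg (dvd_mul_of_dvd_right hℓM 24) hℓp hp j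
          (Nat.even_mul.mpr (Or.inr (by decide))) (by have := hp.two_le; omega)]
    rw [heq] at hgr
    exact hgr

/-! ### Modulus divisible by three -/

lemma LevelOneSeries.isQExp_eight : IsQExp 1 (ModularForm.E (by norm_num : 3 ≤ 8))
    (1 + (480 : ℂ) • divSeries ℂ 7) := by
  convert isQExp_qExpansion_one (ModularForm.E (by norm_num : 3 ≤ 8))
    one_mem_strictPeriods_SL using 1
  ext n
  norm_num [EisensteinSeries.E_qExpansion_coeff _ ⟨4, rfl⟩, coeff_divSeries,
    show bernoulli 8 = -1 / 30 by decide +kernel, PowerSeries.coeff_one]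
  rcases eq_or_ne n 0 with rfl | hn <;> simp [*]

/-- `E₄² = E₈`. -/
lemma qSeries_sq : qSeries ℤ ^ 2 = 1 + (480 : ℤ) • divSeries ℤ 7 := by
  have h8 : LevelOneSeries (Int.castRingHom ℂ) 8 (1 + (480 : ℤ) • divSeries ℤ 7) := by
    refine ⟨ModularForm.E (by norm_num : 3 ≤ 8), ?_⟩
    convert LevelOneSeries.isQExp_eight using 1
    ext n
    simp only [PowerSeries.smul_eq_C_mul, map_add, map_one, zsmul_eq_mul, map_mul, map_intCast,
      map_divSeries, map_ofNat, Int.cast_ofNat]
  have h4 : LevelOneSeries (Int.castRingHom ℂ) 8 (qSeries ℤ ^ 2) :=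
    (LevelOneSeries.qSeries_mem.pow 2).congr (by norm_num)
  have h0 : constantCoeff (qSeries ℤ ^ 2 - (1 + (480 : ℤ) • divSeries ℤ 7)) = 0 := by
    rw [map_sub, map_pow, map_add, constantCoeff_qSeries, map_one, map_zsmul,
      constantCoeff_divSeries]
    simp
  obtain ⟨c, hc, hcd⟩ :=
    LevelOneSeries.exists_dSeries_mul Int.cast_injective (h4.sub h8) h0
  rw [← sub_eq_zero, hcd, hc.eq_zero Int.cast_injective (Or.inl (by norm_num)), mul_zero]

/-- `Δ ≡ Φ - Φ³ (mod 3)` for `Φ = ∑ σ₃(n) q^n`. -/
lemma dSeries_mod_three : dSeries (ZMod 3) = divSeries (ZMod 3) 3 - divSeries (ZMod 3) 3 ^ 3 := by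
  have hmix : map (Int.castRingHom (ZMod 3)) (PowerSeries.mk mixSum) + divSeries (ZMod 3) 3 ^ 2 =
      divSeries (ZMod 3) 3 := by
    have h := qSeries_sq
    have hz : (PowerSeries.C (120 : ℤ)) * divSeries ℤ 3 ^ 2 =
        divSeries ℤ 7 - divSeries ℤ 3 := by
      refine mul_left_cancel₀ (a := PowerSeries.C (480 : ℤ)) (by
        rw [Ne, ← map_zero (PowerSeries.C (R := ℤ)), PowerSeries.C_injective.eq_iff]
        norm_num) ?_
      simp only [qSeries, Algebra.smul_def, ← PowerSeries.algebraMap_apply] at h ⊢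
      simp only [PowerSeries.algebraMap_apply, map_ofNat] at h ⊢
      linear_combination h
    ext n
    rw [map_add, PowerSeries.coeff_map, PowerSeries.coeff_mk, coeff_divSeries]
    obtain ⟨s, hs⟩ : ∃ s : ℤ, coeff n (divSeries ℤ 3 ^ 2) = s := ⟨_, rfl⟩
    have hzn := congrArg (coeff n) hz
    rw [PowerSeries.coeff_C_mul, hs, map_sub, coeff_divSeries, coeff_divSeries] at hzn
    have hs' : coeff n (divSeries (ZMod 3) 3 ^ 2) = (s : ZMod 3) := by
      rw [← map_divSeries (Int.castRingHom (ZMod 3)), ← map_pow, PowerSeries.coeff_map, hs]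
      rfl
    rw [hs', eq_intCast, ← Int.cast_natCast (σ 3 n), ← Int.cast_add, ← sub_eq_zero, ← Int.cast_sub,
      ZMod.intCast_zmod_eq_zero_iff_dvd]
    have h9 : (9 : ℤ) ∣ 120 * (mixSum n + s - σ 3 n) := by
      have h12 := twelve_mul_mixSum n
      rw [show 120 * (mixSum n + s - (σ 3 n : ℤ)) =
        10 * (5 * (σ 3 n : ℤ) + 7 * (σ 5 n : ℤ)) + ((σ 7 n : ℤ) - σ 3 n) - 120 * σ 3 n by
          rw [← h12]; linear_combination hzn]
      simp only [ArithmeticFunction.sigma_apply, Nat.cast_sum, Finset.mul_sum,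
        ← Finset.sum_add_distrib, ← Finset.sum_sub_distrib]
      refine Finset.dvd_sum fun d _ => ?_
      have key : ∀ x : ZMod 9,
          10 * (5 * x ^ 3 + 7 * x ^ 5) + (x ^ 7 - x ^ 3) - 120 * x ^ 3 = 0 := by decide
      refine (ZMod.intCast_zmod_eq_zero_iff_dvd _ 9).mp ?_
      push_cast
      exact key _
    omega
  have hd : dSeries (ZMod 3) = map (Int.castRingHom (ZMod 3)) (PowerSeries.mk mixSum)
      + divSeries (ZMod 3) 3 ^ 2 + (2 : ZMod 3) • divSeries (ZMod 3) 3 ^ 3 := by
    rw [dSeries, show (100 : ZMod 3) = 1 by decide, show (8000 : ZMod 3) = 2 by decide,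
      show (147 : ZMod 3) = 0 by decide, one_smul, zero_smul, sub_zero]
    congr 2
  rw [hd, hmix, show (2 : ZMod 3) = -1 by decide, neg_smul, one_smul, sub_eq_add_neg]

lemma qSeries_mod_three : qSeries (ZMod 3) = 1 := by
  simp [qSeries, show (240 : ZMod 3) = 0 by decide]

lemma rSeries_mod_three : rSeries (ZMod 3) = 1 := by
  simp [rSeries, show (504 : ZMod 3) = 0 by decide]

lemma exists_polynomial_mod_three {k : ℤ} {a : PowerSeries ℤ}
    (ha : LevelOneSeries (Int.castRingHom ℂ) k a) :
    ∃ P : Polynomial (ZMod 3),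
      Polynomial.aeval (dSeries (ZMod 3)) P = map (Int.castRingHom (ZMod 3)) a := by
  refine LevelOneSeries.induction_on (Int.cast_injective) (fun _ a => ∃ P : Polynomial (ZMod 3),
      Polynomial.aeval (dSeries (ZMod 3)) P = map (Int.castRingHom (ZMod 3)) a)
    (fun _ => ⟨0, by simp⟩) ?_ (fun s i j => ?_) ?_ ha
  · rintro _ a b ⟨P, hP⟩ ⟨Q, hQ⟩
    exact ⟨P + Q, by rw [map_add, hP, hQ, map_add]⟩
  · refine ⟨Polynomial.C (s : ZMod 3), ?_⟩
    rw [Polynomial.aeval_C, PowerSeries.smul_eq_C_mul, map_mul, map_mul, PowerSeries.map_C, map_pow,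
      map_pow, map_qSeries, map_rSeries, qSeries_mod_three, rSeries_mod_three, one_pow, one_pow,
      one_mul, mul_one, eq_intCast]
    rfl
  · rintro _ a ⟨P, hP⟩
    exact ⟨Polynomial.X * P, by rw [map_mul, Polynomial.aeval_X, hP, map_mul, map_dSeries]⟩

lemma aeval_dSeries_injective {F : Type*} [Field F] {P : Polynomial F}
    (h : Polynomial.aeval (dSeries F) P = 0) : P = 0 := by
  induction hn : P.natDegree using Nat.strong_induction_on generalizing P with
  | _ n ih =>
  by_contra hP
  have h0 : P.coeff 0 = 0 := by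
    have := congrArg (constantCoeff (R := F)) h
    rw [Polynomial.aeval_def, Polynomial.hom_eval₂, map_zero,
      ← PowerSeries.coeff_zero_eq_constantCoeff_apply (φ := dSeries F), coeff_zero_dSeries,
      Polynomial.eval₂_at_zero] at this
    simpa using this
  obtain ⟨Q, rfl⟩ := Polynomial.X_dvd_iff.mpr h0
  rw [map_mul, Polynomial.aeval_X, mul_eq_zero] at h
  have hQ := h.resolve_left fun h' => by simpa [h'] using coeff_one_dSeries (S := F)
  have hQ0 : Q ≠ 0 := fun h' => hP (by rw [h', mul_zero])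
  refine hQ0 (ih _ ?_ hQ rfl)
  rw [← hn, Polynomial.natDegree_X_mul hQ0]
  exact Nat.lt_succ_self _

/-- If `9 ∣ p + 1` then `3` does not divide the modulus. -/
theorem not_three_dvd (cg : EisensteinCongruence p M) (hp : p.Prime) (h9 : 9 ∣ p + 1) :
    ¬ 3 ∣ M := by
  intro h3
  have hm : 9 ∣ 24 * M := by
    obtain ⟨c, rfl⟩ := h3
    exact ⟨8 * c, by ring⟩
  set ι := Int.castRingHom ℂ with hι
  have hA : LevelOneSeries ι ((p * 12 : ℕ) : ℤ) (dSeries ℤ ^ p) :=
    (LevelOneSeries.dSeries_mem.pow p).congr (by push_cast; ring)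
  have hk : Even (p * 12) := Nat.even_mul.mpr (Or.inr (by decide))
  have hk1 : 1 ≤ p * 12 := by have := hp.two_le; omega
  have h0 := levelOneSeries_trace cg hp 0 (p * 12) (by omega) hA
  have h1 := levelOneSeries_trace cg hp 1 (p * 12) (by omega) hA
  set a := traceSeries hp.ne_zero 0 (p * 12) cg.diffSeries cg.diffSeriesInv (dSeries ℤ ^ p)
  set g := traceSeries hp.ne_zero 1 (p * 12) cg.diffSeries cg.diffSeriesInv (dSeries ℤ ^ p)
  have hga : ∀ n, (9 : ℤ) ∣ coeff n g - 2 * coeff n a := fun n => by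
    rw [show (9 : ℤ) = ((9 : ℕ) : ℤ) by norm_num, ← ZMod.intCast_zmod_eq_zero_iff_dvd,
      Int.cast_sub, Int.cast_mul, coeff_traceSeries_geom cg hm h9 hp 1 hk hk1,
      coeff_traceSeries_geom cg hm h9 hp 0 hk hk1]
    push_cast
    ring
  choose w hw using hga
  have hg : g = (2 : ℤ) • a + (9 : ℤ) • PowerSeries.mk w := by
    ext n
    simp only [map_add, map_zsmul, PowerSeries.coeff_mk, smul_eq_mul]
    linarith [hw n]
  set W := a * ((160 : ℤ) • divSeries ℤ 3 + (336 : ℤ) • divSeries ℤ 5) +
    (3 : ℤ) • (qSeries ℤ * PowerSeries.mk w) with hW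
  have hZ : qSeries ℤ * g - (2 : ℤ) • (rSeries ℤ * a) = (3 : ℤ) • W := by
    rw [hW, hg, qSeries, rSeries]
    simp only [zsmul_eq_mul, smul_eq_mul]
    push_cast
    ring
  have hZmem : LevelOneSeries ι (((p * 12 : ℕ) : ℤ) + 6) (qSeries ℤ * g - (2 : ℤ) • (rSeries ℤ * a)) :=
    ((LevelOneSeries.qSeries_mem.mul h1).congr (by push_cast; ring)).sub
      (((LevelOneSeries.rSeries_mem.mul h0).congr (by push_cast; ring)).smul 2)
  have hWmem : LevelOneSeries ι (((p * 12 : ℕ) : ℤ) + 6) W := by
    obtain ⟨F, hF⟩ := hZmem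
    refine ⟨(3 : ℂ)⁻¹ • F, ?_⟩
    convert hF.smul (3 : ℂ)⁻¹ using 1
    · rfl
    · rw [hZ, zsmul_eq_mul, map_mul, map_intCast, ← map_intCast (PowerSeries.C (R := ℂ))]
      ext n
      rw [PowerSeries.coeff_smul, PowerSeries.coeff_C_mul, Int.cast_ofNat, smul_eq_mul]
      field_simp
  obtain ⟨Z, hZ'⟩ := exists_polynomial_mod_three hWmem
  obtain ⟨B, hB⟩ := exists_polynomial_mod_three h0
  have hWm : map (Int.castRingHom (ZMod 3)) W =
      map (Int.castRingHom (ZMod 3)) a * divSeries (ZMod 3) 3 := by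
    rw [hW, map_add, map_mul, map_add, map_zsmul, map_zsmul, map_zsmul, map_divSeries,
      map_divSeries]
    simp only [zsmul_eq_mul]
    have e : ∀ (m : ℤ) (r : ZMod 3), (m : ZMod 3) = r →
        (m : PowerSeries (ZMod 3)) = PowerSeries.C r := fun m r hr => by
      rw [← hr, map_intCast]
    rw [e 160 1 (by decide), e 336 0 (by decide), e 3 0 (by decide), map_one, map_zero]
    ring
  rw [← hZ', ← hB] at hWm
  have hrel : Z ^ 3 - B ^ 2 * Z + Polynomial.X * B ^ 3 = 0 := by
    apply aeval_dSeries_injective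
    rw [map_add, map_sub, map_mul, map_mul, map_pow, map_pow, map_pow, Polynomial.aeval_X, hWm,
      dSeries_mod_three]
    ring
  have hB0 : B ≠ 0 := fun hB0 => by
    have h := congrArg (coeff 1) hB
    rw [hB0, map_zero, map_zero, PowerSeries.coeff_map, eq_intCast] at h
    have h' := coeff_traceSeries_geom cg hm h9 hp 0 hk hk1 (dSeries ℤ ^ p) 1
    rw [pow_zero, one_mul, mul_one, coeff_self_dSeries_pow, if_neg hp.not_dvd_one, sub_zero,
      Int.cast_one] at h'
    have h'' := congrArg (ZMod.castHom (show 3 ∣ 9 by norm_num) (ZMod 3)) h'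
    rw [map_intCast, map_one] at h''
    rw [h''] at h
    exact absurd h (by decide)
  -- compare degrees
  have hd := congrArg Polynomial.natDegree (eq_neg_of_add_eq_zero_right hrel)
  rw [Polynomial.natDegree_neg, Polynomial.natDegree_X_mul (pow_ne_zero _ hB0),
    Polynomial.natDegree_pow] at hd
  rcases le_or_gt Z.natDegree B.natDegree with hzb | hzb
  · have h' : (Z ^ 3 - B ^ 2 * Z).natDegree ≤ 3 * B.natDegree := by
      refine (Polynomial.natDegree_sub_le _ _).trans (max_le ?_ ?_)
      · rw [Polynomial.natDegree_pow]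
        omega
      · refine Polynomial.natDegree_mul_le.trans ?_
        rw [Polynomial.natDegree_pow]
        omega
    omega
  · have h' : (Z ^ 3 - B ^ 2 * Z).natDegree = 3 * Z.natDegree := by
      rw [Polynomial.natDegree_sub_eq_left_of_natDegree_lt, Polynomial.natDegree_pow]
      refine Polynomial.natDegree_mul_le.trans_lt ?_
      rw [Polynomial.natDegree_pow, Polynomial.natDegree_pow]
      omega
    omega

end Fermat.Agent.Eisenstein
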